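import Fermat.Agent.KlingenZero.Series

/-!
# The form of weight `n` of a periodic function and reciprocity for its constant

For a periodic function with the sign law of weight one and mean zero, the limit at `s = 0` of
Hecke's series is the constant term plus a series in positive products; it is a form of weight
`n = [K : ℚ]` on `Γ₁(N)`. So an automorphism of `ℂ` acts on its normalised constant term through
the finite Fourier sums.
-/

set_option autoImplicit false
set_option linter.unusedSectionVars false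
set_option linter.style.haveILetI false

noncomputable section

open NumberField InfinitePlace Module Filter
open UpperHalfPlane hiding I
open Complex (I)
open scoped Real nonZeroDivisors Classical Topology MatrixGroups Manifold ModularForm

namespace FA.KlingenZero

open FA.HeckeFE FA.SiegelKlingen FA.KlingenRay FA.Eis
open FA.HeckeCharFE (trChar trChar_add)
open FA.PadicEulerFactor (pMul mem_pMul add_mem_lat int_mul_mem)
open CongruenceSubgroup

variable {K : Type*} [Field K] [NumberField K] [IsTotallyReal K]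
variable (J : (FractionalIdeal (𝓞 K)⁰ K)ˣ) (N : ℕ) [NeZero N]

/-- The Dirichlet series whose limit at `s = 0` is the constant term. -/
def perSum1 (Φ : K → ℂ) (s : ℂ) : ℂ :=
  ∑' d : Rep J, Φ d.1 * (((Algebra.norm ℚ d.1 : ℚ) : ℂ))⁻¹ *
    rp (((|Algebra.norm ℚ d.1| : ℚ) : ℝ) ^ 2) s

/-- The constant term, as a limit from the right. -/
def HasLim (Φ : K → ℂ) (l : ℂ) : Prop :=
  Tendsto (fun x : ℝ => perSum1 J Φ x) (𝓝[>] 0) (𝓝 l)

/-- The normalised constant term. -/
def normVal1 (l : ℂ) : ℂ := (factor (pMul J N) 1)⁻¹ * l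

/-- **The form of weight `n`.** -/
def eisPer1 (Φ : K → ℂ) (l : ℂ) (τ : ℍ) : ℂ := l + limSum J N (liftW J N Φ) τ

variable {J N} {Φ : K → ℂ} {l : ℂ}

theorem constPart_liftW (s : ℂ) : constPart J (liftW J N Φ) s = perSum1 J Φ s :=
  tsum_congr fun d => by rw [liftW, if_pos (zero_mem_ideal _)]

theorem wHat_liftW (c ν : K) : wHat J N (liftW J N Φ) c ν =
    if c ∈ (pMul J N : Set K) then hatSum J N Φ ν else 0 := by
  by_cases hc : c ∈ (pMul J N : Set K)
  · rw [if_pos hc, wHat, hatSum, hatSum]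
    exact Finset.sum_congr rfl fun r _ => by simp only [liftW, if_pos hc]
  · rw [if_neg hc, wHat, hatSum]
    exact Finset.sum_eq_zero fun r _ => by simp only [liftW, if_neg hc, zero_mul]

theorem meanZero_liftW (h0 : hatSum J N Φ 0 = 0) : MeanZero J N (liftW J N Φ) := fun c _ => by
  rw [wHat_liftW, h0, ite_self]

theorem HasLim.constPart (hl : HasLim J Φ l) :
    Tendsto (fun x : ℝ => constPart J (liftW J N Φ) x) (𝓝[>] 0) (𝓝 l) := by
  simpa only [constPart_liftW] using! hl

variable (h : IsPer J N 1 Φ) (h0 : hatSum J N Φ 0 = 0) (hl : HasLim J Φ l)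
include h h0 hl

theorem eisPer1_smul {g : SL(2, ℤ)} (hg : g ∈ Gamma1 N) (τ : ℍ) :
    eisPer1 J N Φ l (g • τ) = denom g τ ^ finrank ℚ K * eisPer1 J N Φ l τ :=
  limit_invariant h.lift (meanZero_liftW h0) hl.constPart
    (fun _ h1 h2 => h.lift_rowMul ((Gamma1 N).inv_mem hg) h1 h2) τ

theorem eisPer1_inv {g : SL(2, ℤ)} (hg : g ∈ Gamma1 N) :
    eisPer1 J N Φ l ∣[(finrank ℚ K : ℤ)] g = eisPer1 J N Φ l :=
  (FA.ModField.slash_eq_iff_smul g).2 fun z => by
    rw [zpow_natCast]
    exact eisPer1_smul h h0 hl hg z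

theorem eisPer1_bdd : BddAllCusps ((finrank ℚ K : ℕ) : ℤ) (eisPer1 J N Φ l) := fun A => by
  obtain ⟨C, hC⟩ := exists_cusp h.lift (meanZero_liftW h0) hl.constPart A
  obtain ⟨B, hB⟩ := exists_limSum_le (h.lift.comp A⁻¹)
  rw [isBoundedAtImInfty_iff]
  refine ⟨‖C‖ + B, 1, fun z hz => ?_⟩
  rw [Eis.slash_sl_apply, ← Eis.denom_eq_den, zpow_neg, zpow_natCast, mul_comm, eisPer1, hC z]
  exact (norm_add_le _ _).trans (add_le_add le_rfl (hB z hz))

omit h0 hl in
theorem limTerm_terms (τ : ℍ) (y : Terms J N) :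
    limTerm J N (liftW J N Φ) τ (y.1.1.1, y.1.2) = factor (pMul J N) 1 *
      (((sgnN y.1.1.1.1 ^ 1 * |Algebra.norm ℚ (y.1.2 : K)| ^ (1 - 1) : ℚ) : ℂ) *
        hatSum J N Φ (y.1.2 : K) * expTerm (τ : ℂ) y.1.1.1.1 y.1.2) := by
  have hne : (y.1.2 : K) ≠ 0 := fun e => by simpa [e] using y.2 (Classical.arbitrary _)
  rw [limTerm, if_neg hne, wHat_liftW, if_pos y.1.1.2, coef, if_pos y.2, factor, one_mul,
    pow_one, Nat.sub_self, pow_zero, Nat.factorial_zero, Nat.cast_one, one_pow, one_mul,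
    show normR (pMul J N) * √|((discr K : ℤ) : ℝ)| = covol (pMul J N) from rfl]
  ring

omit h0 hl in
theorem hasSum_limSum (τ : ℍ) : HasSum (fun y : Terms J N => factor (pMul J N) 1 *
    (((sgnN y.1.1.1.1 ^ 1 * |Algebra.norm ℚ (y.1.2 : K)| ^ (1 - 1) : ℚ) : ℂ) *
      hatSum J N Φ (y.1.2 : K) * expTerm (τ : ℂ) y.1.1.1.1 y.1.2))
    (limSum J N (liftW J N Φ) τ) := by
  obtain ⟨B, hB, hb⟩ := exists_limTerm_le h.lift τ.im_pos
  have hs : HasSum (limTerm J N (liftW J N Φ) τ) (limSum J N (liftW J N Φ) τ) :=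
    (Summable.of_norm_bounded hB (hb τ le_rfl)).hasSum
  obtain ⟨i, hi⟩ : ∃ i : Terms J N → DualPair J N, ∀ y, i y = (y.1.1.1, y.1.2) :=
    ⟨_, fun _ => rfl⟩
  have hinj : Function.Injective i := fun a b hab => by
    rw [hi, hi, Prod.mk.injEq] at hab
    exact Subtype.ext (Prod.ext (Subtype.ext hab.1) hab.2)
  refine ((hinj.hasSum_iff fun p hp => ?_).2 hs).congr_fun fun y => ?_
  · by_cases h1 : (p.2 : K) = 0
    · rw [limTerm, if_pos h1]
    rw [limTerm, if_neg h1, wHat_liftW]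
    by_cases h2 : (p.1.1 : K) ∈ (pMul J N : Set K)
    · rw [coef, if_neg fun hall => hp ⟨⟨(⟨p.1, h2⟩, p.2), hall⟩, hi _⟩]
      simp
    · rw [if_neg h2]
      simp
  · rw [Function.comp_apply, hi, limTerm_terms h τ y]

omit h0 hl in
/-- **The q-series.** -/
theorem eisPer1_hasQ : HasQ 1 (eisPer1 J N Φ l) (PowerSeries.mk fun m =>
    if m = 0 then l else factor (pMul J N) 1 * perCoeff J N 1 Φ m) := fun τ => by
  have hterms := hasSum_limSum h τ
  rw [← (Equiv.sigmaFiberEquiv (termLevel J N)).hasSum_iff] at hterms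
  have hlev : HasSum (fun m => factor (pMul J N) 1 * perCoeff J N 1 Φ m *
      Function.Periodic.qParam (1 : ℝ) (τ : ℂ) ^ m) (limSum J N (liftW J N Φ) τ) := by
    refine hterms.sigma fun m => ?_
    have : Fintype {y : Terms J N // termLevel J N y = m} :=
      (finite_termLevel (k := 3) le_rfl m).fintype
    convert hasSum_fintype _ using 1
    rw [perCoeff, tsum_fintype, Finset.mul_sum, Finset.sum_mul]
    refine Finset.sum_congr rfl fun y _ => ?_
    simp only [Function.comp_apply, Equiv.sigmaFiberEquiv_apply, expTerm]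
    rw [← (termLevel_spec y.1).1, y.2, Function.Periodic.qParam, ← Complex.exp_nat_mul,
      Complex.ofReal_one, div_one, mul_assoc]
    push_cast
    congr 2
    ring_nf
  refine ((hasSum_ite_eq 0 l).add hlev).congr_fun fun m => ?_
  rw [PowerSeries.coeff_mk]
  rcases eq_or_ne m 0 with rfl | hm
  · simp [perCoeff_zero]
  · simp [hm]

/-- **The limit is a form of weight `n` on `Γ₁(N)`.** -/
theorem eisPer1_isMF : IsMF (Gamma1 N) (finrank ℚ K) (eisPer1 J N Φ l) :=
  ⟨fun _ hg => eisPer1_inv h h0 hl hg, (eisPer1_hasQ h).mdiff one_pos, eisPer1_bdd h h0 hl⟩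

/-- **Reciprocity for the normalised constant term.** -/
theorem normVal1_galois {Φ' : K → ℂ} {l' : ℂ} (h' : IsPer J N 1 Φ') (hl' : HasLim J Φ' l')
    (σ : ℂ →+* ℂ) (hhat : ∀ ν ∈ (dualIdeal (pMul J N) : Set K),
      σ (hatSum J N Φ ν) = hatSum J N Φ' ν) :
    σ (normVal1 J N l) = normVal1 J N l' := by
  have h0' : hatSum J N Φ' 0 = 0 := by rw [← hhat 0 (zero_mem_ideal _), h0, map_zero]
  obtain ⟨C₀, hC⟩ : ∃ C₀ : ℂ, C₀ = (factor (pMul J N) 1)⁻¹ := ⟨_, rfl⟩
  have hmf : IsMF (Gamma1 N) (finrank ℚ K) (C₀ • eisPer1 J N Φ l) :=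
    ⟨fun g hg => by rw [ModularForm.SL_smul_slash, eisPer1_inv h h0 hl hg],
      ((eisPer1_hasQ h).smul C₀).mdiff one_pos, (eisPer1_bdd h h0 hl).smul C₀⟩
  have hres := constant_galois σ finrank_pos.ne' hmf
    (h := C₀ • eisPer1 J N Φ' l')
    (fun g hg => by rw [ModularForm.SL_smul_slash, eisPer1_inv h' h0' hl' hg])
    ((eisPer1_hasQ h).smul C₀) ((eisPer1_hasQ h').smul C₀) fun m hm => ?_
  · simpa [normVal1, hC] using hres
  · simp only [PowerSeries.coeff_smul, PowerSeries.coeff_mk, if_neg hm, smul_eq_mul, hC,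
      ← mul_assoc, inv_mul_cancel₀ (factor_ne_zero (pMul J N) 1), one_mul]
    have : Fintype {y : Terms J N // termLevel J N y = m} :=
      (finite_termLevel (k := 3) le_rfl m).fintype
    rw [perCoeff, perCoeff, tsum_fintype, tsum_fintype, map_sum]
    exact Finset.sum_congr rfl fun y _ => by rw [map_mul, map_ratCast, hhat _ y.1.1.2.2]

omit h hl h0

/-- **The Fourier sums of the conjugate.** -/
theorem hatSum_conjugate {k : ℕ} (h : IsPer J N k Φ) (σ : ℂ →+* ℂ) {t t' : ℕ}
    (htt : t * t' ≡ 1 [MOD N]) (hσ : ∀ z : ℂ, z ^ N = 1 → σ z = z ^ t) {ν : K}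
    (hν : ν ∈ (dualIdeal (pMul J N) : Set K)) :
    σ (hatSum J N Φ ν) = hatSum J N (fun x => σ (Φ ((t' : K) * x))) ν := by
  have hdual : ∀ {y : K}, y ∈ (pMul J N : Set K) → trChar (ν * y) = 1 := fun hy =>
    FA.HeckeCharFE.trChar_mul_eq_one hν hy
  have hpow : ∀ (s : ℕ) (x : K), trChar (ν * ((s : K) * x)) = trChar (ν * x) ^ s := fun s x => by
    induction s with
    | zero => simp [trChar]
    | succ s ih =>
      rw [Nat.cast_succ, add_mul, one_mul, mul_add, trChar_add, ih, pow_succ]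
  have hroot : ∀ r ∈ (J : Set K), trChar (ν * r) ^ N = 1 := fun r hr => by
    rw [← hpow, hdual (mul_mem_pMul J N hr)]
  have hstep : ∀ r ∈ (J : Set K), trChar (ν * r) ^ (t' * t) = trChar (ν * r) := fun r hr => by
    rw [mul_comm t' t, pow_eq_pow_mod (t * t') (hroot r hr), htt, ← pow_eq_pow_mod 1 (hroot r hr),
      pow_one]
  have hperm := sum_residues_mul J N
    (fun x : K => σ (Φ x) * trChar (ν * x) ^ t) (fun x hx y hy => by
      show σ (Φ (x + y)) * _ = _
      rw [h.periodic x hx y hy, mul_add, trChar_add, hdual hy, mul_one])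
    (t := t') (t' := t) (by rwa [mul_comm])
  calc σ (hatSum J N Φ ν) = ∑ r ∈ residues J N, σ (Φ r) * trChar (ν * r) ^ t := by
        rw [hatSum, map_sum]
        exact Finset.sum_congr rfl fun r hr => by
          rw [map_mul, hσ _ (hroot r (residues_mem J N hr))]
    _ = _ := hperm.symm
    _ = hatSum J N (fun x => σ (Φ ((t' : K) * x))) ν :=
        Finset.sum_congr rfl fun r hr => by
          show σ (Φ _) * _ = _
          rw [hpow, ← pow_mul, hstep r (residues_mem J N hr)]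

/-- **Siegel's reciprocity law in weight one**: `σ` sends the constant term of `Φ` to that of
`σ ∘ Φ ∘ t'`. -/
theorem normVal1_reciprocity (h : IsPer J N 1 Φ) (h0 : hatSum J N Φ 0 = 0) (hl : HasLim J Φ l)
    (σ : ℂ →+* ℂ) {t t' : ℕ} (htt : t * t' ≡ 1 [MOD N])
    (hσ : ∀ z : ℂ, z ^ N = 1 → σ z = z ^ t) {Φ' : K → ℂ} (h' : IsPer J N 1 Φ')
    (hΦ' : ∀ x ∈ (J : Set K), Φ' x = σ (Φ ((t' : K) * x))) {l' : ℂ} (hl' : HasLim J Φ' l') :
    σ (normVal1 J N l) = normVal1 J N l' :=
  normVal1_galois h h0 hl h' hl' σ fun ν hν => by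
    rw [hatSum_conjugate h σ htt hσ hν]
    exact Finset.sum_congr rfl fun r hr => by rw [hΦ' r (residues_mem J N hr)]

end FA.KlingenZero

end
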