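import Fermat.Agent.KlingenZero.Form
import Fermat.Agent.KlingenRay.Values

/-!
# A weight of mean zero from a totally odd character and an auxiliary prime

For an odd character `f` and a prime `𝔭` prime to its modulus, `res f · (1 - N 𝔭 · [· ∈ 𝔭 J])` has
mean zero on `J`, and its constant term is the difference of the cone sums of `J` and `f (𝔭)` times
those of `𝔭 J`, at `1`. Over the classes this is the value at `1` times `1 - f (𝔭)`.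
-/

set_option autoImplicit false
set_option linter.unusedSectionVars false
set_option linter.style.haveILetI false

noncomputable section

open NumberField InfinitePlace Module Filter Complex
open scoped Real nonZeroDivisors Classical Topology

namespace FA.KlingenZero

open FA.HeckeFE FA.SiegelKlingen FA.HeckeCharFE FA.KlingenRay
open FA.PadicEulerFactor (pMul mem_pMul add_mem_lat int_mul_mem)
open FA.Hecke (IsRayChar IsNontrivial heckeL classPart heckeL_eq_sum)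

variable {K : Type*} [Field K] [NumberField K]
variable {𝔪 𝔭 : Ideal (𝓞 K)} {f : Ideal (𝓞 K) →* ℂ}

/-- A prime prime to the modulus where a nontrivial character is not `1`. -/
theorem exists_aux_prime (h : IsRayChar 𝔪 f) (hnt : IsNontrivial f) :
    ∃ 𝔭 : Ideal (𝓞 K), 𝔭.IsMaximal ∧ 𝔭 ≠ ⊥ ∧ 𝔭 ⊔ 𝔪 = ⊤ ∧ f 𝔭 ≠ 1 := by
  obtain ⟨I, hI, h0, h1⟩ := hnt
  by_contra hcon
  push Not at hcon
  refine h1 ?_
  revert hI h0
  clear h1
  induction I using UniqueFactorizationMonoid.induction_on_prime with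
  | h₁ => exact fun hI => absurd rfl hI
  | h₂ x hx =>
    intro _ _
    rw [Ideal.isUnit_iff.1 hx, ← Ideal.one_eq_top, map_one]
  | h₃ a p ha hp ih =>
    intro hI h0
    rw [map_mul, mul_ne_zero_iff] at h0
    have hp0 : p ≠ ⊥ := hp.ne_zero
    rw [map_mul, ih ha h0.2, mul_one,
      hcon p ((Ideal.isPrime_of_prime hp).isMaximal hp0) hp0 ((h.ne_zero_iff p hp0).1 h0.1)]

section Weight

variable [IsTotallyReal K] (J : (FractionalIdeal (𝓞 K)⁰ K)ˣ)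

theorem mem_mul_modUnit_iff (h : 𝔭 ≠ ⊥) (x : K) : x ∈ ((J * modUnit 𝔭 : _) : Set K) ↔
    x ∈ (J : FractionalIdeal (𝓞 K)⁰ K) * (𝔭 : FractionalIdeal (𝓞 K)⁰ K) := by
  rw [← coe_modUnit h, ← Units.val_mul]
  rfl

theorem mem_of_mem_mul_modUnit (h : 𝔭 ≠ ⊥) {x : K} (hx : x ∈ ((J * modUnit 𝔭 : _) : Set K)) :
    x ∈ (J : Set K) :=
  ((mul_le_mul' le_rfl FractionalIdeal.coeIdeal_le_one).trans (mul_one _).le)
    ((mem_mul_modUnit_iff J h x).1 hx)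

theorem natCast_mul_mem_mul (h : 𝔭 ≠ ⊥) {N : ℕ} (hN : (N : 𝓞 K) ∈ 𝔭) {x : K}
    (hx : x ∈ (J : Set K)) : (N : K) * x ∈ ((J * modUnit 𝔭 : _) : Set K) := by
  rw [mem_mul_modUnit_iff J h, mul_comm (N : K)]
  exact FractionalIdeal.mul_mem_mul hx
    ((FractionalIdeal.mem_coeIdeal _).2 ⟨_, hN, map_natCast _ _⟩)

theorem pMul_subset (h : 𝔭 ≠ ⊥) {N : ℕ} [NeZero N] (hN : (N : 𝓞 K) ∈ 𝔭) {y : K}
    (hy : y ∈ (pMul J N : Set K)) : y ∈ ((J * modUnit 𝔭 : _) : Set K) := by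
  have h1 := natCast_mul_mem_mul J h hN (mem_pMul.1 hy)
  rwa [mul_div_cancel₀ _ (Nat.cast_ne_zero.2 (NeZero.ne N) : (N : K) ≠ 0)] at h1

variable (N : ℕ) [NeZero N]

/-- Translations permute the residues. -/
theorem sum_residues_add {M : Type*} [AddCommMonoid M] (g : K → M)
    (hg : ∀ x ∈ (J : Set K), ∀ y ∈ (pMul J N : Set K), g (x + y) = g x) {z : K}
    (hz : z ∈ (J : Set K)) :
    ∑ r ∈ residues J N, g (r + z) = ∑ r ∈ residues J N, g r := by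
  choose ρ hρ hρu using fun (x : K) (hx : x ∈ (J : Set K)) => existsUnique_residue J N hx
  have hadd : ∀ {r : K}, r ∈ residues J N → r + z ∈ (J : Set K) := fun hr =>
    add_mem_lat (residues_mem J N hr) hz
  have hsub : ∀ {r : K}, r ∈ residues J N → r - z ∈ (J : Set K) := fun hr =>
    sub_mem_lat J (residues_mem J N hr) hz
  have hneg : ∀ {x : K}, x ∈ (pMul J N : Set K) → -x ∈ (pMul J N : Set K) := fun hx => by
    have h1 := sub_mem_lat (pMul J N) (zero_mem_ideal _) hx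
    rwa [zero_sub] at h1
  refine Finset.sum_bij' (fun r hr => ρ _ (hadd hr)) (fun r hr => ρ _ (hsub hr))
    (fun r hr => (hρ _ _).1) (fun r hr => (hρ _ _).1) (fun r hr => ?_) (fun r hr => ?_)
    fun r hr => ?_
  · refine (hρu _ _ r ⟨hr, ?_⟩).symm
    rw [show ρ (r + z) (hadd hr) - z - r = -(r + z - ρ (r + z) (hadd hr)) by ring]
    exact hneg (hρ _ _).2
  · refine (hρu _ _ r ⟨hr, ?_⟩).symm
    rw [show ρ (r - z) (hsub hr) + z - r = -(r - z - ρ (r - z) (hsub hr)) by ring]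
    exact hneg (hρ _ _).2
  · conv_lhs => rw [← add_sub_cancel (ρ (r + z) (hadd hr)) (r + z)]
    exact hg _ (residues_mem J N (hρ _ _).1) _ (hρ _ _).2

/-- Translations by `J 𝔪` meeting every residue of `J` modulo `𝔭 J` once. -/
theorem exists_translations (hp : 𝔭 ≠ ⊥) (hc : 𝔭 ⊔ 𝔪 = ⊤) (hm : 𝔪 ≠ ⊥) :
    ∃ z : 𝓞 K ⧸ 𝔭 → K,
      (∀ b, z b ∈ (J : FractionalIdeal (𝓞 K)⁰ K) * (𝔪 : FractionalIdeal (𝓞 K)⁰ K)) ∧
      ∀ r ∈ (J : Set K), ∃! b, r + z b ∈ ((J * modUnit 𝔭 : _) : Set K) := by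
  obtain ⟨hγ, -, -, hcop⟩ := intIdeal_spec 𝔭 J
  obtain ⟨e, he, he1, -⟩ := exists_one_mem (𝔪 := 𝔭) (J := 𝔪) (sup_comm 𝔭 𝔪 ▸ hc) hm
  obtain ⟨hu, hu1, -⟩ := unitElt_spec hp J
  obtain ⟨z, hz⟩ : ∃ z : 𝓞 K ⧸ 𝔭 → K,
      ∀ b, z b = (gam 𝔭 J)⁻¹ * ((e * (unitElt 𝔭 J * b.out) : 𝓞 K) : K) := ⟨_, fun _ => rfl⟩
  refine ⟨z, fun b => ?_, fun r hr => ?_⟩
  · refine (mem_mul_iff (𝔪 := 𝔭) 𝔪).2 ⟨e * (unitElt 𝔭 J * b.out), ?_, ?_⟩
    · rw [mul_comm (intIdeal 𝔭 J)]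
      exact Ideal.mul_mem_mul he (Ideal.mul_mem_right _ _ hu)
    · rw [hz, mul_inv_cancel_left₀ hγ]
  obtain ⟨hr1, hr2⟩ := toInt_spec 𝔭 hr
  have key : ∀ b, r + z b ∈ ((J * modUnit 𝔭 : _) : Set K) ↔
      b = -Ideal.Quotient.mk 𝔭 (toInt 𝔭 J r) := fun b => by
    have hmk : Ideal.Quotient.mk 𝔭 (toInt 𝔭 J r + e * (unitElt 𝔭 J * b.out)) =
        Ideal.Quotient.mk 𝔭 (toInt 𝔭 J r) + b := by
      rw [map_add, map_mul, map_mul, Ideal.Quotient.mk_out,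
        Ideal.Quotient.eq.2 (show e - 1 ∈ 𝔭 from he1),
        Ideal.Quotient.eq.2 (show unitElt 𝔭 J - 1 ∈ 𝔭 from hu1), map_one, one_mul, one_mul]
    have hmem : (toInt 𝔭 J r + e * (unitElt 𝔭 J * b.out) : 𝓞 K) ∈ intIdeal 𝔭 J :=
      Ideal.add_mem _ hr2 (Ideal.mul_mem_left _ _ (Ideal.mul_mem_right _ _ hu))
    rw [mem_mul_modUnit_iff J hp, mem_mul_iff (𝔪 := 𝔭) 𝔭, eq_neg_iff_add_eq_zero, add_comm b,
      ← hmk, Ideal.Quotient.eq_zero_iff_mem, Ideal.mul_eq_inf_of_coprime (hcop hp)]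
    refine ⟨fun ⟨x, hx, hxe⟩ => ?_, fun h' => ⟨_, ⟨hmem, h'⟩, ?_⟩⟩
    · have e1 : x = toInt 𝔭 J r + e * (unitElt 𝔭 J * b.out) := RingOfIntegers.ext (by
        rw [hxe, mul_add, hz, mul_inv_cancel_left₀ hγ, ← hr1]
        push_cast
        rfl)
      exact e1 ▸ hx.2
    · rw [mul_add, hz, mul_inv_cancel_left₀ hγ, ← hr1]
      push_cast
      rfl
  exact ⟨_, (key _).2 rfl, fun b hb => (key b).1 hb⟩

/-- The weight of mean zero. -/
def auxRes (𝔪 : Ideal (𝓞 K)) (f : Ideal (𝓞 K) →* ℂ) (𝔭 : Ideal (𝓞 K)) (d : K) : ℂ :=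
  res 𝔪 f Finset.univ J d *
    (1 - (Ideal.absNorm 𝔭 : ℂ) * if d ∈ ((J * modUnit 𝔭 : _) : Set K) then 1 else 0)

end Weight

variable [IsTotallyReal K]
variable {J : (FractionalIdeal (𝓞 K)⁰ K)ˣ} {N : ℕ} [NeZero N]
variable (h : HasSigns 𝔪 f Finset.univ) (hp𝔭 : 𝔭 ≠ ⊥)
include h hp𝔭

theorem isPer_auxRes (hN : (N : 𝓞 K) ∈ 𝔪) (hN𝔭 : (N : 𝓞 K) ∈ 𝔭) :
    IsPer J N 1 (auxRes J 𝔪 f 𝔭) where
  periodic d hd y hy := by
    have e : d + y ∈ ((J * modUnit 𝔭 : _) : Set K) ↔ d ∈ ((J * modUnit 𝔭 : _) : Set K) :=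
      ⟨fun h' => by simpa using sub_mem_lat _ h' (pMul_subset J hp𝔭 hN𝔭 hy),
        fun h' => add_mem_lat h' (pMul_subset J hp𝔭 hN𝔭 hy)⟩
    simp only [auxRes, e, (isPer_res h (Or.inr ⟨odd_one, rfl⟩) hN J).periodic d hd y hy]
  unit m d hd := by
    have e : unitVal m * d ∈ ((J * modUnit 𝔭 : _) : Set K) ↔
        d ∈ ((J * modUnit 𝔭 : _) : Set K) :=
      ⟨fun h' => by
        have h'' := unitVal_mul_mem (J * modUnit 𝔭) (-m) h'
        rwa [← mul_assoc, ← unitVal_add, neg_add_cancel, unitVal_zero, one_mul] at h'',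
        unitVal_mul_mem (J * modUnit 𝔭) m⟩
    simp only [auxRes, e, (isPer_res h (Or.inr ⟨odd_one, rfl⟩) hN J).unit m d hd, mul_assoc]

/-- **The mean is zero.** -/
theorem hatSum_auxRes_zero (hc : 𝔭 ⊔ 𝔪 = ⊤) (hN : (N : 𝓞 K) ∈ 𝔪) (hN𝔭 : (N : 𝓞 K) ∈ 𝔭) :
    hatSum J N (auxRes J 𝔪 f 𝔭) 0 = 0 := by
  obtain ⟨g, hg⟩ : ∃ g : K → ℂ, ∀ x, g x = res 𝔪 f Finset.univ J x *
      if x ∈ ((J * modUnit 𝔭 : _) : Set K) then 1 else 0 := ⟨_, fun _ => rfl⟩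
  obtain ⟨z, hz, hz1⟩ := exists_translations J hp𝔭 hc h.ne_bot
  have hzJ : ∀ b, z b ∈ (J : Set K) := fun b =>
    ((mul_le_mul' le_rfl FractionalIdeal.coeIdeal_le_one).trans (mul_one _).le) (hz b)
  have : Finite (𝓞 K ⧸ 𝔭) := Ideal.finiteQuotientOfFreeOfNeBot 𝔭 hp𝔭
  let _ := Fintype.ofFinite (𝓞 K ⧸ 𝔭)
  have hcard : (Ideal.absNorm 𝔭 : ℂ) = (Fintype.card (𝓞 K ⧸ 𝔭) : ℂ) := by
    rw [Ideal.absNorm_apply, Submodule.cardQuot_apply, Nat.card_eq_fintype_card]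
  have hper : ∀ x ∈ (J : Set K), ∀ y ∈ (pMul J N : Set K), g (x + y) = g x := fun x hx y hy => by
    have e : x + y ∈ ((J * modUnit 𝔭 : _) : Set K) ↔ x ∈ ((J * modUnit 𝔭 : _) : Set K) :=
      ⟨fun h' => by simpa using sub_mem_lat _ h' (pMul_subset J hp𝔭 hN𝔭 hy),
        fun h' => add_mem_lat h' (pMul_subset J hp𝔭 hN𝔭 hy)⟩
    simp only [hg, e, (isPer_res h (Or.inr ⟨odd_one, rfl⟩) hN J).periodic x hx y hy]
  have hsum : (Ideal.absNorm 𝔭 : ℂ) * ∑ r ∈ residues J N, g r =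
      ∑ r ∈ residues J N, res 𝔪 f Finset.univ J r := by
    rw [hcard, ← nsmul_eq_mul, ← Finset.card_univ, ← Finset.sum_const,
      ← Finset.sum_congr rfl fun b _ => sum_residues_add J N g hper (hzJ b), Finset.sum_comm]
    refine Finset.sum_congr rfl fun r hr => ?_
    have hrJ := residues_mem J N hr
    obtain ⟨b, hb, hbu⟩ := hz1 r hrJ
    rw [Finset.sum_eq_single b (fun c _ hcb => by rw [hg, if_neg fun hc' => hcb (hbu c hc'),
      mul_zero]) (by simp), hg, if_pos hb, mul_one]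
    exact h.res_congr J (add_mem_lat hrJ (hzJ b)) hrJ (by rw [add_sub_cancel_left]; exact hz b)
  rw [hatSum]
  calc ∑ r ∈ residues J N, auxRes J 𝔪 f 𝔭 r * trChar (0 * r)
      = ∑ r ∈ residues J N, (res 𝔪 f Finset.univ J r - (Ideal.absNorm 𝔭 : ℂ) * g r) :=
        Finset.sum_congr rfl fun r _ => by
          rw [zero_mul, show trChar (0 : K) = 1 by simp [trChar], auxRes, hg]
          ring
    _ = 0 := by rw [Finset.sum_sub_distrib, ← Finset.mul_sum, hsum, sub_self]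

omit hp𝔭

/-- The cone sum of an ideal, continued to a neighbourhood of `1`. -/
def coneExt (hp : IsPrimitiveChar 𝔪 f) (J : (FractionalIdeal (𝓞 K)⁰ K)ˣ) (t : ℂ) : ℂ :=
  (jac K : ℂ) / charFac K 𝔪 Finset.univ t * (h.charPair hp J).Λ₀ (t / 2)

theorem continuousAt_coneExt (hp : IsPrimitiveChar 𝔪 f) (J : (FractionalIdeal (𝓞 K)⁰ K)ˣ) :
    ContinuousAt (coneExt h hp J) 1 := by
  have hD : (((discr K).natAbs * Ideal.absNorm 𝔪 : ℕ) : ℂ) ≠ 0 := Nat.cast_ne_zero.2 (mul_ne_zero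
    (Int.natAbs_ne_zero.2 (discr_ne_zero K)) fun h0 => h.ne_bot (Ideal.absNorm_eq_zero_iff.1 h0))
  have e : ∀ t : ℂ, (charFac K 𝔪 Finset.univ t)⁻¹ = invFac K 𝔪 Finset.univ t := fun t => by
    rw [invFac, charFac, IsTotallyReal.nrComplexPlaces_eq_zero, pow_zero, mul_one, cpow_neg,
      mul_inv, mul_inv, inv_pow, inv_pow]
  have hd : Differentiable ℂ (invFac K 𝔪 Finset.univ) :=
    ((differentiable_id.div_const 2).neg.const_cpow (Or.inl hD)).mul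
      ((differentiable_Gammaℝ_inv.pow _).mul
        ((differentiable_Gammaℝ_inv.comp (differentiable_id.add_const 1)).pow _))
  unfold coneExt
  simp only [div_eq_mul_inv, e]
  exact ((hd.const_mul _).mul ((h.charPair hp J).differentiable_Λ₀.comp
    (differentiable_id.mul_const _))).continuous.continuousAt

theorem coneExt_eq (hp : IsPrimitiveChar 𝔪 f) (J : (FractionalIdeal (𝓞 K)⁰ K)ˣ) {t : ℂ}
    (ht : 1 < t.re) : coneExt h hp J t = charCone 𝔪 f Finset.univ J t := by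
  have hσ : 1 / 2 < (t / 2).re := by simp only [div_ofNat_re]; linarith
  have hne : ∀ I, ¬(I = (⊤ : Ideal (𝓞 K)) ∧ (Finset.univ : Finset (InfinitePlace K)) = ∅) :=
    fun I hI => Finset.univ_nonempty.ne_empty hI.2
  have hF := h.charFac_ne_zero (s := t) (by linarith)
  have hj : (jac K : ℂ) ≠ 0 := ofReal_ne_zero.2 jac_pos.ne'
  rw [coneExt, h.Λ₀_half hp J hσ, h.constTerm_eq_zero J (hne _),
    h.conj.constTerm_eq_zero (dualAt 𝔪 J) (hne _), h.charCone_eq J ht,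
    mul_div_cancel₀ t two_ne_zero]
  simp only [mul_zero, add_zero]
  field_simp

theorem sum_coneExt (hp : IsPrimitiveChar 𝔪 f) (hnt : IsNontrivial f)
    (I : ClassGroup (𝓞 K) → (FractionalIdeal (𝓞 K)⁰ K)ˣ)
    (hI : Function.Bijective fun C => (ClassGroup.mk K (I C))⁻¹) :
    ∑ C, coneExt h hp (I C) 1 = (Units.torsionOrder K : ℂ) * primExt h hp 1 := by
  have ht : Tendsto (fun x : ℝ => (x : ℂ)) (𝓝[>] 1) (𝓝 1) := by
    simpa using (continuous_ofReal.tendsto (1 : ℝ)).mono_left nhdsWithin_le_nhds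
  refine tendsto_nhds_unique (tendsto_finsetSum _ fun C _ =>
    ((continuousAt_coneExt h hp (I C)).tendsto.comp ht)) ?_
  refine ((((differentiable_primExt h hp).continuous.tendsto _).comp ht).const_mul
    (Units.torsionOrder K : ℂ)).congr' ?_
  filter_upwards [self_mem_nhdsWithin] with x (hx : 1 < x)
  have hx' : 1 < (x : ℂ).re := by simpa using hx
  simp only [Function.comp_apply]
  rw [primExt_eq h hp hnt hx', Finset.sum_congr rfl fun C _ => (coneExt_eq h hp (I C) hx').trans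
    (h.charCone_eq (I C) hx'), ← Finset.mul_sum, heckeL_eq_sum h.ray hx']
  exact congrArg _ (hI.sum_comp fun C => classPart f C (x : ℂ)).symm

/-- The terms of the cone sum. -/
theorem res_term_eq (J : (FractionalIdeal (𝓞 K)⁰ K)ˣ) (d : Rep J) {x : ℝ} :
    res 𝔪 f Finset.univ J d.1 * ((Algebra.norm ℚ d.1 : ℚ) : ℂ)⁻¹ *
      rp (((|Algebra.norm ℚ d.1| : ℚ) : ℝ) ^ 2) x =
    ((normR J ^ (-(1 + 2 * x)) : ℝ) : ℂ) *
      (coefAt 𝔪 f Finset.univ J d.1 * (ratio J d.1 : ℂ) ^ (-(((1 + 2 * x : ℝ)) : ℂ))) := by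
  have hd := Rep.ne_zero J d
  have hr := zero_lt_one.trans_le (one_le_ratio_rep J d)
  have hN : Algebra.norm ℚ d.1 ≠ 0 := Algebra.norm_ne_zero_iff.2 hd
  obtain ⟨a, ha⟩ : ∃ a : ℝ, a = ((|Algebra.norm ℚ d.1| : ℚ) : ℝ) := ⟨_, rfl⟩
  have ha0 : 0 < a := ha ▸ Rat.cast_pos.2 (abs_pos.2 hN)
  have e1 : ((Algebra.norm ℚ d.1 : ℚ) : ℂ)⁻¹ =
      ((sgnN d.1 : ℚ) : ℂ) * ((a⁻¹ : ℝ) : ℂ) := by
    rw [ha, sgnN, Rat.cast_div, ofReal_inv, ofReal_ratCast]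
    have h1 : ((|Algebra.norm ℚ d.1| : ℚ) : ℂ) ≠ 0 := Rat.cast_ne_zero.2 (abs_ne_zero.2 hN)
    have h2 : ((Algebra.norm ℚ d.1 : ℚ) : ℂ) ≠ 0 := Rat.cast_ne_zero.2 hN
    field_simp
    rw [← Rat.cast_pow, ← Rat.cast_pow, sq_abs]
  have e2 : a⁻¹ * (a ^ 2) ^ (-x) = normR J ^ (-(1 + 2 * x)) * ratio J d.1 ^ (-(1 + 2 * x)) := by
    rw [← Real.mul_rpow (normR_pos J).le hr.le, normR_mul_ratio, ← ha, ← Real.rpow_natCast a 2,
      ← Real.rpow_mul ha0.le, ← Real.rpow_neg_one, ← Real.rpow_add ha0]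
    congr 1
    push_cast
    ring
  rw [← ha, e1, rp_ofReal (pow_pos ha0 2), coefAt,
    sgnS_parity (k := 1) (Or.inr ⟨odd_one, rfl⟩) hd, pow_one, ← ofReal_neg,
    ← ofReal_cpow hr.le]
  calc _ = res 𝔪 f Finset.univ J d.1 * ((sgnN d.1 : ℚ) : ℂ) *
        ((a⁻¹ * (a ^ 2) ^ (-x) : ℝ) : ℂ) := by push_cast; ring
    _ = _ := by rw [e2]; push_cast; ring

theorem summable_res_term (J : (FractionalIdeal (𝓞 K)⁰ K)ˣ) {x : ℝ} (hx : 0 < x) :
    Summable fun d : Rep J => res 𝔪 f Finset.univ J d.1 * ((Algebra.norm ℚ d.1 : ℚ) : ℂ)⁻¹ *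
      rp (((|Algebra.norm ℚ d.1| : ℚ) : ℝ) ^ 2) x := by
  refine Summable.of_norm_bounded ((summable_ratio J (x := 1 + 2 * x) (by linarith)).mul_left
    (normR J ^ (-(1 + 2 * x)))) fun d => ?_
  have hr := zero_lt_one.trans_le (one_le_ratio_rep J d)
  rw [res_term_eq h J d, norm_mul, norm_mul, norm_real, Real.norm_eq_abs,
    abs_of_pos (Real.rpow_pos_of_pos (normR_pos J) _), ← ofReal_neg, ← ofReal_cpow hr.le,
    norm_real, Real.norm_eq_abs, abs_of_pos (Real.rpow_pos_of_pos hr _)]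
  exact mul_le_mul_of_nonneg_left
    (mul_le_of_le_one_left (Real.rpow_pos_of_pos hr _).le
      (h.norm_coefAt_le J (Rep.ne_zero J d))) (Real.rpow_pos_of_pos (normR_pos J) _).le

/-- The series of `res` is the cone sum. -/
theorem perSum1_res (hp : IsPrimitiveChar 𝔪 f) (J : (FractionalIdeal (𝓞 K)⁰ K)ˣ) {x : ℝ}
    (hx : 0 < x) : perSum1 J (res 𝔪 f Finset.univ J) x =
      ((normR J ^ (-(1 + 2 * x)) : ℝ) : ℂ) * coneExt h hp J ((1 + 2 * x : ℝ) : ℂ) := by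
  rw [coneExt_eq h hp J (by rw [ofReal_re]; linarith), charCone, ← tsum_mul_left]
  exact tsum_congr fun d => res_term_eq h J d

include hp𝔭

theorem res_mul_modUnit (J : (FractionalIdeal (𝓞 K)⁰ K)ˣ) {x : K} (hx0 : x ≠ 0)
    (hx : x ∈ ((J * modUnit 𝔭 : _) : Set K)) : res 𝔪 f Finset.univ J x =
      f 𝔭 * res 𝔪 f Finset.univ (J * modUnit 𝔭) x := by
  obtain ⟨A, hA⟩ := h.exists_quotient_ideal (J * modUnit 𝔭) hx
  rw [h.res_eq _ hx hx0 hA, h.res_eq J (mem_of_mem_mul_modUnit J hp𝔭 hx) hx0 (A := A * 𝔭)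
    (by rw [← hA, FractionalIdeal.coeIdeal_mul, Units.val_mul, coe_modUnit hp𝔭]; ring), map_mul]
  ring

theorem perSum1_auxRes (hp : IsPrimitiveChar 𝔪 f) (J : (FractionalIdeal (𝓞 K)⁰ K)ˣ) {x : ℝ}
    (hx : 0 < x) : perSum1 J (auxRes J 𝔪 f 𝔭) x =
      ((normR J ^ (-(1 + 2 * x)) : ℝ) : ℂ) * coneExt h hp J ((1 + 2 * x : ℝ) : ℂ) -
        (Ideal.absNorm 𝔭 : ℂ) * f 𝔭 * (((normR (J * modUnit 𝔭) ^ (-(1 + 2 * x)) : ℝ) : ℂ) *
          coneExt h hp (J * modUnit 𝔭) ((1 + 2 * x : ℝ) : ℂ)) := by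
  obtain ⟨i, hi⟩ : ∃ i : Rep (J * modUnit 𝔭) → Rep J, ∀ a, (i a : K) = a :=
    ⟨fun a => ⟨a.1, mem_of_mem_mul_modUnit J hp𝔭 a.2.1, a.2.2⟩, fun a => rfl⟩
  have hinj : Function.Injective i := fun a b e => Subtype.ext (by rw [← hi a, ← hi b, e])
  obtain ⟨T, hT⟩ : ∃ T : Rep J → ℂ, ∀ d, T d = res 𝔪 f Finset.univ J d.1 *
      ((Algebra.norm ℚ d.1 : ℚ) : ℂ)⁻¹ * rp (((|Algebra.norm ℚ d.1| : ℚ) : ℝ) ^ 2) x :=
    ⟨_, fun _ => rfl⟩
  obtain ⟨G, hG⟩ : ∃ G : Rep J → ℂ, ∀ d, G d =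
      (if d.1 ∈ ((J * modUnit 𝔭 : _) : Set K) then 1 else 0) * T d := ⟨_, fun _ => rfl⟩
  have hTs : Summable T := (summable_res_term h J hx).congr fun d => (hT d).symm
  have hGs : Summable G := Summable.of_norm_bounded hTs.norm fun d => by
    rw [hG]
    split_ifs <;> simp
  have hGv : ∑' d, G d = f 𝔭 * perSum1 (J * modUnit 𝔭)
      (res 𝔪 f Finset.univ (J * modUnit 𝔭)) x := by
    rw [perSum1, ← tsum_mul_left, ← hinj.tsum_eq (f := G) fun d hd => ?_]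
    · refine tsum_congr fun a => ?_
      rw [hG, hT, hi, if_pos a.2.1, one_mul,
        res_mul_modUnit h hp𝔭 J (Rep.ne_zero _ a) a.2.1]
      ring
    · by_cases hd' : d.1 ∈ ((J * modUnit 𝔭 : _) : Set K)
      · exact ⟨⟨d.1, hd', d.2.2⟩, Subtype.ext (hi _)⟩
      · refine absurd ?_ hd
        rw [hG, if_neg hd', zero_mul]
  rw [← perSum1_res h hp J hx, ← perSum1_res h hp (J * modUnit 𝔭) hx, mul_assoc, ← hGv, perSum1,
    perSum1, ← tsum_congr hT, ← tsum_mul_left, ← hTs.tsum_sub (hGs.mul_left _)]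
  refine tsum_congr fun d => ?_
  rw [hG, hT, auxRes]
  ring

/-- **The constant term exists.** -/
theorem hasLim_auxRes (hp : IsPrimitiveChar 𝔪 f) (J : (FractionalIdeal (𝓞 K)⁰ K)ˣ) :
    HasLim J (auxRes J 𝔪 f 𝔭)
      ((coneExt h hp J 1 - f 𝔭 * coneExt h hp (J * modUnit 𝔭) 1) / (normR J : ℂ)) := by
  have hcone : ∀ I : (FractionalIdeal (𝓞 K)⁰ K)ˣ, Tendsto (fun x : ℝ =>
      ((normR I ^ (-(1 + 2 * x)) : ℝ) : ℂ) * coneExt h hp I ((1 + 2 * x : ℝ) : ℂ))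
      (𝓝[>] 0) (𝓝 (((normR I)⁻¹ : ℝ) * coneExt h hp I 1)) := fun I => by
    have h1 : Tendsto (fun x : ℝ => -(1 + 2 * x)) (𝓝[>] 0) (𝓝 (-1)) := by
      have hcont : Continuous fun x : ℝ => -(1 + 2 * x) := by fun_prop
      simpa using (hcont.tendsto 0).mono_left nhdsWithin_le_nhds
    have h2 : Tendsto (fun x : ℝ => ((1 + 2 * x : ℝ) : ℂ)) (𝓝[>] 0) (𝓝 1) := by
      have hcont : Continuous fun x : ℝ => ((1 + 2 * x : ℝ) : ℂ) := by fun_prop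
      simpa using (hcont.tendsto 0).mono_left nhdsWithin_le_nhds
    refine Tendsto.mul ((continuous_ofReal.tendsto _).comp ?_)
      ((continuousAt_coneExt h hp I).tendsto.comp h2)
    rw [← Real.rpow_neg_one]
    exact tendsto_const_nhds.rpow h1 (Or.inl (normR_pos I).ne')
  have hN0 : (Ideal.absNorm 𝔭 : ℂ) ≠ 0 :=
    Nat.cast_ne_zero.2 fun e => hp𝔭 (Ideal.absNorm_eq_zero_iff.1 e)
  have hv : (coneExt h hp J 1 - f 𝔭 * coneExt h hp (J * modUnit 𝔭) 1) / (normR J : ℂ) =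
      (((normR J)⁻¹ : ℝ) : ℂ) * coneExt h hp J 1 - (Ideal.absNorm 𝔭 : ℂ) * f 𝔭 *
        ((((normR (J * modUnit 𝔭))⁻¹ : ℝ) : ℂ) * coneExt h hp (J * modUnit 𝔭) 1) := by
    rw [normR_mul_modUnit hp𝔭 J]
    have : (normR J : ℂ) ≠ 0 := ofReal_ne_zero.2 (normR_pos J).ne'
    push_cast
    field_simp
  rw [hv, HasLim]
  refine ((hcone J).sub ((hcone (J * modUnit 𝔭)).const_mul _)).congr' ?_
  filter_upwards [self_mem_nhdsWithin] with x hx using (perSum1_auxRes h hp𝔭 hp J hx).symm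

omit h hp𝔭

/-- The constant term of the weight of mean zero. -/
def limVal (𝔪 : Ideal (𝓞 K)) (f : Ideal (𝓞 K) →* ℂ) (𝔭 : Ideal (𝓞 K))
    (J : (FractionalIdeal (𝓞 K)⁰ K)ˣ) : ℂ :=
  limUnder (𝓝[>] (0 : ℝ)) fun x : ℝ => perSum1 J (auxRes J 𝔪 f 𝔭) x

/-- The rational combination of normalised constant terms. -/
def valueSum1 (𝔪 : Ideal (𝓞 K)) (f : Ideal (𝓞 K) →* ℂ) (𝔭 : Ideal (𝓞 K)) (N : ℕ) [NeZero N] : ℂ :=
  ∑ C : ClassGroup (𝓞 K), ((classWeight C 1 N : ℚ) : ℂ) *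
    normVal1 (repIdeal K C) N (limVal 𝔪 f 𝔭 (repIdeal K C))

theorem limVal_eq (h : HasSigns 𝔪 f Finset.univ) (hp𝔭 : 𝔭 ≠ ⊥) (hp : IsPrimitiveChar 𝔪 f)
    (J : (FractionalIdeal (𝓞 K)⁰ K)ˣ) : limVal 𝔪 f 𝔭 J =
      (coneExt h hp J 1 - f 𝔭 * coneExt h hp (J * modUnit 𝔭) 1) / (normR J : ℂ) :=
  (hasLim_auxRes h hp𝔭 hp J).limUnder_eq

theorem hasLim_limVal (h : HasSigns 𝔪 f Finset.univ) (hp𝔭 : 𝔭 ≠ ⊥) (hp : IsPrimitiveChar 𝔪 f)
    (J : (FractionalIdeal (𝓞 K)⁰ K)ˣ) : HasLim J (auxRes J 𝔪 f 𝔭) (limVal 𝔪 f 𝔭 J) :=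
  limVal_eq h hp𝔭 hp J ▸ hasLim_auxRes h hp𝔭 hp J

/-- **The value at `1` from the constant terms.** -/
theorem piConst_mul_valueSum1 (h : HasSigns 𝔪 f Finset.univ) (hp𝔭 : 𝔭 ≠ ⊥)
    (hp : IsPrimitiveChar 𝔪 f) (hnt : IsNontrivial f) (N : ℕ) [NeZero N] :
    piConst K 1 * valueSum1 𝔪 f 𝔭 N = primExt h hp 1 * (1 - f 𝔭) := by
  have hw : (Units.torsionOrder K : ℂ) ≠ 0 := Nat.cast_ne_zero.2 (NeZero.ne _)
  have hterm : ∀ C : ClassGroup (𝓞 K), piConst K 1 * (((classWeight C 1 N : ℚ) : ℂ) *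
      normVal1 (repIdeal K C) N (limVal 𝔪 f 𝔭 (repIdeal K C))) = (Units.torsionOrder K : ℂ)⁻¹ *
        (coneExt h hp (repIdeal K C) 1 - f 𝔭 * coneExt h hp (repIdeal K C * modUnit 𝔭) 1) :=
    fun C => by
    obtain ⟨J, hJ⟩ : ∃ J, J = repIdeal K C := ⟨_, rfl⟩
    have hπ : (-(2 * (π : ℂ) * I)) ^ finrank ℚ K ≠ 0 := pow_ne_zero _ (by simp [Real.pi_ne_zero])
    have hd : ((√|((discr K : ℤ) : ℝ)| : ℝ) : ℂ) ≠ 0 := ofReal_ne_zero.2
      (Real.sqrt_pos.2 (abs_pos.2 (Int.cast_ne_zero.2 (discr_ne_zero K)))).ne'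
    have hn1 : ((FractionalIdeal.absNorm (J : FractionalIdeal (𝓞 K)⁰ K) : ℚ) : ℂ) ≠ 0 := by
      have h1 := (normR_pos J).ne'
      rw [normR] at h1
      exact_mod_cast h1
    have hn2 : ((FractionalIdeal.absNorm (pMul J N : FractionalIdeal (𝓞 K)⁰ K) : ℚ) : ℂ) ≠ 0 := by
      have h1 := (normR_pos (pMul J N)).ne'
      rw [normR] at h1
      exact_mod_cast h1
    rw [← hJ, limVal_eq h hp𝔭 hp, normVal1, piConst, classWeight, ← hJ, factor, normR, normR]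
    simp only [Nat.sub_self, Nat.factorial_zero, Nat.cast_one, one_pow, one_mul, pow_one,
      Rat.cast_div, Rat.cast_mul, Rat.cast_natCast, ofReal_mul, ofReal_ratCast]
    field_simp
  have hbij : Function.Bijective fun C =>
      (ClassGroup.mk K (repIdeal K C * modUnit 𝔭))⁻¹ := by
    simp only [map_mul, mul_inv, mk_repIdeal]
    exact (Equiv.mulRight (ClassGroup.mk K (modUnit 𝔭))⁻¹).bijective
  rw [valueSum1, Finset.mul_sum, Finset.sum_congr rfl fun C _ => hterm C, ← Finset.mul_sum,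
    Finset.sum_sub_distrib, ← Finset.mul_sum, sum_coneExt h hp hnt _ h.bijective_rep,
    sum_coneExt h hp hnt _ hbij]
  field_simp

theorem auxRes_twist (σ : ℂ →+* ℂ) (J : (FractionalIdeal (𝓞 K)⁰ K)ˣ) (x : K) :
    auxRes J 𝔪 (twistChar σ f) 𝔭 x = σ (auxRes J 𝔪 f 𝔭 x) := by
  rw [auxRes, auxRes, res_twist, map_mul, map_sub, map_one, map_mul, map_natCast, apply_ite σ,
    map_one, map_zero]

theorem auxRes_natCast_mul (h : HasSigns 𝔪 f Finset.univ) (hp𝔭 : 𝔭 ≠ ⊥)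
    (J : (FractionalIdeal (𝓞 K)⁰ K)ˣ) {N t t' : ℕ} (hN𝔭 : (N : 𝓞 K) ∈ 𝔭)
    (htt : t * t' ≡ 1 [MOD N]) {x : K} (hx : x ∈ (J : Set K)) :
    auxRes J 𝔪 f 𝔭 ((t' : K) * x) =
      resFn 𝔪 f Finset.univ (t' : 𝓞 K) * auxRes J 𝔪 f 𝔭 x := by
  have hmul : ∀ (B : (FractionalIdeal (𝓞 K)⁰ K)ˣ) (s : ℕ) {y : K}, y ∈ (B : Set K) →
      (s : K) * y ∈ (B : Set K) := fun B s y hy => by
    have h := int_mul_mem (B := B) (s : ℤ) hy
    rwa [Int.cast_natCast, mul_comm] at h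
  have e : (t' : K) * x ∈ ((J * modUnit 𝔭 : _) : Set K) ↔
      x ∈ ((J * modUnit 𝔭 : _) : Set K) := by
    refine ⟨fun h1 => ?_, hmul _ t'⟩
    obtain ⟨z, hz⟩ := Int.modEq_iff_dvd.1 (Int.natCast_modEq_iff.2 htt.symm)
    have hz' : (t : K) * t' - 1 = (N : K) * (z : K) := by
      have e' := congrArg (Int.cast : ℤ → K) hz
      push_cast at e'
      exact e'
    rw [show x = (t : K) * ((t' : K) * x) - (N : K) * (x * (z : K)) by
      linear_combination -x * hz']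
    exact sub_mem_lat _ (hmul _ t h1) (natCast_mul_mem_mul J hp𝔭 hN𝔭 (int_mul_mem z hx))
  simp only [auxRes, e, res_natCast_mul h J t' hx, mul_assoc]

/-- **The constant terms under `σ`.** -/
theorem valueSum1_galois (h : HasSigns 𝔪 f Finset.univ) (hp : IsPrimitiveChar 𝔪 f)
    (hp𝔭 : 𝔭 ≠ ⊥) (hc : 𝔭 ⊔ 𝔪 = ⊤) (σ : ℂ →+* ℂ) (hN : (N : 𝓞 K) ∈ 𝔪)
    (hN𝔭 : (N : 𝓞 K) ∈ 𝔭) {t t' : ℕ} (htt : t * t' ≡ 1 [MOD N])
    (hσ : ∀ z : ℂ, z ^ N = 1 → σ z = z ^ t) :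
    σ (valueSum1 𝔪 f 𝔭 N) = resFn 𝔪 (twistChar σ f) Finset.univ (t' : 𝓞 K) *
      valueSum1 𝔪 (twistChar σ f) 𝔭 N := by
  have h' := twist_signs h σ
  obtain ⟨c, hc'⟩ : ∃ c, c = resFn 𝔪 (twistChar σ f) Finset.univ (t' : 𝓞 K) := ⟨_, rfl⟩
  rw [valueSum1, valueSum1, map_sum, Finset.mul_sum]
  refine Finset.sum_congr rfl fun C _ => ?_
  obtain ⟨J, hJ⟩ : ∃ J, J = repIdeal K C := ⟨_, rfl⟩
  have hper' : IsPer J N 1 fun x => c * auxRes J 𝔪 (twistChar σ f) 𝔭 x := by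
    have hP := isPer_auxRes (J := J) h' hp𝔭 hN hN𝔭
    exact ⟨fun d hd y hy => by rw [hP.periodic d hd y hy],
      fun m d hd => by rw [hP.unit m d hd]; ring⟩
  have hlim' : HasLim J (fun x => c * auxRes J 𝔪 (twistChar σ f) 𝔭 x)
      (c * limVal 𝔪 (twistChar σ f) 𝔭 J) := by
    refine ((hasLim_limVal h' hp𝔭 (twist_prim hp σ) J).const_mul c).congr fun x => ?_
    rw [perSum1, perSum1, ← tsum_mul_left]
    exact tsum_congr fun d => by ring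
  have key := normVal1_reciprocity (isPer_auxRes (J := J) h hp𝔭 hN hN𝔭)
    (hatSum_auxRes_zero h hp𝔭 hc hN hN𝔭) (hasLim_limVal h hp𝔭 hp J) σ htt hσ hper'
    (fun x hx => by
      rw [← auxRes_twist, auxRes_natCast_mul h' hp𝔭 J hN𝔭 htt hx, hc']) hlim'
  rw [map_mul, map_ratCast, ← hJ, key, normVal1, normVal1, ← hc']
  ring

end FA.KlingenZero

end
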