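import Fermat.Agent.KlingenZero.Values
import Fermat.Agent.KlingenRay.Classes

/-!
# The values at `0` of the partial zeta functions of the narrow ray classes

Orthogonality of the characters and the Galois law at `0` make each of them rational.
-/

set_option autoImplicit false
set_option linter.unusedSectionVars false

noncomputable section

open NumberField Filter Complex
open scoped nonZeroDivisors Classical

namespace FA.KlingenZero

open FA.KlingenRay
open FA.Hecke (RayClassGroup rayCharFn isRayChar_rayCharFn finite_rayClassGroup)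

variable {K : Type*} [Field K] [NumberField K] [IsTotallyReal K] {𝔪 : Ideal (𝓞 K)}

/-- **The values at `0` are rational.** -/
theorem classValue_zero_rational (h𝔪 : 𝔪 ≠ ⊥) (γ : RayClassGroup 𝔪) {Z : ℂ → ℂ}
    (hZ : IsClassExt h𝔪 γ Z) : ∃ r : ℚ, Z 0 = (r : ℂ) := by
  have := finite_rayClassGroup h𝔪
  have : Fintype (RayClassGroup 𝔪) := Fintype.ofFinite _
  have := FA.Weight1.fintypeDual (U := RayClassGroup 𝔪)
  choose L hL using fun χ : RayClassGroup 𝔪 →* ℂˣ =>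
    exists_isLExt (isRayChar_rayCharFn h𝔪 χ)
  obtain ⟨W, hW⟩ : ∃ W : ℂ → ℂ, W = fun s =>
      (Fintype.card (RayClassGroup 𝔪) : ℂ)⁻¹ * ∑ χ, (χ γ⁻¹ : ℂ) * L χ s := ⟨_, rfl⟩
  have hW' : DifferentiableOn ℂ W {1}ᶜ :=
    hW ▸ (DifferentiableOn.fun_sum fun χ _ => (hL χ).1.const_mul _).const_mul _
  have hWext : Set.EqOn Z W {1}ᶜ := by
    refine (hZ.1.analyticOnNhd isOpen_compl_singleton).eqOn_of_preconnected_of_eventuallyEq
      (hW'.analyticOnNhd isOpen_compl_singleton)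
      (isConnected_compl_singleton_of_one_lt_rank (by simp) 1).isPreconnected
      (z₀ := 2) (by simp) ?_
    filter_upwards [(isOpen_lt continuous_const Complex.continuous_re).mem_nhds
      (show (1 : ℝ) < (2 : ℂ).re by norm_num)] with t ht
    rw [hZ.2 t ht, hW]
    simp only [(hL _).2 t ht]
    rw [← card_mul_rayClassZeta h𝔪 γ ht,
      inv_mul_cancel_left₀ (Nat.cast_ne_zero.2 Fintype.card_ne_zero)]
  have hfix : ∀ σ : ℂ ≃+* ℂ, σ (W 0) = W 0 := fun σ => by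
    simp only [hW, map_mul, map_inv₀, map_natCast, map_sum]
    congr 1
    refine Fintype.sum_equiv (MulEquiv.monoidHomCongrRight
      (Units.mapEquiv σ.toMulEquiv)).toEquiv _ _ fun χ => ?_
    congr 1
    refine value_zero_galois (isRayChar_rayCharFn h𝔪 χ) σ.toRingHom (hL χ) ?_
    rw [twist_rayCharFn]
    exact hL _
  obtain ⟨r, hr⟩ := IntermediateField.mem_bot.1
    (mem_of_forall_fixed ⊥ (W 0) fun σ _ => hfix σ)
  exact ⟨r, by rw [hWext (show (0 : ℂ) ∈ ({1}ᶜ : Set ℂ) by simp), ← hr, eq_ratCast]⟩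

open FA.HeckeCharFE in
/-- A ray class character is fixed by `σ` if it agrees with a character of rational values prime to
a smaller modulus. -/
theorem twist_eq_self {𝔣 : Ideal (𝓞 K)} {f g : Ideal (𝓞 K) →* ℂ}
    (hg : FA.Hecke.IsRayChar 𝔣 g) (h𝔪 : 𝔪 ≠ ⊥) (hle : 𝔪 ≤ 𝔣)
    (hgf : ∀ I : Ideal (𝓞 K), I ≠ ⊥ → I ⊔ 𝔪 = ⊤ → g I = f I) (σ : ℂ →+* ℂ)
    (hf : twistChar σ f = f) : twistChar σ g = g := by
  refine MonoidHom.ext fun I => ?_
  show σ (g I) = g I
  by_cases hI : I = ⊥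
  · subst hI
    have e : g ⊥ * g ⊥ = g ⊥ := by rw [← map_mul, Ideal.mul_bot]
    rcases eq_or_ne (g ⊥) 0 with h0 | h0
    · rw [h0, map_zero]
    · rw [mul_left_cancel₀ h0 (e.trans (mul_one _).symm), map_one]
  by_cases hc : I ⊔ 𝔣 = ⊤
  swap
  · rw [hg.eq_zero_of_not hI hc, map_zero]
  obtain ⟨χ, hχ⟩ := exists_rayClassHom hg
  obtain ⟨γ, hγ⟩ := FA.ArtinRec.rayMap_surjective h𝔪 hg.ne_bot hle
    (FA.Hecke.rayClass hg.ne_bot ⟨⟨I, mem_nonZeroDivisors_iff_ne_zero.2 hI⟩, hc⟩)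
  obtain ⟨J, rfl⟩ := FA.Hecke.rayClass_surjective h𝔪 γ
  rw [FA.ArtinRec.rayMap_apply] at hγ
  have e : g I = g J.1.1 :=
    (hχ ⟨⟨I, mem_nonZeroDivisors_iff_ne_zero.2 hI⟩, hc⟩).symm.trans
      ((congrArg (fun c => (χ c : ℂ)) hγ.symm).trans
        (hχ ⟨J.1, FA.ArtinRec.coprimeIdeals_mono hle J.2⟩))
  rw [e, hgf _ (nonZeroDivisors.coe_ne_zero J.1) J.2]
  exact DFunLike.congr_fun hf J.1.1

end FA.KlingenZero

end
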