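import Fermat.Agent.KlingenZero.Poisson
import Fermat.Agent.KlingenRay.Expansion

/-!
# Hecke's series of weight one and its limit at the cusps

For a weight on pairs with the sign law of weight one, Hecke's series is, for `1/2 < s < 1`, the
sum of a Dirichlet series, a multiple of `y ^ (-2 n s)` and dual terms holomorphic in the strip. If
the middle part vanishes and the first has a limit at `0`, then so has the whole, and at every cusp
the limit is a constant plus a series bounded above every line: the possible `log y` is excluded by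
holomorphy, so no continuation of the middle part is needed.
-/

set_option autoImplicit false
set_option linter.unusedSectionVars false
set_option linter.style.haveILetI false

noncomputable section

open NumberField InfinitePlace Module Filter
open UpperHalfPlane hiding I
open Complex (I)
open scoped Real nonZeroDivisors Classical Topology MatrixGroups

namespace FA.KlingenZero

open FA.HeckeFE FA.SiegelKlingen FA.KlingenRay
open FA.HeckeCharFE (trChar norm_trChar)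
open FA.PadicEulerFactor (pMul mem_pMul add_mem_lat int_mul_mem)

variable {K : Type*} [Field K] [NumberField K] [IsTotallyReal K]
variable (J : (FractionalIdeal (𝓞 K)⁰ K)ˣ) (N : ℕ) [NeZero N]

/-- Pairs of a representative and a dual element. -/
abbrev DualPair : Type _ := Rep J × ↥(dualIdeal (pMul J N) : Set K)

/-- The Fourier sums of a weight in the second variable. -/
def wHat (Ψ : K × K → ℂ) (c ν : K) : ℂ := hatSum J N (fun d => Ψ (c, d)) ν

/-- A dual term off `ν = 0`. -/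
def tailTerm (Ψ : K × K → ℂ) (s : ℂ) (τ : ℍ) (p : DualPair J N) : ℂ :=
  if (p.2 : K) = 0 then 0
  else ((covol (pMul J N) : ℝ) : ℂ)⁻¹ *
    (wHat J N Ψ p.1.1 p.2 * dualTerm1 s τ p.1.1 p.2)

/-- The sum of the dual terms. -/
def tailSum (Ψ : K × K → ℂ) (s : ℂ) (τ : ℍ) : ℂ := ∑' p, tailTerm J N Ψ s τ p

/-- The sum over `c = 0`. -/
def constPart (Ψ : K × K → ℂ) (s : ℂ) : ℂ :=
  ∑' d : Rep J, Ψ (0, d.1) * (((Algebra.norm ℚ d.1 : ℚ) : ℂ))⁻¹ *
    rp (((|Algebra.norm ℚ d.1| : ℚ) : ℝ) ^ 2) s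

/-- The limit of a dual term. -/
def limTerm (Ψ : K × K → ℂ) (z : ℂ) (p : DualPair J N) : ℂ :=
  if (p.2 : K) = 0 then 0
  else ((covol (pMul J N) : ℝ) : ℂ)⁻¹ * (wHat J N Ψ p.1.1 p.2 *
    ((-(2 * π * I)) ^ finrank ℚ K * (((sgnN p.1.1 * coef 1 p.1.1 (p.2 : K) : ℚ) : ℂ) *
      Complex.exp (2 * π * I * z * ((Algebra.trace ℚ K (p.1.1 * (p.2 : K)) : ℚ) : ℂ)))))

/-- The sum of the limits. -/
def limSum (Ψ : K × K → ℂ) (z : ℂ) : ℂ := ∑' p, limTerm J N Ψ z p

/-- Hecke's series. -/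
def hOrb (Ψ : K × K → ℂ) (s : ℂ) (τ : ℍ) : ℂ :=
  ∑' x : Orb J, Ψ (repPair J x) * hTerm s τ (repPair J x).1 (repPair J x).2

/-- The middle part without its power of `y`. -/
def zeroCoef (Ψ : K × K → ℂ) (s : ℂ) : ℂ :=
  ((covol (pMul J N) : ℝ) : ℂ)⁻¹ * fourierK s 0 ^ finrank ℚ K *
    ∑' c : Rep J, wHat J N Ψ c.1 0 * ((sgnN c.1 : ℚ) : ℂ) *
      rp (((|Algebra.norm ℚ c.1| : ℚ) : ℝ) ^ 2) s

variable {J N} {Ψ : K × K → ℂ}

theorem exists_wHat_le (hΨ : IsWeight J N 1 Ψ) :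
    ∃ M : ℝ, 0 ≤ M ∧ ∀ c ∈ (J : Set K), ∀ ν : K, ‖wHat J N Ψ c ν‖ ≤ M := by
  obtain ⟨M, hM0, hM⟩ := hΨ.exists_bound
  exact ⟨(residues J N).card * M, by positivity, fun c hc ν => (norm_hatSum_le ν).trans
    ((Finset.sum_le_card_nsmul _ _ M fun r hr => hM c hc r (residues_mem J N hr)).trans_eq
      (nsmul_eq_mul _ _))⟩

/-- **The dual terms are dominated.** -/
theorem exists_tailTerm_le (hΨ : IsWeight J N 1 Ψ) {y₀ : ℝ} (hy : 0 < y₀) :
    ∃ B : DualPair J N → ℝ, Summable B ∧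
      ∀ s ∈ strip, ∀ τ : ℍ, y₀ ≤ τ.im → ∀ p, ‖tailTerm J N Ψ s τ p‖ ≤ B p := by
  obtain ⟨δ, hδ, hδc⟩ := exists_rep_lower_bound J
  obtain ⟨D, hD0, hD⟩ := exists_dual1_bound (pMul J N) hy hδ
  obtain ⟨M, hM0, hM⟩ := exists_wHat_le hΨ
  obtain ⟨C, -, hC⟩ := exists_translate_bound (dualIdeal (pMul J N))
  have h1 : Summable fun x : ↥(dualIdeal (pMul J N) : Set K) => placeWeight fun w =>
      remb w (x : K) := (hC fun _ => 0).1.congr fun x => by simp only [zero_add]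
  have h2 : Summable fun p : DualPair J N => (((|Algebra.norm ℚ p.1.1| : ℚ) : ℝ) ^ 2)⁻¹ *
      placeWeight fun w => remb w (p.2 : K) :=
    Summable.mul_of_nonneg (f := fun c : Rep J => (((|Algebra.norm ℚ c.1| : ℚ) : ℝ) ^ 2)⁻¹)
      (g := fun x : ↥(dualIdeal (pMul J N) : Set K) => placeWeight fun w => remb w (x : K))
      (summable_constSum J le_rfl) h1 (fun c => by positivity) fun x => placeWeight_nonneg _
  refine ⟨_, h2.mul_left (‖((covol (pMul J N) : ℝ) : ℂ)⁻¹‖ * M * D), fun s hs τ hτ p => ?_⟩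
  have hpos : 0 ≤ (((|Algebra.norm ℚ p.1.1| : ℚ) : ℝ) ^ 2)⁻¹ *
      placeWeight fun w => remb w (p.2 : K) := mul_nonneg (by positivity) (placeWeight_nonneg _)
  rw [tailTerm]
  split_ifs with h
  · rw [norm_zero]
    exact mul_nonneg (by positivity) hpos
  · rw [norm_mul, norm_mul, mul_assoc (‖_‖ * M), mul_assoc ‖((covol (pMul J N) : ℝ) : ℂ)⁻¹‖]
    exact mul_le_mul_of_nonneg_left (mul_le_mul (hM _ p.1.2.1 _)
      (hD s hs τ hτ _ (hδc p.1) _ p.2.2 h) (norm_nonneg _) hM0) (norm_nonneg _)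

theorem differentiableOn_tailSum (hΨ : IsWeight J N 1 Ψ) (τ : ℍ) :
    DifferentiableOn ℂ (fun s => tailSum J N Ψ s τ) strip := by
  obtain ⟨B, hB, hb⟩ := exists_tailTerm_le hΨ τ.im_pos
  refine Complex.differentiableOn_tsum_of_summable_norm hB (fun p => ?_) isOpen_strip
    fun p s hs => hb s hs τ le_rfl p
  by_cases h : (p.2 : K) = 0
  · simp only [tailTerm, if_pos h]
    exact differentiableOn_const _
  · simp only [tailTerm, if_neg h]
    exact ((differentiableOn_dualTerm1 τ (Rep.ne_zero J p.1) h).const_mul _).const_mul _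

theorem eventually_strip : ∀ᶠ x : ℝ in 𝓝[>] 0, (x : ℂ) ∈ strip := by
  filter_upwards [Ioo_mem_nhdsGT zero_lt_one] with x hx using ofReal_mem_strip hx.1 hx.2

theorem tendsto_tailTerm (τ : ℍ) (p : DualPair J N) :
    Tendsto (fun x : ℝ => tailTerm J N Ψ x τ p) (𝓝[>] 0) (𝓝 (limTerm J N Ψ τ p)) := by
  by_cases h : (p.2 : K) = 0
  · simp only [tailTerm, limTerm, if_pos h]
    exact tendsto_const_nhds
  · simp only [tailTerm, limTerm, if_neg h]
    exact ((tendsto_dualTerm1 τ (Rep.ne_zero J p.1) h).const_mul _).const_mul _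

theorem exists_limTerm_le (hΨ : IsWeight J N 1 Ψ) {y₀ : ℝ} (hy : 0 < y₀) :
    ∃ B : DualPair J N → ℝ, Summable B ∧
      ∀ τ : ℍ, y₀ ≤ τ.im → ∀ p, ‖limTerm J N Ψ τ p‖ ≤ B p := by
  obtain ⟨B, hB, hb⟩ := exists_tailTerm_le hΨ hy
  refine ⟨B, hB, fun τ hτ p => le_of_tendsto (tendsto_tailTerm τ p).norm ?_⟩
  filter_upwards [eventually_strip] with x hx using hb _ hx τ hτ p

theorem tendsto_tailSum (hΨ : IsWeight J N 1 Ψ) (τ : ℍ) :
    Tendsto (fun x : ℝ => tailSum J N Ψ x τ) (𝓝[>] 0) (𝓝 (limSum J N Ψ τ)) := by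
  obtain ⟨B, hB, hb⟩ := exists_tailTerm_le hΨ τ.im_pos
  refine tendsto_tsum_of_dominated_convergence hB (tendsto_tailTerm τ) ?_
  filter_upwards [eventually_strip] with x hx using fun p => hb _ hx τ le_rfl p

/-- **The limit series is bounded above a line and holomorphic.** -/
theorem exists_limSum_le (hΨ : IsWeight J N 1 Ψ) :
    ∃ B : ℝ, ∀ τ : ℍ, 1 ≤ τ.im → ‖limSum J N Ψ τ‖ ≤ B := by
  obtain ⟨B, hB, hb⟩ := exists_limTerm_le hΨ one_pos
  exact ⟨∑' p, B p, fun τ hτ => tsum_of_norm_bounded hB.hasSum (hb τ hτ)⟩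

theorem differentiableOn_limSum (hΨ : IsWeight J N 1 Ψ) :
    DifferentiableOn ℂ (limSum J N Ψ) {z : ℂ | 0 < z.im} := fun z (hz : 0 < z.im) => by
  obtain ⟨B, hB, hb⟩ := exists_limTerm_le hΨ (half_pos hz)
  have hV : IsOpen {w : ℂ | z.im / 2 < w.im} := isOpen_lt continuous_const Complex.continuous_im
  have hd : DifferentiableOn ℂ (limSum J N Ψ) {w : ℂ | z.im / 2 < w.im} := by
    refine Complex.differentiableOn_tsum_of_summable_norm hB (fun p => ?_) hV fun p w hw =>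
      hb ⟨w, (half_pos hz).trans hw⟩ (le_of_lt hw) p
    by_cases h : (p.2 : K) = 0
    · simp only [limTerm, if_pos h]
      exact differentiableOn_const _
    · simp only [limTerm, if_neg h]
      exact (Differentiable.differentiableOn (by fun_prop))
  exact (hd.differentiableAt (hV.mem_nhds (show z.im / 2 < z.im by linarith))
    ).differentiableWithinAt

theorem differentiableOn_constPart (hΨ : IsWeight J N 1 Ψ) :
    DifferentiableOn ℂ (constPart J Ψ) strip := fun s₀ hs₀ => by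
  obtain ⟨M, hM0, hM⟩ := hΨ.exists_bound
  obtain ⟨ε, hε⟩ : ∃ ε : ℝ, ε = s₀.re / 2 := ⟨_, rfl⟩
  have hε0 : 0 < ε := hε ▸ half_pos hs₀.1
  have hV : IsOpen (strip ∩ {s : ℂ | ε < s.re}) :=
    isOpen_strip.inter (isOpen_lt continuous_const Complex.continuous_re)
  obtain ⟨R, hR⟩ : ∃ R : ℝ, R = max 1 (normR J)⁻¹ ^ (3 : ℝ) := ⟨_, rfl⟩
  have hd : DifferentiableOn ℂ (constPart J Ψ) (strip ∩ {s : ℂ | ε < s.re}) := by
    refine Complex.differentiableOn_tsum_of_summable_norm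
      ((summable_ratio J (x := 1 + 2 * ε) (by linarith)).mul_left (M * R))
      (fun d => ((differentiable_rp _).const_mul _).differentiableOn) hV fun d s hs => ?_
    have hr := zero_lt_one.trans_le (one_le_ratio_rep J d)
    obtain ⟨x, hx⟩ : ∃ x : ℝ, x = ((|Algebra.norm ℚ d.1| : ℚ) : ℝ) := ⟨_, rfl⟩
    have hxe : x = normR J * ratio J d.1 := by rw [hx, normR_mul_ratio]
    have hx0 : 0 < x := hxe ▸ mul_pos (normR_pos J) hr
    have hn : ‖((Algebra.norm ℚ d.1 : ℚ) : ℂ)⁻¹‖ = x⁻¹ := by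
      rw [norm_inv, hx, ← Complex.ofReal_ratCast, Complex.norm_real, Real.norm_eq_abs,
        Rat.cast_abs]
    rw [norm_mul, norm_mul, hn, norm_rp (hx ▸ pow_pos hx0 2), ← hx, mul_assoc, mul_assoc M]
    refine mul_le_mul (hM _ (zero_mem_ideal J) _ d.2.1) ?_ (by positivity) hM0
    rw [← Real.rpow_natCast, ← Real.rpow_mul hx0.le, ← Real.rpow_neg_one, ← Real.rpow_add hx0,
      show (-1 : ℝ) + ((2 : ℕ) : ℝ) * -s.re = -(1 + 2 * s.re) by push_cast; ring, hxe,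
      Real.mul_rpow (normR_pos J).le hr.le]
    refine mul_le_mul ?_ (Real.rpow_le_rpow_of_exponent_le (one_le_ratio_rep J d)
      (by linarith [hs.2.out])) (Real.rpow_nonneg hr.le _) (hR ▸ by positivity)
    rw [Real.rpow_neg (normR_pos J).le, ← Real.inv_rpow (normR_pos J).le, hR]
    have h2 := hs.1.1
    exact (Real.rpow_le_rpow (inv_nonneg.2 (normR_pos J).le) (le_max_right 1 _)
      (by linarith)).trans (Real.rpow_le_rpow_of_exponent_le (le_max_left _ _)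
        (by linarith [hs.1.2.1]))
  exact (hd.differentiableAt (hV.mem_nhds ⟨hs₀, show ε < s₀.re by linarith [hs₀.1]⟩)
    ).differentiableWithinAt

/-! ### The series for `1/2 < re s` -/

theorem prod_rp {ι : Type*} (t : Finset ι) (g : ι → ℝ) (hg : ∀ i, g i ≠ 0) (s : ℂ) :
    ∏ i ∈ t, rp (g i) s = rp (∏ i ∈ t, g i) s := by
  induction t using Finset.induction_on with
  | empty => simp [rp_one]
  | insert a t ha ih =>
    rw [Finset.prod_insert ha, Finset.prod_insert ha, ih,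
      rp_mul (hg a) (Finset.prod_ne_zero_iff.2 fun w _ => hg w)]

theorem hTerm_c_zero (s z : ℂ) {d : K} (hd : d ≠ 0) :
    hTerm s z 0 d = ((Algebra.norm ℚ d : ℚ) : ℂ)⁻¹ *
      rp (((|Algebra.norm ℚ d| : ℚ) : ℝ) ^ 2) s := by
  rw [hTerm, ← prod_abs_remb, ← Finset.prod_pow, ← Complex.ofReal_ratCast (Algebra.norm ℚ d),
    ← prod_remb, Complex.ofReal_prod, ← prod_rp _ _
      (fun w => pow_ne_zero 2 (abs_ne_zero.2 (remb_ne_zero _ hd))), ← Finset.prod_inv_distrib,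
    ← Finset.prod_mul_distrib]
  refine Finset.prod_congr rfl fun w _ => ?_
  rw [map_zero, Complex.ofReal_zero, zero_mul, zero_add, Complex.normSq_ofReal, sq_abs, sq]

/-- **Poisson summation in the second variable**, residue by residue. -/
theorem hasSum_inner (hΨ : IsWeight J N 1 Ψ) {s : ℂ} (hs : s ∈ strip) (hs2 : 1 / 2 ≤ s.re) (τ : ℍ)
    (c : Rep J) (hd : Summable fun d : ↥(J : Set K) => Ψ (c.1, (d : K)) * hTerm s τ c.1 (d : K)) :
    HasSum (fun ν : ↥(dualIdeal (pMul J N) : Set K) => ((covol (pMul J N) : ℝ) : ℂ)⁻¹ *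
        (wHat J N Ψ c.1 (ν : K) * dualTerm1 s τ c.1 (ν : K)))
      (∑' d : ↥(J : Set K), Ψ (c.1, (d : K)) * hTerm s τ c.1 (d : K)) := by
  obtain ⟨e, he⟩ := exists_split J N
  have hval : ∑' d : ↥(J : Set K), Ψ (c.1, (d : K)) * hTerm s τ c.1 (d : K) =
      ∑ r : {r // r ∈ residues J N}, Ψ (c.1, r.1) *
        ∑' y : ↥(pMul J N : Set K), hTerm s τ c.1 (r.1 + (y : K)) := by
    have hd' : Summable fun p : {r // r ∈ residues J N} × ↥(pMul J N : Set K) =>
        Ψ (c.1, (e p : K)) * hTerm s τ c.1 (e p : K) :=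
      (Equiv.summable_iff e
        (f := fun d : ↥(J : Set K) => Ψ (c.1, (d : K)) * hTerm s τ c.1 (d : K))).2 hd
    rw [← e.tsum_eq fun d : ↥(J : Set K) => Ψ (c.1, (d : K)) * hTerm s τ c.1 (d : K),
      Summable.tsum_prod hd', tsum_fintype]
    refine Finset.sum_congr rfl fun r _ => ?_
    rw [← tsum_mul_left]
    refine tsum_congr fun y => ?_
    have h := hΨ.periodic c.1 c.2.1 r.1 (residues_mem J N r.2) 0 (zero_mem_ideal (pMul J N))
      (y : K) y.2
    rw [add_zero] at h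
    rw [he (r, y), h]
  have hh : HasSum (fun ν : ↥(dualIdeal (pMul J N) : Set K) =>
      ∑ r : {r // r ∈ residues J N}, Ψ (c.1, r.1) * (((covol (pMul J N) : ℝ) : ℂ)⁻¹ *
        (dualTerm1 s τ c.1 (ν : K) * trChar ((ν : K) * r.1))))
      (∑ r : {r // r ∈ residues J N}, Ψ (c.1, r.1) *
        ∑' y : ↥(pMul J N : Set K), hTerm s τ c.1 (r.1 + (y : K))) := by
    refine hasSum_sum fun r _ => ?_
    obtain ⟨h1, h2⟩ := inner_poisson1 (pMul J N) hs hs2 τ (Rep.ne_zero J c) r.1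
    rw [h2]
    exact (h1.hasSum.mul_left _).mul_left _
  rw [hval]
  refine hh.congr_fun fun ν => ?_
  rw [wHat, hatSum, ← Finset.sum_coe_sort (residues J N), Finset.sum_mul, Finset.mul_sum]
  exact Finset.sum_congr rfl fun r _ => by ring

/-- **The decomposition.** -/
theorem hOrb_eq (hΨ : IsWeight J N 1 Ψ) {s : ℂ} (hs : s ∈ strip) (hs2 : 1 / 2 < s.re) (τ : ℍ) :
    hOrb J Ψ s τ = constPart J Ψ s + rp ((τ.im ^ finrank ℚ K) ^ 2) s * zeroCoef J N Ψ s +
      tailSum J N Ψ s τ := by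
  obtain ⟨M, hM0, hM⟩ := hΨ.exists_bound
  obtain ⟨δ, hδ, hδc⟩ := exists_rep_lower_bound J
  obtain ⟨C, hC0, hC⟩ := hTerm_inner_bound J hs2.le τ hδ
  have hy := τ.im_pos
  obtain ⟨Q, hQ⟩ : ∃ Q : ℝ, Q = ((normR J * τ.im ^ finrank ℚ K) ^ 2) ^ (-s.re) := ⟨_, rfl⟩
  have hprod : ∀ c : Rep J, ∏ w, ((|remb w c.1| * τ.im) ^ 2) ^ (-s.re) =
      Q * ratio J c.1 ^ (-(2 * s.re)) := fun c => by
    have hr := zero_lt_one.trans_le (one_le_ratio_rep J c)
    rw [Real.finsetProd_rpow _ _ (fun w _ => sq_nonneg _), Finset.prod_pow,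
      Finset.prod_mul_distrib, prod_abs_remb, Finset.prod_const, Finset.card_univ, card_places,
      ← normR_mul_ratio J, mul_right_comm, mul_pow _ (ratio J c.1), hQ,
      Real.mul_rpow (sq_nonneg _) (sq_nonneg _), ← Real.rpow_natCast (ratio J c.1) 2,
      ← Real.rpow_mul hr.le]
    congr 2
    push_cast
    ring
  have hin : ∀ c : Rep J, (Summable fun d : ↥(J : Set K) => ‖Ψ (c.1, d) * hTerm s τ c.1 d‖) ∧
      ∑' d : ↥(J : Set K), ‖Ψ (c.1, d) * hTerm s τ c.1 d‖ ≤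
        M * (C * Q) * ratio J c.1 ^ (-(2 * s.re)) := fun c => by
    obtain ⟨h1, h2⟩ := hC c.1 0 (hδc c)
    simp only [zero_add] at h1 h2
    have hb : ∀ d : ↥(J : Set K), ‖Ψ (c.1, d) * hTerm s τ c.1 d‖ ≤ M * ‖hTerm s τ c.1 d‖ :=
      fun d => by
        rw [norm_mul]
        exact mul_le_mul_of_nonneg_right (hM _ c.2.1 _ d.2) (norm_nonneg _)
    have hsm := Summable.of_nonneg_of_le (fun d => norm_nonneg _) hb (h1.mul_left M)
    refine ⟨hsm, (hsm.tsum_le_tsum hb (h1.mul_left M)).trans ?_⟩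
    rw [tsum_mul_left, mul_assoc M, mul_assoc C, ← hprod]
    exact mul_le_mul_of_nonneg_left h2 hM0
  have hsumc := (summable_ratio J (x := 2 * s.re) (by linarith)).mul_left (M * (C * Q))
  have hsI : Summable fun p : Rep J × ↥(J : Set K) => Ψ (p.1.1, p.2) * hTerm s τ p.1.1 p.2 :=
    Summable.of_norm ((summable_prod_of_nonneg fun p => norm_nonneg _).2
      ⟨fun c => (hin c).1, Summable.of_nonneg_of_le (fun c => tsum_nonneg fun d => norm_nonneg _)
        (fun c => (hin c).2) hsumc⟩)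
  have hsC : Summable fun d : Rep J => Ψ (0, d.1) * hTerm s τ 0 d.1 := by
    refine Summable.of_norm_bounded ((summable_ratio J (x := 1 + 2 * s.re) (by linarith)).mul_left
      (M * normR J ^ (-(1 + 2 * s.re)))) fun d => ?_
    have hr := zero_lt_one.trans_le (one_le_ratio_rep J d)
    obtain ⟨x, hx⟩ : ∃ x : ℝ, x = ((|Algebra.norm ℚ d.1| : ℚ) : ℝ) := ⟨_, rfl⟩
    have hxe : x = normR J * ratio J d.1 := by rw [hx, normR_mul_ratio]
    have hx0 : 0 < x := hxe ▸ mul_pos (normR_pos J) hr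
    have hn : ‖((Algebra.norm ℚ d.1 : ℚ) : ℂ)⁻¹‖ = x⁻¹ := by
      rw [norm_inv, hx, ← Complex.ofReal_ratCast, Complex.norm_real, Real.norm_eq_abs,
        Rat.cast_abs]
    rw [norm_mul, hTerm_c_zero s τ (Rep.ne_zero J d), norm_mul, hn, norm_rp (hx ▸ pow_pos hx0 2),
      ← hx, mul_assoc M, ← Real.mul_rpow (normR_pos J).le hr.le, ← hxe]
    refine mul_le_mul (hM _ (zero_mem_ideal J) _ d.2.1) (le_of_eq ?_) (by positivity) hM0
    rw [← Real.rpow_natCast, ← Real.rpow_mul hx0.le, ← Real.rpow_neg_one, ← Real.rpow_add hx0]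
    congr 1
    push_cast
    ring
  have hcv : ((covol (pMul J N) : ℝ) : ℂ) ≠ 0 :=
    Complex.ofReal_ne_zero.2 (covol_pos (pMul J N)).ne'
  have hpois := fun c : Rep J => hasSum_inner hΨ hs hs2.le τ c (hin c).1.of_norm
  obtain ⟨B, hB, hb⟩ := exists_tailTerm_le hΨ hy
  have hsT : Summable (tailTerm J N Ψ s τ) := Summable.of_norm_bounded hB (hb s hs τ le_rfl)
  have hsplit : ∀ c : Rep J, ∑' d : ↥(J : Set K), Ψ (c.1, d) * hTerm s τ c.1 d =
      ((covol (pMul J N) : ℝ) : ℂ)⁻¹ * (wHat J N Ψ c.1 0 * dualTerm1 s τ c.1 0) +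
        ∑' ν : ↥(dualIdeal (pMul J N) : Set K), tailTerm J N Ψ s τ (c, ν) := fun c => by
    rw [← (hpois c).tsum_eq, (hpois c).summable.tsum_eq_add_tsum_ite ⟨0, zero_mem_ideal _⟩]
    congr 1
    refine tsum_congr fun ν => ?_
    simp only [tailTerm, Subtype.ext_iff]
  have hsZ : Summable fun c : Rep J =>
      ((covol (pMul J N) : ℝ) : ℂ)⁻¹ * (wHat J N Ψ c.1 0 * dualTerm1 s τ c.1 0) := by
    refine (hsI.prod.sub hsT.prod).congr fun c => ?_
    rw [hsplit, add_sub_cancel_right]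
  rw [hOrb, Summable.tsum_sum (f := fun x : Orb J =>
    Ψ (repPair J x) * hTerm s τ (repPair J x).1 (repPair J x).2) hsI hsC,
    show ∑' p : Rep J × ↥(J : Set K), Ψ (repPair J (Sum.inl p)) *
        hTerm s τ (repPair J (Sum.inl p)).1 (repPair J (Sum.inl p)).2 =
      ∑' p : Rep J × ↥(J : Set K), Ψ (p.1.1, p.2) * hTerm s τ p.1.1 p.2 from rfl,
    hsI.tsum_prod, tsum_congr hsplit, hsZ.tsum_add hsT.prod, ← hsT.tsum_prod, ← tailSum]
  rw [add_right_comm (constPart J Ψ s), add_right_comm (∑' c : Rep J, _), add_comm _ (∑' d, _)]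
  have e1 : ∑' d : Rep J, Ψ (repPair J (Sum.inr d)) *
      hTerm s τ (repPair J (Sum.inr d)).1 (repPair J (Sum.inr d)).2 = constPart J Ψ s := by
    refine tsum_congr fun d => ?_
    show Ψ (0, d.1) * hTerm s τ 0 d.1 = _
    rw [hTerm_c_zero s τ (Rep.ne_zero J d), mul_assoc]
  have e2 : ∑' c : Rep J,
      ((covol (pMul J N) : ℝ) : ℂ)⁻¹ * (wHat J N Ψ c.1 0 * dualTerm1 s τ c.1 0) =
      rp ((τ.im ^ finrank ℚ K) ^ 2) s * zeroCoef J N Ψ s := by
    rw [zeroCoef, ← mul_assoc, ← tsum_mul_left]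
    refine tsum_congr fun c => ?_
    rw [dualTerm1_zero s τ (Rep.ne_zero J c)]
    ring
  rw [e1, e2]
  ring

/-- The factor of automorphy. -/
def jFac (K : Type*) [Field K] [NumberField K] (s : ℂ) (g : SL(2, ℤ)) (τ : ℍ) : ℂ :=
  (denom g τ * (rp (Complex.normSq (denom g τ)) s)⁻¹) ^ finrank ℚ K

theorem jFac_ne_zero (s : ℂ) (g : SL(2, ℤ)) (τ : ℍ) : jFac K s g τ ≠ 0 :=
  pow_ne_zero _ (mul_ne_zero (denom_ne_zero _ _) (inv_ne_zero (Complex.exp_ne_zero _)))

theorem hTerm_unit (s : ℂ) (z : ℂ) (m : RestPlace K → ℤ) (c d : K) :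
    hTerm s z (unitVal m * c) (unitVal m * d) =
      ((Algebra.norm ℚ (unitVal (K := K) m) : ℚ) : ℂ)⁻¹ * hTerm s z c d := by
  have h1 : rp ((((|Algebra.norm ℚ (unitVal (K := K) m)| : ℚ) : ℝ)) ^ 2) s = 1 := by
    rw [show |Algebra.norm ℚ (unitVal (K := K) m)| = 1 from unit_norm (unitPow m), Rat.cast_one,
      one_pow, rp_one]
  have hu : ∀ w, remb w (unitVal (K := K) m) ≠ 0 := fun w => remb_ne_zero _ (unitVal_ne_zero m)
  rw [← mul_one ((_ : ℂ)⁻¹), ← h1, hTerm, hTerm, ← Complex.ofReal_ratCast, ← prod_remb,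
    Complex.ofReal_prod, ← prod_abs_remb, ← Finset.prod_pow,
    ← prod_rp _ _ (fun w => pow_ne_zero 2 (abs_ne_zero.2 (hu w))), ← Finset.prod_inv_distrib,
    ← Finset.prod_mul_distrib, ← Finset.prod_mul_distrib]
  refine Finset.prod_congr rfl fun w _ => ?_
  obtain ⟨L, hL⟩ : ∃ L : ℂ, L = (remb w c : ℂ) * z + (remb w d : ℂ) := ⟨_, rfl⟩
  rw [map_mul, map_mul, Complex.ofReal_mul, Complex.ofReal_mul,
    show ((remb w (unitVal m) : ℂ) * remb w c) * z + (remb w (unitVal m) : ℂ) * remb w d =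
      (remb w (unitVal m) : ℂ) * L by rw [hL]; ring, ← hL]
  rcases eq_or_ne L 0 with h0 | h0
  · rw [h0, mul_zero, inv_zero, zero_mul, mul_zero]
  · rw [Complex.normSq_mul, Complex.normSq_ofReal, mul_inv, sq_abs, sq,
      rp_mul (mul_ne_zero (hu w) (hu w)) (Complex.normSq_pos.2 h0).ne']
    ring

/-- **The transformation law.** -/
theorem hOrb_smul (hΨ : IsWeight J N 1 Ψ) (s : ℂ) (g : SL(2, ℤ)) (τ : ℍ) :
    hOrb J Ψ s (g • τ) = jFac K s g τ * hOrb J (fun p => Ψ (rowMul g⁻¹ p)) s τ := by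
  obtain ⟨den, hden⟩ : ∃ den : ℂ, den = (g 1 0 : ℂ) * τ + (g 1 1 : ℂ) := ⟨_, rfl⟩
  have hd : denom g τ = den := by rw [ModularGroup.denom_apply, hden]
  have hden0 : den ≠ 0 := hd ▸ denom_ne_zero _ _
  rw [hOrb, hOrb, ← tsum_orb_rowMul (fun q => Ψ (rowMul g⁻¹ q) * hTerm s τ q.1 q.2)
    (fun m c hc d hd' => by
      rw [(hΨ.comp g⁻¹).unit m c hc d hd', pow_one, hTerm_unit, mul_mul_mul_comm,
        mul_inv_cancel₀ (Rat.cast_ne_zero.2 (Algebra.norm_ne_zero_iff.2 (unitVal_ne_zero m))),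
        one_mul]) g, ← tsum_mul_left]
  refine tsum_congr fun x => ?_
  obtain ⟨p, hp⟩ : ∃ p, p = repPair J x := ⟨_, rfl⟩
  rw [← hp, rowMul_rowMul, mul_inv_cancel, rowMul_one, mul_left_comm]
  congr 1
  rw [hTerm, hTerm, jFac, hd, ← card_places, ← Finset.card_univ, ← Finset.prod_const,
    ← Finset.prod_mul_distrib]
  refine Finset.prod_congr rfl fun w _ => ?_
  obtain ⟨L, hL⟩ : ∃ L : ℂ, L = (remb w (rowMul g p).1 : ℂ) * τ + (remb w (rowMul g p).2 : ℂ) :=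
    ⟨_, rfl⟩
  have hL' : (remb w p.1 : ℂ) * ((g • τ : ℍ) : ℂ) + (remb w p.2 : ℂ) = L / den := by
    rw [eq_div_iff hden0, hL, UpperHalfPlane.specialLinearGroup_apply]
    simp only [rowMul, algebraMap_int_eq, eq_intCast, Complex.ofReal_intCast, map_add, map_mul,
      map_intCast, Complex.ofReal_add, Complex.ofReal_mul]
    rw [← hden]
    field_simp
    rw [hden]
    ring
  rw [← hL, hL']
  rcases eq_or_ne L 0 with h0 | h0
  · simp [h0]
  · have hn := (Complex.normSq_pos.2 h0).ne'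
    have hm := (Complex.normSq_pos.2 hden0).ne'
    have e : rp (Complex.normSq L) s =
        rp (Complex.normSq (L / den)) s * rp (Complex.normSq den) s := by
      rw [← rp_mul (Complex.normSq_pos.2 (div_ne_zero h0 hden0)).ne' hm, ← Complex.normSq_mul,
        div_mul_cancel₀ _ hden0]
    have := Complex.exp_ne_zero (-s * (Real.log (Complex.normSq den) : ℂ))
    rw [e, inv_div]
    field_simp [rp]

/-! ### The limit -/

/-- The continued series when the middle part vanishes. -/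
def eisOne (J : (FractionalIdeal (𝓞 K)⁰ K)ˣ) (N : ℕ) [NeZero N] (Ψ : K × K → ℂ) (s : ℂ) (τ : ℍ) :
    ℂ := constPart J Ψ s + tailSum J N Ψ s τ

/-- The middle part vanishes. -/
def MeanZero (J : (FractionalIdeal (𝓞 K)⁰ K)ˣ) (N : ℕ) [NeZero N] (Ψ : K × K → ℂ) : Prop :=
  ∀ c ∈ (J : Set K), wHat J N Ψ c 0 = 0

theorem differentiableOn_eisOne (hΨ : IsWeight J N 1 Ψ) (τ : ℍ) :
    DifferentiableOn ℂ (fun s => eisOne J N Ψ s τ) strip :=
  (differentiableOn_constPart hΨ).add (differentiableOn_tailSum hΨ τ)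

theorem eisOne_eq (hΨ : IsWeight J N 1 Ψ) (h0 : MeanZero J N Ψ) {s : ℂ} (hs : s ∈ strip)
    (hs2 : 1 / 2 < s.re) (τ : ℍ) : eisOne J N Ψ s τ = hOrb J Ψ s τ := by
  rw [hOrb_eq hΨ hs hs2, zeroCoef, eisOne,
    tsum_congr fun c : Rep J => show wHat J N Ψ c.1 0 * _ * _ = (0 : ℂ) by
      rw [h0 _ c.2.1, zero_mul, zero_mul], tsum_zero, mul_zero, mul_zero, add_zero]

theorem differentiable_jFac (g : SL(2, ℤ)) (τ : ℍ) : Differentiable ℂ fun s => jFac K s g τ :=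
  (((differentiable_rp _).inv fun _ => Complex.exp_ne_zero _).const_mul _).pow _

/-- **The comparison at a cusp**, in the strip. -/
theorem eisOne_smul (hΨ : IsWeight J N 1 Ψ) (h0 : MeanZero J N Ψ) (g : SL(2, ℤ)) (τ : ℍ)
    {τ₁ : ℍ} (h1 : τ₁.im = 1) {s : ℂ} (hs : s ∈ strip) :
    (jFac K s g τ)⁻¹ * eisOne J N Ψ s (g • τ) =
      constPart J (fun p => Ψ (rowMul g⁻¹ p)) s + rp ((τ.im ^ finrank ℚ K) ^ 2) s *
        ((jFac K s g τ₁)⁻¹ * eisOne J N Ψ s (g • τ₁) -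
          eisOne J N (fun p => Ψ (rowMul g⁻¹ p)) s τ₁) +
      tailSum J N (fun p => Ψ (rowMul g⁻¹ p)) s τ := by
  have hG : ∀ t : ℍ,
      DifferentiableOn ℂ (fun s => (jFac K s g t)⁻¹ * eisOne J N Ψ s (g • t)) strip :=
    fun t => ((differentiable_jFac g t).differentiableOn.inv fun s _ => jFac_ne_zero s g t).mul
      (differentiableOn_eisOne hΨ _)
  refine eqOn_strip (hG τ) (((differentiableOn_constPart (hΨ.comp g⁻¹)).add
    ((differentiable_rp _).differentiableOn.mul ((hG τ₁).sub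
      (differentiableOn_eisOne (hΨ.comp g⁻¹) τ₁)))).add
        (differentiableOn_tailSum (hΨ.comp g⁻¹) τ)) (fun x hx hx1 => ?_) hs
  have hxs : (x : ℂ) ∈ strip := ofReal_mem_strip (by linarith) hx1
  have hx2 : 1 / 2 < (x : ℂ).re := by simpa using hx
  simp only [Pi.add_apply, Pi.mul_apply, Pi.sub_apply]
  rw [eisOne_eq hΨ h0 hxs hx2, eisOne_eq hΨ h0 hxs hx2, hOrb_smul hΨ, hOrb_smul hΨ,
    inv_mul_cancel_left₀ (jFac_ne_zero _ _ _), inv_mul_cancel_left₀ (jFac_ne_zero _ _ _),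
    hOrb_eq (hΨ.comp g⁻¹) hxs hx2, hOrb_eq (hΨ.comp g⁻¹) hxs hx2, h1, one_pow, one_pow, rp_one,
    one_mul, eisOne]
  ring

/-- **The limit at every cusp is a constant plus a bounded series.** -/
theorem exists_cusp (hΨ : IsWeight J N 1 Ψ) (h0 : MeanZero J N Ψ) {l : ℂ}
    (hl : Tendsto (fun x : ℝ => constPart J Ψ x) (𝓝[>] 0) (𝓝 l)) (g : SL(2, ℤ)) :
    ∃ C : ℂ, ∀ τ : ℍ, (denom g τ ^ finrank ℚ K)⁻¹ * (l + limSum J N Ψ ((g • τ : ℍ) : ℂ)) =
      C + limSum J N (fun p => Ψ (rowMul g⁻¹ p)) τ := by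
  obtain ⟨G, hG⟩ : ∃ G : ℂ → ℂ, ∀ z, G z = (((g 1 0 : ℂ) * z + (g 1 1 : ℂ)) ^ finrank ℚ K)⁻¹ *
      (l + limSum J N Ψ (((g 0 0 : ℂ) * z + (g 0 1 : ℂ)) / ((g 1 0 : ℂ) * z + (g 1 1 : ℂ)))) :=
    ⟨_, fun _ => rfl⟩
  have hden : ∀ t : ℍ, denom g t = (g 1 0 : ℂ) * t + (g 1 1 : ℂ) := fun t =>
    ModularGroup.denom_apply g t
  have hcoe : ∀ t : ℍ, ((g • t : ℍ) : ℂ) =
      ((g 0 0 : ℂ) * t + (g 0 1 : ℂ)) / ((g 1 0 : ℂ) * t + (g 1 1 : ℂ)) := fun t => by
    rw [UpperHalfPlane.specialLinearGroup_apply]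
    simp
  have hGl : ∀ t : ℍ, Tendsto (fun x : ℝ => (jFac K (x : ℂ) g t)⁻¹ * eisOne J N Ψ x (g • t))
      (𝓝[>] 0) (𝓝 (G t)) := fun t => by
    rw [hG, ← hcoe, ← hden]
    refine Tendsto.mul ?_ (hl.add (tendsto_tailSum hΨ _))
    have h := ((differentiable_jFac (K := K) g t).continuous.comp
      Complex.continuous_ofReal).tendsto (0 : ℝ)
    simp only [Function.comp_apply, Complex.ofReal_zero, jFac, rp_at_zero, inv_one, mul_one] at h
    exact (h.inv₀ (pow_ne_zero _ (denom_ne_zero _ _))).mono_left nhdsWithin_le_nhds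
  obtain ⟨q, hq⟩ : ∃ q : ℍ → ℂ,
      ∀ t, q t = G t - limSum J N (fun p => Ψ (rowMul g⁻¹ p)) t := ⟨_, fun _ => rfl⟩
  obtain ⟨τ₁, hτ₁⟩ : ∃ τ₁ : ℍ, τ₁.im = 1 := ⟨⟨I, by simp⟩, by simp [UpperHalfPlane.im]⟩
  obtain ⟨Z, hZ⟩ : ∃ Z : ℂ → ℂ, ∀ s, Z s = (jFac K s g τ₁)⁻¹ * eisOne J N Ψ s (g • τ₁) -
      eisOne J N (fun p => Ψ (rowMul g⁻¹ p)) s τ₁ := ⟨_, fun _ => rfl⟩
  have hPZ : ∀ t : ℍ, Tendsto (fun x : ℝ => constPart J (fun p => Ψ (rowMul g⁻¹ p)) x +
      rp ((t.im ^ finrank ℚ K) ^ 2) x * Z x) (𝓝[>] 0) (𝓝 (q t)) := fun t => by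
    rw [hq]
    refine ((hGl t).sub (tendsto_tailSum (hΨ.comp g⁻¹) t)).congr' ?_
    filter_upwards [eventually_strip] with x hx
    rw [eisOne_smul hΨ h0 g t hτ₁ hx, hZ, add_sub_cancel_right]
  have hdiff : ∀ t : ℍ, Tendsto (fun x : ℝ => ((rp ((t.im ^ finrank ℚ K) ^ 2) x - 1) / x) *
      ((x : ℂ) * Z x)) (𝓝[>] 0) (𝓝 (q t - q τ₁)) := fun t => by
    refine ((hPZ t).sub (hPZ τ₁)).congr' ?_
    filter_upwards [self_mem_nhdsWithin] with x (hx : 0 < x)
    have : (x : ℂ) ≠ 0 := Complex.ofReal_ne_zero.2 hx.ne'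
    rw [hτ₁, one_pow, one_pow, rp_one]
    field_simp
    ring
  have hslope : ∀ r : ℝ, Tendsto (fun x : ℝ => (rp r x - 1) / (x : ℂ)) (𝓝[>] 0)
      (𝓝 (-(Real.log r : ℂ))) := fun r => by
    have h1 : HasDerivAt (fun z : ℂ => rp r z) (-(Real.log r : ℂ)) ((0 : ℝ) : ℂ) := by
      refine (((hasDerivAt_id ((0 : ℝ) : ℂ)).neg.mul_const _).cexp).congr_deriv ?_
      simp
    have h2 := (hasDerivAt_iff_tendsto_slope.1 h1.comp_ofReal).mono_left
      (nhdsWithin_mono _ fun x (hx : 0 < x) => hx.ne')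
    refine h2.congr' ?_
    filter_upwards [self_mem_nhdsWithin] with x (hx : 0 < x)
    rw [slope, vsub_eq_sub, Complex.ofReal_zero, rp_at_zero, sub_zero, Complex.real_smul,
      Complex.ofReal_inv]
    ring
  obtain ⟨τ₂, hτ₂⟩ : ∃ τ₂ : ℍ, τ₂.im = 2 :=
    ⟨⟨2 * I, by simp⟩, by simp [UpperHalfPlane.im]⟩
  have hL2 : (Real.log (((2 : ℝ) ^ finrank ℚ K) ^ 2) : ℂ) ≠ 0 :=
    Complex.ofReal_ne_zero.2 (Real.log_pos (one_lt_pow₀ (one_lt_pow₀ one_lt_two finrank_pos.ne')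
      two_ne_zero)).ne'
  obtain ⟨β, hβ⟩ : ∃ β : ℂ,
      Tendsto (fun x : ℝ => (x : ℂ) * Z x) (𝓝[>] 0) (𝓝 β) := by
    have h := hdiff τ₂
    rw [hτ₂] at h
    have hs := hslope (((2 : ℝ) ^ finrank ℚ K) ^ 2)
    refine ⟨_, (h.div hs (neg_ne_zero.2 hL2)).congr' ?_⟩
    filter_upwards [hs.eventually_ne (neg_ne_zero.2 hL2)] with x hx
    simp only [Pi.div_apply]
    rw [mul_div_cancel_left₀ _ hx]
  obtain ⟨b, hb⟩ : ∃ b : ℂ, b = -(2 * (finrank ℚ K : ℂ) * β) := ⟨_, rfl⟩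
  have hform : ∀ t : ℍ, q t = q τ₁ + b * (Real.log t.im : ℂ) := fun t => by
    have h := tendsto_nhds_unique (hdiff t) ((hslope _).mul hβ)
    rw [Real.log_pow, Real.log_pow] at h
    push_cast at h
    linear_combination h - (Real.log t.im : ℂ) * hb
  have hqdiff : DifferentiableAt ℂ
      (fun z : ℂ => q τ₁ + b * (Real.log z.im : ℂ)) I := by
    have hup : IsOpen {z : ℂ | 0 < z.im} := isOpen_lt continuous_const Complex.continuous_im
    have hI : I ∈ {z : ℂ | 0 < z.im} := by simp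
    have hne : ∀ z : ℂ, 0 < z.im → (g 1 0 : ℂ) * z + (g 1 1 : ℂ) ≠ 0 := fun z hz => by
      have h := denom_ne_zero (g : GL (Fin 2) ℝ) ⟨z, hz⟩
      rwa [hden] at h
    have hd1 : DifferentiableOn ℂ G {z : ℂ | 0 < z.im} := by
      rw [funext hG]
      refine DifferentiableOn.mul (DifferentiableOn.inv (by fun_prop)
        fun z hz => pow_ne_zero _ (hne z hz)) (((differentiableOn_limSum hΨ).comp
          (DifferentiableOn.div (by fun_prop) (by fun_prop) fun z hz => hne z hz)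
            fun z hz => ?_).const_add l)
      have h := (g • (⟨z, hz⟩ : ℍ)).im_pos
      rw [← UpperHalfPlane.coe_im, hcoe] at h
      exact h
    refine ((hd1.sub (differentiableOn_limSum (hΨ.comp g⁻¹))).differentiableAt
      (hup.mem_nhds hI)).congr_of_eventuallyEq ?_
    filter_upwards [hup.mem_nhds hI] with z hz
    have h := hform ⟨z, hz⟩
    rw [hq] at h
    exact h.symm
  have hb0 : b = 0 := by
    obtain ⟨D, hD⟩ : ∃ D, HasDerivAt (fun z : ℂ => q τ₁ + b * (Real.log z.im : ℂ)) D I :=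
      ⟨_, hqdiff.hasDerivAt⟩
    have l1 : HasDerivAt (fun t : ℝ => (t : ℂ) + I) 1 0 := by
      simpa using (hasDerivAt_id (0 : ℝ)).ofReal_comp.add_const I
    have l2 : HasDerivAt (fun t : ℝ => (t : ℂ) * I + I) I 0 := by
      simpa using ((hasDerivAt_id (0 : ℝ)).ofReal_comp.mul_const I).add_const I
    have e1 := (HasDerivAt.comp_of_eq (0 : ℝ) hD l1 (by simp)).unique
      ((hasDerivAt_const (0 : ℝ) (q τ₁ + b * (Real.log 1 : ℂ))).congr_of_eventuallyEq
        (Eventually.of_forall fun t => by simp))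
    have e2 := (HasDerivAt.comp_of_eq (0 : ℝ) hD l2 (by simp)).unique
      ((((((hasDerivAt_id (0 : ℝ)).add_const 1).log (by simp)).ofReal_comp).const_mul b
        |>.const_add (q τ₁)).congr_of_eventuallyEq (Eventually.of_forall fun t => by simp))
    rw [mul_one] at e1
    rw [e1, zero_mul] at e2
    simpa using e2.symm
  refine ⟨q τ₁, fun t => ?_⟩
  have h := hform t
  rw [hb0, zero_mul, add_zero, hq] at h
  rw [← h, hden, hcoe, ← hG, sub_add_cancel]

/-- **Invariance.** -/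
theorem limit_invariant (hΨ : IsWeight J N 1 Ψ) (h0 : MeanZero J N Ψ) {l : ℂ}
    (hl : Tendsto (fun x : ℝ => constPart J Ψ x) (𝓝[>] 0) (𝓝 l)) {g : SL(2, ℤ)}
    (hg : ∀ p : K × K, p.1 ∈ (J : Set K) → p.2 ∈ (J : Set K) → Ψ (rowMul g⁻¹ p) = Ψ p) (τ : ℍ) :
    l + limSum J N Ψ ((g • τ : ℍ) : ℂ) = denom g τ ^ finrank ℚ K * (l + limSum J N Ψ τ) := by
  have hO : ∀ s, hOrb J (fun p => Ψ (rowMul g⁻¹ p)) s τ = hOrb J Ψ s τ := fun s =>
    tsum_congr fun x => by
      show Ψ (rowMul g⁻¹ _) * _ = _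
      rw [hg _ (repPair_mem J x).1 (repPair_mem J x).2.1]
  have he : Set.EqOn (fun s => eisOne J N Ψ s (g • τ))
      (fun s => jFac K s g τ * eisOne J N Ψ s τ) strip :=
    eqOn_strip (differentiableOn_eisOne hΨ _) ((differentiable_jFac g τ).differentiableOn.mul
      (differentiableOn_eisOne hΨ τ)) fun x hx hx1 => by
      have hxs : (x : ℂ) ∈ strip := ofReal_mem_strip (by linarith) hx1
      have hx2 : 1 / 2 < (x : ℂ).re := by simpa using hx
      rw [eisOne_eq hΨ h0 hxs hx2, eisOne_eq hΨ h0 hxs hx2, hOrb_smul hΨ, hO]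
  have hJ : Tendsto (fun x : ℝ => jFac K (x : ℂ) g τ) (𝓝[>] 0) (𝓝 (denom g τ ^ finrank ℚ K)) := by
    have h := ((differentiable_jFac (K := K) g τ).continuous.comp
      Complex.continuous_ofReal).tendsto (0 : ℝ)
    simp only [Function.comp_apply, Complex.ofReal_zero, jFac, rp_at_zero, inv_one, mul_one] at h
    exact h.mono_left nhdsWithin_le_nhds
  refine tendsto_nhds_unique ((hl.add (tendsto_tailSum hΨ (g • τ))).congr' ?_)
    (hJ.mul (hl.add (tendsto_tailSum hΨ τ)))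
  filter_upwards [eventually_strip] with x hx using he hx

end FA.KlingenZero

end
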