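import Fermat.Agent.SiegelKlingen.HeckeKernel

/-!
# Hecke's kernel in weight one, for complex `s`

The Fourier transform of `(t + i)^(-1) (t² + 1)^(-s)` is holomorphic in a strip on the right of `0`
for `ξ ≠ 0`, is `O (|ξ|^(-1) (1 + |ξ|)^(-3))` there uniformly, and tends to
`-2 π i exp (-2 π ξ)` or `0` as `s → 0` from the right, for `ξ > 0` or `ξ < 0`.
-/

set_option autoImplicit false
set_option linter.style.haveILetI false

noncomputable section

open MeasureTheory Filter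
open Complex (I)
open scoped Real Topology FourierTransform

namespace FA.KlingenZero

open FA.SiegelKlingen (heckeKernel fourier_heckeKernel_limit integrable_of_le ramp ramp_of_nonneg
  ramp_of_nonpos add_I_ne_zero normSq_add_I)

/-- A strip on the right of `0`. -/
def strip : Set ℂ := {s | 0 < s.re ∧ s.re < 1 ∧ |s.im| < 1}

theorem isOpen_strip : IsOpen strip :=
  (isOpen_lt continuous_const Complex.continuous_re).inter
    ((isOpen_lt Complex.continuous_re continuous_const).inter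
      (isOpen_lt Complex.continuous_im.abs continuous_const))

theorem strip_bound {s : ℂ} (hs : s ∈ strip) : 0 ≤ s.re ∧ ‖s‖ ≤ 2 :=
  ⟨hs.1.le, (Complex.norm_le_abs_re_add_abs_im s).trans (by
    rw [abs_of_pos hs.1]
    linarith [hs.2.1, hs.2.2])⟩

theorem convex_strip : Convex ℝ strip := by
  have e : strip = {s : ℂ | 0 < s.re} ∩ ({s : ℂ | s.re < 1} ∩
      ({s : ℂ | s.im < 1} ∩ {s : ℂ | -1 < s.im})) := by
    ext s
    simp only [strip, abs_lt, Set.mem_ofPred_eq, Set.mem_inter_iff]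
    tauto
  rw [e]
  exact (convex_halfSpace_re_gt 0).inter ((convex_halfSpace_re_lt 1).inter
    ((convex_halfSpace_im_lt 1).inter (convex_halfSpace_im_gt (-1))))

theorem ofReal_mem_strip {x : ℝ} (h0 : 0 < x) (h1 : x < 1) : (x : ℂ) ∈ strip :=
  ⟨by simpa using h0, by simpa using h1, by simp⟩

/-- Holomorphic functions on the strip agreeing on `(1/2, 1)` agree. -/
theorem eqOn_strip {f g : ℂ → ℂ} (hf : DifferentiableOn ℂ f strip)
    (hg : DifferentiableOn ℂ g strip) (h : ∀ x : ℝ, 1 / 2 < x → x < 1 → f x = g x) :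
    Set.EqOn f g strip := by
  refine (hf.analyticOnNhd isOpen_strip).eqOn_of_preconnected_of_frequently_eq
    (hg.analyticOnNhd isOpen_strip) convex_strip.isPreconnected
    (ofReal_mem_strip (x := 3 / 4) (by norm_num) (by norm_num)) ?_
  have ht : Tendsto Complex.ofReal (𝓝[≠] (3 / 4 : ℝ)) (𝓝[≠] ((3 / 4 : ℝ) : ℂ)) :=
    tendsto_nhdsWithin_of_tendsto_nhds_of_eventually_within _
      ((Complex.continuous_ofReal.tendsto _).mono_left nhdsWithin_le_nhds)
      (eventually_nhdsWithin_of_forall fun x hx e => hx (Complex.ofReal_injective e))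
  refine ht.frequently (Eventually.frequently ?_)
  filter_upwards [mem_nhdsWithin_of_mem_nhds (Ioo_mem_nhds (by norm_num : (1 / 2 : ℝ) < 3 / 4)
    (by norm_num : (3 / 4 : ℝ) < 1))] with x hx
  exact h x hx.1 hx.2

/-- `r ^ (-s)` for positive `r`. -/
def rp (r : ℝ) (s : ℂ) : ℂ := Complex.exp (-s * (Real.log r : ℂ))

theorem rp_mul {a b : ℝ} (ha : a ≠ 0) (hb : b ≠ 0) (s : ℂ) : rp (a * b) s = rp a s * rp b s := by
  rw [rp, rp, rp, Real.log_mul ha hb, Complex.ofReal_add, mul_add, Complex.exp_add]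

theorem rp_ofReal {r : ℝ} (hr : 0 < r) (x : ℝ) : rp r x = ((r ^ (-x) : ℝ) : ℂ) := by
  rw [rp, Real.rpow_def_of_pos hr, ← Complex.ofReal_neg, ← Complex.ofReal_mul, mul_comm,
    Complex.ofReal_exp]

theorem norm_rp {r : ℝ} (hr : 0 < r) (s : ℂ) : ‖rp r s‖ = r ^ (-s.re) := by
  rw [rp, Complex.norm_exp, Real.rpow_def_of_pos hr]
  congr 1
  simp [mul_comm]

theorem rp_at_zero (r : ℝ) : rp r 0 = 1 := by simp [rp]

theorem rp_one (s : ℂ) : rp 1 s = 1 := by simp [rp]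

theorem differentiable_rp (r : ℝ) : Differentiable ℂ (rp r) :=
  (differentiable_id.neg.mul_const _).cexp

theorem continuous_rp {X : Type*} [TopologicalSpace X] {r : X → ℝ} (hr : Continuous r)
    (h0 : ∀ x, r x ≠ 0) (s : ℂ) : Continuous fun x => rp (r x) s :=
  Complex.continuous_exp.comp (continuous_const.mul
    (Complex.continuous_ofReal.comp (hr.log h0)))

theorem sub_I_ne_zero (t : ℝ) : (t : ℂ) - I ≠ 0 := fun h => by
  have := congrArg Complex.im h
  simp at this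

/-- `(t + i)^(-α) (t - i)^(-β) (t² + 1)^(-s)`. -/
def kTerm (α β : ℕ) (s : ℂ) (t : ℝ) : ℂ :=
  (((t : ℂ) + I) ^ α)⁻¹ * (((t : ℂ) - I) ^ β)⁻¹ * rp (t ^ 2 + 1) s

/-- The derivatives of `kTerm α β`. -/
def kDeriv : ℕ → ℕ → ℕ → ℂ → ℝ → ℂ
  | 0, α, β, s, t => kTerm α β s t
  | m + 1, α, β, s, t =>
    -((α : ℂ) + s) * kDeriv m (α + 1) β s t - ((β : ℂ) + s) * kDeriv m α (β + 1) s t

theorem hasDerivAt_inv_pow (α : ℕ) (a : ℂ) {t : ℝ} (h : (t : ℂ) + a ≠ 0) :
    HasDerivAt (fun x : ℝ => (((x : ℂ) + a) ^ α)⁻¹)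
      (-(α : ℂ) * (((t : ℂ) + a) ^ (α + 1))⁻¹) t := by
  refine ((((hasDerivAt_id t).ofReal_comp.add_const a).pow α).inv
    (pow_ne_zero α h)).congr_deriv ?_
  rcases α with - | j
  · simp
  · simp only [id_eq, Nat.add_sub_cancel, Complex.ofReal_one, Nat.cast_add, Nat.cast_one,
      Pi.pow_apply]
    field_simp
    ring

theorem hasDerivAt_kTerm (α β : ℕ) (s : ℂ) (t : ℝ) :
    HasDerivAt (kTerm α β s) (kDeriv 1 α β s t) t := by
  have h1 := hasDerivAt_inv_pow α I (add_I_ne_zero t)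
  have h2 : HasDerivAt (fun x : ℝ => (((x : ℂ) - I) ^ β)⁻¹)
      (-(β : ℂ) * (((t : ℂ) - I) ^ (β + 1))⁻¹) t := by
    simpa [sub_eq_add_neg] using hasDerivAt_inv_pow β (-I) (t := t)
      (by simpa [sub_eq_add_neg] using sub_I_ne_zero t)
  have h3 : HasDerivAt (fun x : ℝ => rp (x ^ 2 + 1) s)
      (rp (t ^ 2 + 1) s * (-s * (((2 * t / (t ^ 2 + 1) : ℝ)) : ℂ))) t := by
    have hl : HasDerivAt (fun x : ℝ => Real.log (x ^ 2 + 1)) (2 * t / (t ^ 2 + 1)) t := by
      simpa using ((hasDerivAt_pow 2 t).add_const 1).log (by positivity)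
    exact ((hl.ofReal_comp.const_mul (-s))).cexp
  refine ((h1.mul h2).mul h3).congr_deriv ?_
  simp only [kDeriv, kTerm, Pi.mul_apply]
  have e1 := add_I_ne_zero t
  have e2 := sub_I_ne_zero t
  have e3 : ((t ^ 2 + 1 : ℝ) : ℂ) = ((t : ℂ) + I) * ((t : ℂ) - I) := by
    push_cast
    linear_combination Complex.I_sq
  rw [Complex.ofReal_div, e3]
  push_cast
  field_simp
  ring

theorem hasDerivAt_kDeriv (m α β : ℕ) (s : ℂ) (t : ℝ) :
    HasDerivAt (kDeriv m α β s) (kDeriv (m + 1) α β s t) t := by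
  induction m generalizing α β with
  | zero => exact hasDerivAt_kTerm α β s t
  | succ m ih => exact ((ih (α + 1) β).const_mul _).sub ((ih α (β + 1)).const_mul _)

theorem continuous_kDeriv (m α β : ℕ) (s : ℂ) : Continuous (kDeriv m α β s) :=
  continuous_iff_continuousAt.2 fun t => (hasDerivAt_kDeriv m α β s t).continuousAt

theorem norm_kTerm (α β : ℕ) (s : ℂ) (t : ℝ) :
    ‖kTerm α β s t‖ = (√(t ^ 2 + 1) ^ (α + β))⁻¹ * (t ^ 2 + 1) ^ (-s.re) := by
  have e : ‖(t : ℂ) + I‖ = √(t ^ 2 + 1) := by rw [Complex.norm_def, normSq_add_I]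
  have e' : ‖(t : ℂ) - I‖ = √(t ^ 2 + 1) := by
    rw [Complex.norm_def, Complex.normSq_apply]
    simp
    ring_nf
  rw [kTerm, norm_mul, norm_mul, norm_inv, norm_inv, norm_pow, norm_pow, e, e',
    norm_rp (by positivity), pow_add, mul_inv]

theorem norm_kTerm_le {α β : ℕ} (h : 2 ≤ α + β) {s : ℂ} (hs : 0 ≤ s.re) (t : ℝ) :
    ‖kTerm α β s t‖ ≤ (1 + t ^ 2)⁻¹ := by
  rw [norm_kTerm, add_comm (1 : ℝ)]
  refine (mul_le_of_le_one_right (by positivity) (Real.rpow_le_one_of_one_le_of_nonpos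
    (by nlinarith [sq_nonneg t]) (by linarith))).trans ?_
  refine inv_anti₀ (by positivity) ?_
  calc t ^ 2 + 1 = √(t ^ 2 + 1) ^ 2 := (Real.sq_sqrt (by positivity)).symm
    _ ≤ _ := pow_le_pow_right₀ (Real.one_le_sqrt.2 (by nlinarith [sq_nonneg t])) h

theorem exists_kDeriv_le (m : ℕ) {α β : ℕ} (h : 2 ≤ α + β) : ∃ C : ℝ, 0 ≤ C ∧
    ∀ s : ℂ, 0 ≤ s.re → ‖s‖ ≤ 2 → ∀ t : ℝ, ‖kDeriv m α β s t‖ ≤ C * (1 + t ^ 2)⁻¹ := by
  induction m generalizing α β with
  | zero => exact ⟨1, zero_le_one, fun s hs _ t => (norm_kTerm_le h hs t).trans_eq (one_mul _).symm⟩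
  | succ m ih =>
    obtain ⟨C₁, h₁, H₁⟩ := ih (α := α + 1) (β := β) (by omega)
    obtain ⟨C₂, h₂, H₂⟩ := ih (α := α) (β := β + 1) (by omega)
    refine ⟨((α : ℝ) + 2) * C₁ + ((β : ℝ) + 2) * C₂, by positivity, fun s hs hs2 t => ?_⟩
    have hn : ∀ j : ℕ, ‖(j : ℂ) + s‖ ≤ (j : ℝ) + 2 := fun j =>
      (norm_add_le _ _).trans (by rw [Complex.norm_natCast]; linarith)
    refine (norm_sub_le _ _).trans ?_
    rw [norm_mul, norm_mul, norm_neg, add_mul, mul_assoc, mul_assoc]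
    exact add_le_add (mul_le_mul (hn α) (H₁ s hs hs2 t) (norm_nonneg _) (by positivity))
      (mul_le_mul (hn β) (H₂ s hs hs2 t) (norm_nonneg _) (by positivity))

theorem exists_kDeriv_succ_le (m : ℕ) : ∃ C : ℝ, 0 ≤ C ∧
    ∀ s : ℂ, 0 ≤ s.re → ‖s‖ ≤ 2 → ∀ t : ℝ, ‖kDeriv (m + 1) 1 0 s t‖ ≤ C * (1 + t ^ 2)⁻¹ := by
  obtain ⟨C₁, h₁, H₁⟩ := exists_kDeriv_le m (α := 2) (β := 0) le_rfl
  obtain ⟨C₂, h₂, H₂⟩ := exists_kDeriv_le m (α := 1) (β := 1) le_rfl
  refine ⟨3 * C₁ + 2 * C₂, by positivity, fun s hs hs2 t => ?_⟩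
  refine (norm_sub_le _ _).trans ?_
  rw [norm_mul, norm_mul, norm_neg, add_mul, mul_assoc, mul_assoc, Nat.cast_one, Nat.cast_zero,
    zero_add]
  exact add_le_add (mul_le_mul ((norm_add_le _ _).trans (by rw [norm_one]; linarith))
    (H₁ s hs hs2 t) (norm_nonneg _) (by norm_num))
    (mul_le_mul hs2 (H₂ s hs hs2 t) (norm_nonneg _) (by norm_num))

theorem integrable_rpow_of_lt {r : ℝ} (hr : 1 < r) :
    Integrable fun t : ℝ => (1 + t ^ 2) ^ (-r / 2) := by
  have h := integrable_rpow_neg_one_add_norm_sq (E := ℝ) (μ := volume) (r := r) (by simpa using hr)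
  simpa [Real.norm_eq_abs, sq_abs] using h

theorem integrable_kDeriv (m : ℕ) {s : ℂ} (hs : 0 < s.re) (hs2 : ‖s‖ ≤ 2) :
    Integrable (kDeriv m 1 0 s) := by
  rcases m with - | j
  · refine (integrable_rpow_of_lt (r := 1 + 2 * s.re) (by linarith)).mono'
      (continuous_kDeriv 0 1 0 s).aestronglyMeasurable (Eventually.of_forall fun t => le_of_eq ?_)
    show ‖kTerm 1 0 s t‖ = _
    rw [norm_kTerm, Nat.add_zero, pow_one, Real.sqrt_eq_rpow, ← Real.rpow_neg (by positivity),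
      ← Real.rpow_add (by positivity), add_comm (1 : ℝ)]
    congr 1
    ring
  · obtain ⟨C, -, hC⟩ := exists_kDeriv_succ_le j
    exact integrable_of_le (continuous_kDeriv _ 1 0 s) (hC s hs.le hs2)

/-- The Fourier transform of the kernel. -/
def fourierK (s : ℂ) (ξ : ℝ) : ℂ := 𝓕 (kTerm 1 0 s) ξ

theorem fourier_kDeriv {s : ℂ} (hs : 0 < s.re) (hs2 : ‖s‖ ≤ 2) (ξ : ℝ) (m : ℕ) :
    𝓕 (kDeriv m 1 0 s) ξ = (2 * π * I * ξ) ^ m * fourierK s ξ := by
  induction m with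
  | zero => rw [pow_zero, one_mul]; rfl
  | succ m ih =>
    have hd : deriv (kDeriv m 1 0 s) = kDeriv (m + 1) 1 0 s :=
      funext fun t => (hasDerivAt_kDeriv m 1 0 s t).deriv
    have h := congrFun (Real.fourier_deriv (integrable_kDeriv m hs hs2)
      (fun t => (hasDerivAt_kDeriv m 1 0 s t).differentiableAt)
      (hd ▸ integrable_kDeriv (m + 1) hs hs2)) ξ
    rw [hd] at h
    rw [h, ih, smul_eq_mul, pow_succ']
    ring

theorem norm_fourier_le {g : ℝ → ℂ} {C : ℝ} (h : ∀ t, ‖g t‖ ≤ C * (1 + t ^ 2)⁻¹) (ξ : ℝ) :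
    ‖𝓕 g ξ‖ ≤ C * π := by
  rw [Real.fourier_real_eq_integral_exp_smul]
  refine (norm_integral_le_integral_norm _).trans ((integral_mono_of_nonneg
    (Eventually.of_forall fun t => norm_nonneg _) (integrable_inv_one_add_sq.const_mul C)
    (Eventually.of_forall fun t => ?_)).trans (le_of_eq (by
      rw [integral_const_mul, integral_univ_inv_one_add_sq])))
  show ‖_ • _‖ ≤ _
  rw [norm_smul, Complex.norm_exp_ofReal_mul_I, one_mul]
  exact h t

/-- **Decay, uniform in the strip.** -/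
theorem exists_fourierK_le : ∃ C : ℝ, 0 ≤ C ∧ ∀ s ∈ strip, ∀ ξ : ℝ,
    |ξ| * (1 + |ξ|) ^ 3 * ‖fourierK s ξ‖ ≤ C := by
  obtain ⟨C₁, h₁, H₁⟩ := exists_kDeriv_succ_le 0
  obtain ⟨C₄, h₄, H₄⟩ := exists_kDeriv_succ_le 3
  refine ⟨4 * (C₁ + C₄) * π, by positivity, fun s hs ξ => ?_⟩
  obtain ⟨hs0, hs2⟩ := strip_bound hs
  have hn : ‖2 * (π : ℂ) * I * (ξ : ℂ)‖ = 2 * π * |ξ| := by
    simp [abs_of_pos Real.pi_pos]
  have b : ∀ (j : ℕ) {C : ℝ}, (∀ t, ‖kDeriv j 1 0 s t‖ ≤ C * (1 + t ^ 2)⁻¹) →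
      |ξ| ^ j * ‖fourierK s ξ‖ ≤ C * π := fun j C hC => by
    have h := norm_fourier_le hC ξ
    rw [fourier_kDeriv hs.1 hs2, norm_mul, norm_pow, hn] at h
    refine le_trans (mul_le_mul_of_nonneg_right (pow_le_pow_left₀ (abs_nonneg _) ?_ j)
      (norm_nonneg _)) h
    exact le_mul_of_one_le_left (abs_nonneg ξ) (by linarith [Real.pi_gt_three])
  have b1 := b 1 (H₁ s hs0 hs2)
  have b4 := b 4 (H₄ s hs0 hs2)
  rw [pow_one] at b1
  have hξ : |ξ| * (1 + |ξ|) ^ 3 ≤ 4 * (|ξ| + |ξ| ^ 4) := by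
    nlinarith [abs_nonneg ξ, mul_nonneg (mul_nonneg (abs_nonneg ξ)
      (add_nonneg zero_le_one (abs_nonneg ξ))) (sq_nonneg (|ξ| - 1))]
  calc |ξ| * (1 + |ξ|) ^ 3 * ‖fourierK s ξ‖ ≤ 4 * (|ξ| + |ξ| ^ 4) * ‖fourierK s ξ‖ :=
        mul_le_mul_of_nonneg_right hξ (norm_nonneg _)
    _ ≤ 4 * (C₁ + C₄) * π := by nlinarith

theorem fourier_kDeriv_one {s : ℂ} (hs : 0 ≤ s.re) (ξ : ℝ) :
    𝓕 (kDeriv 1 1 0 s) ξ = -(1 + s) * 𝓕 (kTerm 2 0 s) ξ - s * 𝓕 (kTerm 1 1 s) ξ := by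
  have hint : ∀ α β, 2 ≤ α + β → Integrable fun t : ℝ =>
      Complex.exp (((-2 * π * t * ξ : ℝ) : ℂ) * I) • kTerm α β s t := fun α β h =>
    integrable_of_le (C := 1)
      ((by fun_prop : Continuous fun t : ℝ => Complex.exp (((-2 * π * t * ξ : ℝ) : ℂ) * I)).smul
        (continuous_kDeriv 0 α β s)) fun t => by
      rw [norm_smul, Complex.norm_exp_ofReal_mul_I, one_mul, one_mul]
      exact norm_kTerm_le h hs t
  simp only [Real.fourier_real_eq_integral_exp_smul]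
  rw [← integral_const_mul, ← integral_const_mul, ← integral_sub
    ((hint 2 0 le_rfl).const_mul _) ((hint 1 1 le_rfl).const_mul _)]
  refine integral_congr_ae (Eventually.of_forall fun t => ?_)
  simp only [kDeriv, smul_eq_mul, Nat.cast_one, Nat.cast_zero, zero_add]
  ring

theorem log_mul_inv_le (t : ℝ) :
    Real.log (t ^ 2 + 1) * (1 + t ^ 2)⁻¹ ≤ 4 * (1 + t ^ 2) ^ (-(3 / 2 : ℝ) / 2) := by
  have hx : (0 : ℝ) < 1 + t ^ 2 := by positivity
  have h := Real.log_le_rpow_div hx.le (show (0 : ℝ) < 1 / 4 by norm_num)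
  rw [add_comm (t ^ 2)]
  refine (mul_le_mul_of_nonneg_right h (inv_nonneg.2 hx.le)).trans (le_of_eq ?_)
  rw [← Real.rpow_neg_one, div_mul_eq_mul_div, ← Real.rpow_add hx,
    show (1 / 4 : ℝ) + -1 = -(3 / 2) / 2 by norm_num]
  ring

theorem differentiableOn_fourier_kTerm {α β : ℕ} (h : 2 ≤ α + β) (ξ : ℝ) :
    DifferentiableOn ℂ (fun s => 𝓕 (kTerm α β s) ξ) strip := fun s₀ hs₀ => by
  refine DifferentiableAt.differentiableWithinAt ?_
  simp only [Real.fourier_real_eq_integral_exp_smul]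
  have hexp : Continuous fun t : ℝ => Complex.exp (((-2 * π * t * ξ : ℝ) : ℂ) * I) := by fun_prop
  refine (hasDerivAt_integral_of_dominated_loc_of_deriv_le (s := strip)
    (F' := fun s t => Complex.exp (((-2 * π * t * ξ : ℝ) : ℂ) * I) •
      (-(Real.log (t ^ 2 + 1) : ℂ) * kTerm α β s t))
    (bound := fun t => 4 * (1 + t ^ 2) ^ (-(3 / 2 : ℝ) / 2))
    (isOpen_strip.mem_nhds hs₀) (Eventually.of_forall fun s =>
      (hexp.smul (continuous_kDeriv 0 α β s)).aestronglyMeasurable) ?_ ?_ ?_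
    ((integrable_rpow_of_lt (by norm_num)).const_mul 4) ?_).2.differentiableAt
  · exact integrable_of_le (C := 1) (hexp.smul (continuous_kDeriv 0 α β s₀)) fun t => by
      rw [Pi.smul_apply', norm_smul, Complex.norm_exp_ofReal_mul_I, one_mul, one_mul]
      exact norm_kTerm_le h (strip_bound hs₀).1 t
  · refine (hexp.smul (Continuous.mul (Complex.continuous_ofReal.comp
      (Continuous.log (by fun_prop) fun t => by positivity)).neg
        (continuous_kDeriv 0 α β s₀))).aestronglyMeasurable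
  · refine Eventually.of_forall fun t s hs => ?_
    rw [norm_smul, Complex.norm_exp_ofReal_mul_I, one_mul, norm_mul, norm_neg, Complex.norm_real,
      Real.norm_of_nonneg (Real.log_nonneg (by nlinarith [sq_nonneg t]))]
    exact (mul_le_mul_of_nonneg_left (norm_kTerm_le h (strip_bound hs).1 t)
      (Real.log_nonneg (by nlinarith [sq_nonneg t]))).trans (log_mul_inv_le t)
  · refine Eventually.of_forall fun t s _ => HasDerivAt.const_smul _ ?_
    have h1 : HasDerivAt (fun z : ℂ => rp (t ^ 2 + 1) z)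
        (rp (t ^ 2 + 1) s * (-1 * (Real.log (t ^ 2 + 1) : ℂ))) s :=
      (((hasDerivAt_id s).neg.mul_const _)).cexp
    refine (h1.const_mul ((((t : ℂ) + I) ^ α)⁻¹ * (((t : ℂ) - I) ^ β)⁻¹)).congr_deriv ?_
    rw [kTerm]
    ring

theorem fourierK_eq {s : ℂ} (hs : s ∈ strip) {ξ : ℝ} (hξ : ξ ≠ 0) :
    fourierK s ξ = (2 * π * I * ξ)⁻¹ * 𝓕 (kDeriv 1 1 0 s) ξ := by
  rw [fourier_kDeriv hs.1 (strip_bound hs).2, pow_one, ← mul_assoc, inv_mul_cancel₀, one_mul]
  simp [Real.pi_ne_zero, hξ]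

/-- **Holomorphy in the strip.** -/
theorem differentiableOn_fourierK {ξ : ℝ} (hξ : ξ ≠ 0) :
    DifferentiableOn ℂ (fun s => fourierK s ξ) strip := by
  refine ((((differentiableOn_id.const_add 1).neg.mul
    (differentiableOn_fourier_kTerm (α := 2) (β := 0) le_rfl ξ)).sub
      (differentiableOn_id.mul (differentiableOn_fourier_kTerm (α := 1) (β := 1) le_rfl ξ))
        ).const_mul (2 * π * I * ξ)⁻¹).congr fun s hs => ?_
  rw [fourierK_eq hs hξ, fourier_kDeriv_one (strip_bound hs).1]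
  rfl

/-- The value at `s = 0`. -/
def limK (ξ : ℝ) : ℂ := if 0 < ξ then -(2 * π * I) * Complex.exp (-(2 * π * ξ : ℝ)) else 0

/-- **The limit at `s = 0`.** -/
theorem tendsto_fourierK {ξ : ℝ} (hξ : ξ ≠ 0) :
    Tendsto (fun x : ℝ => fourierK x ξ) (𝓝[>] 0) (𝓝 (limK ξ)) := by
  obtain ⟨C, -, hC⟩ := exists_kDeriv_succ_le 0
  have hev : ∀ᶠ x : ℝ in 𝓝[>] 0, 0 < x ∧ x < 1 := by
    filter_upwards [Ioo_mem_nhdsGT zero_lt_one] with x hx using hx
  have h1 : Tendsto (fun x : ℝ => 𝓕 (kDeriv 1 1 0 (x : ℂ)) ξ) (𝓝[>] 0)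
      (𝓝 (𝓕 (kDeriv 1 1 0 0) ξ)) := by
    simp only [Real.fourier_real_eq_integral_exp_smul]
    have hexp : Continuous fun t : ℝ => Complex.exp (((-2 * π * t * ξ : ℝ) : ℂ) * I) := by fun_prop
    refine tendsto_integral_filter_of_dominated_convergence (fun t => C * (1 + t ^ 2)⁻¹)
      (Eventually.of_forall fun x =>
        (hexp.smul (continuous_kDeriv 1 1 0 (x : ℂ))).aestronglyMeasurable) ?_
      (integrable_inv_one_add_sq.const_mul C) (Eventually.of_forall fun t => ?_)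
    · filter_upwards [hev] with x hx
      refine Eventually.of_forall fun t => ?_
      rw [norm_smul, Complex.norm_exp_ofReal_mul_I, one_mul]
      exact hC x (by simpa using hx.1.le) (strip_bound (ofReal_mem_strip hx.1 hx.2)).2 t
    · refine Tendsto.const_smul ?_ _
      have hc : Continuous fun x : ℝ => kDeriv 1 1 0 (x : ℂ) t := by
        simp only [kDeriv, kTerm, rp]
        fun_prop
      simpa using (hc.tendsto 0).mono_left nhdsWithin_le_nhds
  have e : limK ξ = (2 * π * I * ξ)⁻¹ * 𝓕 (kDeriv 1 1 0 0) ξ := by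
    have h0 : kDeriv 1 1 0 0 = fun t => -heckeKernel 0 t := funext fun t => by
      simp [kDeriv, kTerm, heckeKernel, rp_at_zero]
    have h2 : 𝓕 (fun t => -heckeKernel 0 t) ξ = -𝓕 (heckeKernel 0) ξ := by
      simp only [Real.fourier_real_eq_integral_exp_smul, smul_neg, integral_neg]
    have hπ : (π : ℂ) ≠ 0 := Complex.ofReal_ne_zero.2 Real.pi_ne_zero
    have hξ' : (ξ : ℂ) ≠ 0 := Complex.ofReal_ne_zero.2 hξ
    rw [h0, h2, fourier_heckeKernel_limit, limK]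
    rcases lt_or_gt_of_ne hξ with h | h
    · rw [if_neg (not_lt.2 h.le), ramp_of_nonpos one_ne_zero _ h.le, mul_zero, neg_zero, mul_zero]
    · rw [if_pos h, ramp_of_nonneg 1 _ h.le, pow_one]
      push_cast
      have e' : -(2 * (π : ℂ)) * ξ = -(2 * π * ξ) := by ring
      rw [e']
      field_simp
      linear_combination (-4 : ℂ) * Complex.I_sq
  rw [e]
  refine (h1.const_mul _).congr' ?_
  filter_upwards [hev] with x hx
  rw [fourierK_eq (ofReal_mem_strip hx.1 hx.2) hξ]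

end FA.KlingenZero

end
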