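import Fermat.Agent.KlingenZero.Kernel
import Fermat.Agent.SiegelKlingen.HeckePoisson
import Fermat.Agent.KlingenRay.Lipschitz

/-!
# Poisson summation with Hecke's factor in weight one

For one `c` the sum over a translate of a lattice of `∏ (c_w z + d_w)⁻¹ |c_w z + d_w| ^ (-2 s)`,
`re s ≥ 1/2`, is a series over the dual lattice; its terms off `0` are uniformly small in the strip,
holomorphic there, and tend as `s → 0` to the terms of a q-series.
-/

set_option autoImplicit false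
set_option linter.unusedSectionVars false
set_option linter.style.haveILetI false

noncomputable section

open NumberField InfinitePlace Module MeasureTheory Matrix UnitAddTorus Filter Set
open Complex (I)
open scoped Real nonZeroDivisors Classical Topology FourierTransform UpperHalfPlane

namespace FA.KlingenZero

open FA.HeckeFE FA.SiegelKlingen
open FA.HeckeCharFE (trChar)
open FA.KlingenRay (sgnN prod_remb)

variable {K : Type*} [Field K] [NumberField K] [IsTotallyReal K]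

/-- Hecke's term in weight one. -/
def hTerm (s : ℂ) (z : ℂ) (c d : K) : ℂ :=
  ∏ w : InfinitePlace K, ((remb w c : ℂ) * z + (remb w d : ℂ))⁻¹ *
    rp (Complex.normSq ((remb w c : ℂ) * z + (remb w d : ℂ))) s

/-- The dual term. -/
def dualTerm1 (s : ℂ) (τ : ℍ) (c ν : K) : ℂ :=
  ∏ w : InfinitePlace K, ((remb w c / |remb w c| : ℝ) : ℂ) * rp ((|remb w c| * τ.im) ^ 2) s *
    Complex.exp (2 * π * I * (remb w c * remb w ν * τ.re : ℝ)) *
      fourierK s (remb w c * remb w ν * τ.im)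

/-- The factor at one place through the kernel. -/
theorem placeTerm1_eq (s : ℂ) (τ : ℍ) {γ δ σ : ℝ} (hσ : σ = 1 ∨ σ = -1) (hγ : σ * γ = |γ|)
    (hγ0 : γ ≠ 0) :
    ((γ : ℂ) * τ + (δ : ℂ))⁻¹ * rp (Complex.normSq ((γ : ℂ) * τ + (δ : ℂ))) s =
      ((σ / (|γ| * τ.im) : ℝ) : ℂ) * rp ((|γ| * τ.im) ^ 2) s *
        kTerm 1 0 s ((|γ| * τ.re + σ * δ) / (|γ| * τ.im)) := by
  obtain ⟨a, ha⟩ : ∃ a, a = |γ| * τ.im := ⟨_, rfl⟩
  have ha0 : 0 < a := ha ▸ mul_pos (abs_pos.2 hγ0) τ.im_pos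
  obtain ⟨b, hb⟩ : ∃ b, b = (|γ| * τ.re + σ * δ) / a := ⟨_, rfl⟩
  have hσ2 : σ * σ = 1 := by rcases hσ with h | h <;> simp [h]
  have hu : (γ : ℂ) * τ + (δ : ℂ) = (σ * a : ℝ) * ((b : ℂ) + I) := by
    have e1 : σ * a * b = γ * τ.re + δ := by
      rw [hb, mul_assoc, mul_div_cancel₀ _ ha0.ne', ← hγ]
      linear_combination (γ * τ.re + δ) * hσ2
    have e2 : σ * a = γ * τ.im := by
      rw [ha, ← hγ]
      linear_combination (γ * τ.im) * hσ2
    refine Complex.ext ?_ ?_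
    · simp [e1.symm]
    · simp [e2.symm]
  have hn : Complex.normSq ((γ : ℂ) * τ + (δ : ℂ)) = a ^ 2 * (b ^ 2 + 1) := by
    rw [hu, Complex.normSq_mul, Complex.normSq_ofReal, normSq_add_I]
    rcases hσ with h | h <;> rw [h] <;> ring
  have hinv : (((σ * a : ℝ)) : ℂ)⁻¹ = ((σ / a : ℝ) : ℂ) := by
    rw [← Complex.ofReal_inv]
    congr 1
    rcases hσ with h | h <;> rw [h] <;> ring
  rw [hn, hu, ← ha, ← hb, kTerm, pow_one, pow_zero, inv_one, mul_one,
    rp_mul (pow_ne_zero 2 ha0.ne') (by positivity), mul_inv, hinv]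
  ring

theorem norm_kTerm_half {s : ℂ} (hs : 1 / 2 ≤ s.re) (t : ℝ) :
    ‖kTerm 1 0 s t‖ ≤ (1 + t ^ 2)⁻¹ := by
  rw [norm_kTerm, Nat.add_zero, pow_one, Real.sqrt_eq_rpow, ← Real.rpow_neg (by positivity),
    ← Real.rpow_add (by positivity), add_comm (1 : ℝ), ← Real.rpow_neg_one]
  exact Real.rpow_le_rpow_of_exponent_le (by nlinarith [sq_nonneg t]) (by linarith)

theorem norm_placeTerm1_le {s : ℂ} (hs : 1 / 2 ≤ s.re) (τ : ℍ) {γ : ℝ} (δ : ℝ) (hγ0 : γ ≠ 0) :
    ‖((γ : ℂ) * τ + (δ : ℂ))⁻¹ * rp (Complex.normSq ((γ : ℂ) * τ + (δ : ℂ))) s‖ ≤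
      ((|γ| * τ.im) ^ 2) ^ (-s.re) / (|γ| * τ.im) *
        (1 + ((γ * τ.re + δ) / (|γ| * τ.im)) ^ 2)⁻¹ := by
  obtain ⟨σ, hσ, hγ⟩ : ∃ σ : ℝ, (σ = 1 ∨ σ = -1) ∧ σ * γ = |γ| := by
    rcases le_total 0 γ with h | h
    · exact ⟨1, Or.inl rfl, by rw [one_mul, abs_of_nonneg h]⟩
    · exact ⟨-1, Or.inr rfl, by rw [neg_one_mul, abs_of_nonpos h]⟩
  have hsq : ((|γ| * τ.re + σ * δ) / (|γ| * τ.im)) ^ 2 =
      ((γ * τ.re + δ) / (|γ| * τ.im)) ^ 2 := by
    rw [← hγ, div_pow, div_pow]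
    congr 1
    rcases hσ with h | h <;> rw [h] <;> ring
  have hy := τ.im_pos
  have habs : |σ| = 1 := by rcases hσ with h | h <;> simp [h]
  rw [placeTerm1_eq s τ hσ hγ hγ0, norm_mul, norm_mul, Complex.norm_real,
    norm_rp (by positivity), Real.norm_eq_abs, abs_div, habs,
    abs_of_pos (mul_pos (abs_pos.2 hγ0) hy), ← hsq, one_div_mul_eq_div]
  exact mul_le_mul_of_nonneg_left (norm_kTerm_half hs _) (by positivity)

/-- An affine change of variable in a Fourier integral. -/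
theorem integral_affine (g : ℝ → ℂ) {a σ : ℝ} (ha : 0 < a) (hσ : σ = 1 ∨ σ = -1) (b ξ : ℝ) :
    ∫ t : ℝ, g ((b + σ * t) / a) * Complex.exp (-(2 * π * I) * ξ * t) =
      (a : ℂ) * Complex.exp (2 * π * I * (σ * ξ * b : ℝ)) * 𝓕 g (σ * a * ξ) := by
  obtain ⟨F, hF⟩ : ∃ F : ℝ → ℂ, ∀ u, F u =
      g u * Complex.exp (-(2 * π * I) * ξ * ((σ * (a * u - b) : ℝ) : ℂ)) :=
    ⟨_, fun _ => rfl⟩
  have hσ2 : σ * σ = 1 := by rcases hσ with h | h <;> simp [h]
  have e1 : ∀ t : ℝ, g ((b + σ * t) / a) * Complex.exp (-(2 * π * I) * ξ * t) =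
      F ((σ * t + b) / a) := fun t => by
    rw [hF, mul_div_cancel₀ _ ha.ne', add_sub_cancel_right, ← mul_assoc, hσ2, one_mul,
      add_comm (σ * t)]
  have e2 : ∫ t : ℝ, F ((σ * t + b) / a) = ∫ t : ℝ, F ((t + b) / a) := by
    rcases hσ with h | h
    · simp only [h, one_mul]
    · simp only [h, neg_one_mul]
      exact integral_neg_eq_self (fun t => F ((t + b) / a)) volume
  simp only [e1]
  rw [e2, integral_add_right_eq_self (fun t => F (t / a)) b, Measure.integral_comp_div F a,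
    abs_of_pos ha, Complex.real_smul, mul_assoc, Real.fourier_real_eq_integral_exp_smul]
  congr 1
  rw [← integral_const_mul]
  refine integral_congr_ae (Eventually.of_forall fun u => ?_)
  simp only [hF, smul_eq_mul]
  rw [← mul_assoc, ← Complex.exp_add, mul_comm]
  congr 2
  push_cast
  ring

theorem exp_sum_trChar (x : K) :
    ∏ w : InfinitePlace K, Complex.exp (2 * π * I * (remb w x : ℝ)) = trChar x := by
  rw [← Complex.exp_sum, trChar, ← Complex.ofReal_ratCast, ← sum_remb, Complex.ofReal_sum,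
    Finset.mul_sum]

variable (J : (FractionalIdeal (𝓞 K)⁰ K)ˣ)

/-- The absolute bound on the sum over a translate. -/
theorem hTerm_inner_bound {s : ℂ} (hs : 1 / 2 ≤ s.re) (τ : ℍ) {δ : ℝ} (hδ : 0 < δ) :
    ∃ C : ℝ, 0 ≤ C ∧ ∀ c x₀ : K, (∀ w, δ ≤ |remb w c|) →
      (Summable fun d : ↥(J : Set K) => ‖hTerm s τ c (x₀ + d)‖) ∧
        ∑' d : ↥(J : Set K), ‖hTerm s τ c (x₀ + d)‖ ≤
          C * ∏ w, ((|remb w c| * τ.im) ^ 2) ^ (-s.re) := by
  obtain ⟨C, hC0, hC⟩ := exists_scaled_bound J (mul_pos hδ τ.im_pos)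
  refine ⟨C, hC0, fun c x₀ hc => ?_⟩
  have hpos : ∀ w, 0 < |remb w c| * τ.im := fun w => mul_pos (hδ.trans_le (hc w)) τ.im_pos
  obtain ⟨A, hA⟩ : ∃ A : ℝ, A = ∏ w, ((|remb w c| * τ.im) ^ 2) ^ (-s.re) / (|remb w c| * τ.im) :=
    ⟨_, rfl⟩
  have hA0 : 0 ≤ A := hA ▸ Finset.prod_nonneg fun w _ => by have := hpos w; positivity
  obtain ⟨hsum, hle⟩ := hC (fun w => |remb w c| * τ.im)
    (fun w => remb w c * τ.re + remb w x₀) fun w => mul_le_mul_of_nonneg_right (hc w) τ.im_pos.le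
  have hb : ∀ d : ↥(J : Set K), ‖hTerm s τ c (x₀ + d)‖ ≤ A * placeWeight fun w =>
      (remb w c * τ.re + remb w x₀ + remb w (d : K)) / (|remb w c| * τ.im) := fun d => by
    rw [hTerm, norm_prod, hA, placeWeight, ← Finset.prod_mul_distrib]
    refine Finset.prod_le_prod (fun w _ => norm_nonneg _) fun w _ => ?_
    refine (norm_placeTerm1_le hs τ _ (abs_pos.1 (hδ.trans_le (hc w)))).trans (le_of_eq ?_)
    rw [map_add, add_assoc]
  have hs' : Summable fun d : ↥(J : Set K) => ‖hTerm s τ c (x₀ + d)‖ :=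
    Summable.of_nonneg_of_le (fun d => norm_nonneg _) hb (hsum.mul_left A)
  refine ⟨hs', (hs'.tsum_le_tsum hb (hsum.mul_left A)).trans ?_⟩
  rw [tsum_mul_left]
  refine (mul_le_mul_of_nonneg_left hle hA0).trans (le_of_eq ?_)
  rw [hA, mul_left_comm, ← Finset.prod_mul_distrib]
  congr 1
  exact Finset.prod_congr rfl fun w _ => div_mul_cancel₀ _ (hpos w).ne'

/-- **The uniform bound on the dual terms off `0`.** -/
theorem exists_dual1_bound {y₀ δ : ℝ} (hy : 0 < y₀) (hδ : 0 < δ) :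
    ∃ D : ℝ, 0 ≤ D ∧ ∀ s ∈ strip, ∀ τ : ℍ, y₀ ≤ τ.im → ∀ c : K, (∀ w, δ ≤ |remb w c|) →
      ∀ ν ∈ (dualIdeal J : Set K), ν ≠ 0 → ‖dualTerm1 s τ c ν‖ ≤
        D * ((((|Algebra.norm ℚ c| : ℚ) : ℝ) ^ 2)⁻¹ * placeWeight fun w => remb w ν) := by
  obtain ⟨C, hC0, hC⟩ := exists_fourierK_le
  obtain ⟨η, hη⟩ : ∃ η, η = δ * y₀ := ⟨_, rfl⟩
  have hη0 : 0 < η := hη ▸ mul_pos hδ hy
  obtain ⟨μ, hμ⟩ : ∃ μ, μ = min 1 (η ^ 2) := ⟨_, rfl⟩
  have hμ0 : 0 < μ := hμ ▸ lt_min one_pos (by positivity)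
  obtain ⟨A, hA⟩ : ∃ A : ℝ, A = max 1 (η ^ 2)⁻¹ * C / (y₀ ^ 2 * μ) := ⟨_, rfl⟩
  have hA0 : 0 ≤ A := hA ▸ div_nonneg (mul_nonneg (zero_le_one.trans (le_max_left _ _)) hC0)
    (by positivity)
  have hν0 := normR_pos (dualIdeal J)
  refine ⟨A ^ Fintype.card (InfinitePlace K) * (normR (dualIdeal J) ^ 2)⁻¹, by positivity,
    fun s hs τ hτ c hc ν hνJ hν => ?_⟩
  have hb : ∀ w : InfinitePlace K,
      ‖((remb w c / |remb w c| : ℝ) : ℂ) * rp ((|remb w c| * τ.im) ^ 2) s *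
        Complex.exp (2 * π * I * (remb w c * remb w ν * τ.re : ℝ)) *
          fourierK s (remb w c * remb w ν * τ.im)‖ ≤
      A * ((|remb w c| ^ 2)⁻¹ * (|remb w ν| ^ 2)⁻¹ * (1 + remb w ν ^ 2)⁻¹) := fun w => by
    obtain ⟨γ, hγ⟩ : ∃ γ, γ = |remb w c| := ⟨_, rfl⟩
    obtain ⟨x, hx⟩ : ∃ x, x = |remb w ν| := ⟨_, rfl⟩
    have hγ0 : 0 < γ := hγ ▸ hδ.trans_le (hc w)
    have hx0 : 0 < x := hx ▸ abs_pos.2 (remb_ne_zero _ hν)
    have hy' : 0 < τ.im := hy.trans_le hτ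
    have hγη : η ≤ γ * τ.im := hη ▸ mul_le_mul (hγ ▸ hc w) hτ hy.le hγ0.le
    have hP : ((γ * τ.im) ^ 2) ^ (-s.re) ≤ max 1 (η ^ 2)⁻¹ := by
      rcases le_total 1 ((γ * τ.im) ^ 2) with h | h
      · exact (Real.rpow_le_one_of_one_le_of_nonpos h (by linarith [hs.1])).trans (le_max_left _ _)
      · refine (Real.rpow_le_rpow_of_exponent_ge (by positivity) h
          (by linarith [hs.2.1] : (-1 : ℝ) ≤ -s.re)).trans (le_trans ?_ (le_max_right _ _))
        rw [Real.rpow_neg_one]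
        exact inv_anti₀ (pow_pos hη0 2) (pow_le_pow_left₀ hη0.le hγη 2)
    have h1 := hC s hs (remb w c * remb w ν * τ.im)
    rw [abs_mul, abs_mul, abs_of_pos hy', ← hγ, ← hx] at h1
    have hexp : ‖Complex.exp (2 * π * I * ((remb w c * remb w ν * τ.re : ℝ) : ℂ))‖ = 1 := by
      rw [show (2 * π * I * ((remb w c * remb w ν * τ.re : ℝ) : ℂ)) =
        ((2 * π * (remb w c * remb w ν * τ.re) : ℝ) : ℂ) * I by push_cast; ring,
        Complex.norm_exp_ofReal_mul_I]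
    have hsg : ‖((remb w c / |remb w c| : ℝ) : ℂ)‖ = 1 := by
      rw [Complex.norm_real, Real.norm_eq_abs, abs_div, abs_abs, ← hγ, div_self hγ0.ne']
    rw [norm_mul, norm_mul, norm_mul, hsg, hexp, one_mul, mul_one,
      norm_rp (pow_pos (mul_pos (hγ ▸ hγ0) hy') 2),
      ← hγ, ← sq_abs (remb w ν), ← hx]
    obtain ⟨t, ht⟩ : ∃ t, t = γ * x * τ.im := ⟨_, rfl⟩
    have ht0 : 0 < t := ht ▸ by positivity
    have hle : γ * y₀ * x ≤ t := by
      rw [ht, mul_right_comm]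
      exact mul_le_mul_of_nonneg_left hτ (by positivity)
    have hkey : γ ^ 2 * y₀ ^ 2 * x ^ 2 * μ * (1 + x ^ 2) ≤ t * (1 + t) ^ 3 := by
      have h2 : μ * (1 + x ^ 2) ≤ (1 + t) ^ 2 := by
        have h3 : μ * x ^ 2 ≤ t ^ 2 := by
          rw [ht, show (γ * x * τ.im) ^ 2 = (γ * τ.im) ^ 2 * x ^ 2 by ring]
          exact mul_le_mul_of_nonneg_right ((hμ ▸ min_le_right _ _).trans
            (pow_le_pow_left₀ hη0.le hγη 2)) (sq_nonneg x)
        nlinarith [(hμ ▸ min_le_left _ _ : μ ≤ 1)]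
      calc γ ^ 2 * y₀ ^ 2 * x ^ 2 * μ * (1 + x ^ 2)
          = (γ * y₀ * x) * (γ * y₀ * x) * (μ * (1 + x ^ 2)) := by ring
        _ ≤ t * (1 + t) * (1 + t) ^ 2 := by
            gcongr
            linarith
        _ = t * (1 + t) ^ 3 := by ring
    rw [← ht] at h1
    have hF : ‖fourierK s (remb w c * remb w ν * τ.im)‖ ≤
        C * (γ ^ 2 * y₀ ^ 2 * x ^ 2 * μ * (1 + x ^ 2))⁻¹ := by
      rw [← div_eq_mul_inv, le_div_iff₀ (by positivity)]
      exact le_trans (mul_le_mul_of_nonneg_left hkey (norm_nonneg _)) (by rwa [mul_comm])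
    refine (mul_le_mul hP hF (norm_nonneg _) (zero_le_one.trans (le_max_left _ _))).trans
      (le_of_eq ?_)
    rw [hA]
    field_simp
  rw [dualTerm1, norm_prod]
  refine (Finset.prod_le_prod (fun w _ => norm_nonneg _) fun w _ => hb w).trans ?_
  rw [Finset.prod_mul_distrib, Finset.prod_const, Finset.card_univ, Finset.prod_mul_distrib,
    Finset.prod_mul_distrib, Finset.prod_inv_distrib, Finset.prod_inv_distrib, Finset.prod_pow,
    Finset.prod_pow, prod_abs_remb, prod_abs_remb, placeWeight]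
  rw [show ∀ a b c d : ℝ, a * (b * c * d) = a * c * (b * d) from fun a b c d => by ring]
  refine mul_le_mul_of_nonneg_right (mul_le_mul_of_nonneg_left (inv_anti₀ (by positivity)
    (pow_le_pow_left₀ hν0.le (normR_le_norm (dualIdeal J) hνJ hν) 2)) (by positivity)) ?_
  exact mul_nonneg (by positivity) (Finset.prod_nonneg fun w _ => by positivity)

theorem differentiableOn_dualTerm1 (τ : ℍ) {c ν : K} (hc : c ≠ 0) (hν : ν ≠ 0) :
    DifferentiableOn ℂ (fun s => dualTerm1 s τ c ν) strip := by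
  refine DifferentiableOn.fun_finsetProd fun w _ => DifferentiableOn.mul (DifferentiableOn.mul
    ((differentiable_rp _).differentiableOn.const_mul _) (differentiableOn_const _)) ?_
  exact differentiableOn_fourierK
    (mul_ne_zero (mul_ne_zero (remb_ne_zero _ hc) (remb_ne_zero _ hν)) τ.im_pos.ne')

theorem prod_sign (c : K) :
    ∏ w : InfinitePlace K, ((remb w c / |remb w c| : ℝ) : ℂ) = ((sgnN c : ℚ) : ℂ) := by
  rw [← Complex.ofReal_prod, Finset.prod_div_distrib, prod_remb, prod_abs_remb, sgnN,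
    ← Complex.ofReal_ratCast]
  push_cast
  rfl

/-- **The dual term at `ν = 0`.** -/
theorem dualTerm1_zero (s : ℂ) (τ : ℍ) {c : K} (hc : c ≠ 0) :
    dualTerm1 s τ c 0 = ((sgnN c : ℚ) : ℂ) * rp (((|Algebra.norm ℚ c| : ℚ) : ℝ) ^ 2) s *
      rp ((τ.im ^ finrank ℚ K) ^ 2) s * fourierK s 0 ^ finrank ℚ K := by
  have e : ∀ (t : Finset (InfinitePlace K)) (g : InfinitePlace K → ℝ), (∀ w, g w ≠ 0) →
      ∏ w ∈ t, rp (g w) s = rp (∏ w ∈ t, g w) s := fun t g hg => by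
    induction t using Finset.induction_on with
    | empty => simp [rp_one]
    | insert a t ha ih =>
      rw [Finset.prod_insert ha, Finset.prod_insert ha, ih,
        rp_mul (hg a) (Finset.prod_ne_zero_iff.2 fun w _ => hg w)]
  have hne : ∀ w : InfinitePlace K, (|remb w c| * τ.im) ^ 2 ≠ 0 := fun w =>
    pow_ne_zero 2 (mul_ne_zero (abs_ne_zero.2 (remb_ne_zero _ hc)) τ.im_pos.ne')
  simp only [dualTerm1, map_zero, mul_zero, zero_mul, Complex.ofReal_zero, Complex.exp_zero,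
    mul_one]
  rw [Finset.prod_mul_distrib, Finset.prod_mul_distrib, prod_sign, Finset.prod_const,
    Finset.card_univ, card_places, e _ _ hne, Finset.prod_pow, Finset.prod_mul_distrib,
    prod_abs_remb, Finset.prod_const, Finset.card_univ, card_places, mul_pow,
    rp_mul (pow_ne_zero 2 (Rat.cast_ne_zero.2 (abs_ne_zero.2 (Algebra.norm_ne_zero_iff.2 hc))))
      (pow_ne_zero 2 (pow_ne_zero _ τ.im_pos.ne'))]
  ring

/-- **The dual terms as `s → 0`.** -/
theorem tendsto_dualTerm1 (τ : ℍ) {c ν : K} (hc : c ≠ 0) (hν : ν ≠ 0) :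
    Tendsto (fun x : ℝ => dualTerm1 x τ c ν) (𝓝[>] 0) (𝓝 ((-(2 * π * I)) ^ finrank ℚ K *
      (((sgnN c * coef 1 c ν : ℚ) : ℂ) *
        Complex.exp (2 * π * I * τ * ((Algebra.trace ℚ K (c * ν) : ℚ) : ℂ))))) := by
  have hy := τ.im_pos
  have h : Tendsto (fun x : ℝ => dualTerm1 x τ c ν) (𝓝[>] 0)
      (𝓝 (∏ w : InfinitePlace K, ((remb w c / |remb w c| : ℝ) : ℂ) * 1 *
        Complex.exp (2 * π * I * (remb w c * remb w ν * τ.re : ℝ)) *
          limK (remb w c * remb w ν * τ.im))) := by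
    refine tendsto_finsetProd _ fun w _ => ((Tendsto.const_mul _ ?_).mul_const _).mul
      (tendsto_fourierK (mul_ne_zero (mul_ne_zero (remb_ne_zero _ hc) (remb_ne_zero _ hν))
        hy.ne'))
    have h := ((differentiable_rp ((|remb w c| * τ.im) ^ 2)).continuous.comp
      Complex.continuous_ofReal).tendsto (0 : ℝ)
    simp only [Function.comp_apply, Complex.ofReal_zero, rp_at_zero] at h
    exact h.mono_left nhdsWithin_le_nhds
  convert h using 2
  simp only [mul_one]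
  rw [Finset.prod_mul_distrib, Finset.prod_mul_distrib, prod_sign, coef, Nat.sub_self, pow_zero]
  by_cases hp : ∀ w : InfinitePlace K, 0 < remb w c * remb w ν
  · have e : ∀ w : InfinitePlace K, Complex.exp (2 * π * I * (remb w c * remb w ν * τ.re : ℝ)) *
        limK (remb w c * remb w ν * τ.im) =
        -(2 * π * I) * Complex.exp (2 * π * I * τ * (remb w (c * ν) : ℝ)) := fun w => by
      rw [limK, if_pos (mul_pos (hp w) hy), map_mul, mul_left_comm, ← Complex.exp_add]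
      congr 2
      conv_rhs => rw [← Complex.re_add_im (τ : ℂ), UpperHalfPlane.coe_re, UpperHalfPlane.coe_im]
      push_cast
      linear_combination (-2 * (π : ℂ) * remb w c * remb w ν * τ.im) * Complex.I_sq
    rw [if_pos hp, mul_one, mul_assoc ((sgnN c : ℚ) : ℂ), ← Finset.prod_mul_distrib,
      Finset.prod_congr rfl fun w _ => e w, Finset.prod_mul_distrib, Finset.prod_const,
      Finset.card_univ, card_places, ← Complex.exp_sum, ← Finset.mul_sum, ← Complex.ofReal_sum,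
      sum_remb, Complex.ofReal_ratCast]
    ring
  · rw [if_neg hp, mul_zero, Rat.cast_zero, zero_mul, mul_zero]
    push Not at hp
    obtain ⟨w, hw⟩ := hp
    rw [mul_eq_zero_of_right _ (Finset.prod_eq_zero (Finset.mem_univ w) ?_)]
    rw [limK, if_neg (not_lt.2 (mul_nonpos_of_nonpos_of_nonneg hw hy.le))]

/-- **Poisson summation for one `c`.** -/
theorem inner_poisson1 {s : ℂ} (hs : s ∈ strip) (hs2 : 1 / 2 ≤ s.re) (τ : ℍ) {c : K} (hc : c ≠ 0)
    (x₀ : K) :
    Summable (fun ν : ↥(dualIdeal J : Set K) => dualTerm1 s τ c ν * trChar ((ν : K) * x₀)) ∧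
      ∑' d : ↥(J : Set K), hTerm s τ c (x₀ + d) = ((covol J : ℝ) : ℂ)⁻¹ *
        ∑' ν : ↥(dualIdeal J : Set K), dualTerm1 s τ c ν * trChar ((ν : K) * x₀) := by
  obtain ⟨n, e, N, M, EI, EJ, hMN, hdetN, hNint, hMint⟩ := exists_lattice_pair J
  have hy := τ.im_pos
  have hdet : N.det ≠ 0 := fun h => by
    rw [h, abs_zero] at hdetN
    exact (covol_pos J).ne hdetN
  obtain ⟨σ, hσ, hσc⟩ : ∃ σ : Fin n → ℝ, (∀ j, σ j = 1 ∨ σ j = -1) ∧
      ∀ j, σ j * remb (e j) c = |remb (e j) c| := by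
    refine ⟨fun j => if 0 < remb (e j) c then 1 else -1, fun j => ?_, fun j => ?_⟩ <;> simp only
    · split_ifs <;> simp
    · split_ifs with h
      · rw [one_mul, abs_of_pos h]
      · rw [neg_one_mul, abs_of_nonpos (not_lt.1 h)]
  obtain ⟨a, ha⟩ : ∃ a : Fin n → ℝ, ∀ j, a j = |remb (e j) c| * τ.im := ⟨_, fun _ => rfl⟩
  have ha0 : ∀ j, 0 < a j := fun j => ha j ▸ mul_pos (abs_pos.2 (remb_ne_zero _ hc)) hy
  obtain ⟨b, hb⟩ : ∃ b : Fin n → ℝ,
      ∀ j, b j = |remb (e j) c| * τ.re + σ j * remb (e j) x₀ := ⟨_, fun _ => rfl⟩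
  obtain ⟨A, hA⟩ : ∃ A : Fin n → ℂ, ∀ j, A j = ((σ j / a j : ℝ) : ℂ) * rp ((a j) ^ 2) s :=
    ⟨_, fun _ => rfl⟩
  obtain ⟨g, hg⟩ : ∃ g : Fin n → ℝ → ℂ,
      ∀ j t, g j t = A j * kTerm 1 0 s ((b j + σ j * t) / a j) := ⟨_, fun _ _ => rfl⟩
  obtain ⟨H, hH⟩ : ∃ H : (Fin n → ℝ) → ℂ, ∀ x, H x = ∏ j, g j ((N *ᵥ x) j) := ⟨_, fun _ => rfl⟩
  have hgc : ∀ j, Continuous (g j) := fun j => by
    rw [funext (hg j)]
    exact continuous_const.mul ((continuous_kDeriv 0 1 0 s).comp (by fun_prop))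
  have hHc : Continuous H := by
    rw [funext hH]
    refine continuous_finsetProd _ fun j _ => (hgc j).comp ?_
    unfold Matrix.mulVec dotProduct
    fun_prop
  -- one coordinate
  have hgb : ∀ j, ∀ R : ℝ, ∃ Cj : ℝ, 0 ≤ Cj ∧ ∀ p q : ℝ, |p| ≤ R →
      ‖g j (p + q)‖ ≤ Cj * (1 + q ^ 2)⁻¹ := fun j R => by
    obtain ⟨T, hT⟩ : ∃ T : ℝ, T = (|b j| + |R|) / a j := ⟨_, rfl⟩
    refine ⟨‖A j‖ * (2 * (1 + T ^ 2) * (1 + a j ^ 2)), by positivity, fun p q hp => ?_⟩
    rw [hg, norm_mul, mul_assoc ‖A j‖]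
    refine mul_le_mul_of_nonneg_left ((norm_kTerm_half hs2 _).trans ?_) (norm_nonneg _)
    obtain ⟨v, hv⟩ : ∃ v, v = (b j + σ j * (p + q)) / a j := ⟨_, rfl⟩
    rw [← hv, ← div_eq_mul_inv, le_div_iff₀ (by positivity), inv_mul_le_iff₀ (by positivity)]
    have hu : |σ j * q / a j - v| ≤ T := by
      rw [hv, hT, ← sub_div, abs_div, abs_of_pos (ha0 j)]
      refine div_le_div_of_nonneg_right ?_ (ha0 j).le
      have h2 : |σ j * p| ≤ |R| := by
        rw [abs_mul, show |σ j| = 1 by rcases hσ j with h | h <;> simp [h], one_mul]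
        exact hp.trans (le_abs_self R)
      calc |σ j * q - (b j + σ j * (p + q))|
          = |b j + σ j * p| := by rw [← abs_neg]; ring_nf
        _ ≤ _ := (abs_add_le _ _).trans (by linarith)
    have h3 : (q / a j) ^ 2 ≤ 2 * (1 + T ^ 2) * (1 + v ^ 2) - 1 := by
      have e1 : (q / a j) ^ 2 = (σ j * q / a j) ^ 2 := by
        rcases hσ j with h | h <;> rw [h] <;> ring
      rw [e1]
      have h4 : (σ j * q / a j - v) ^ 2 ≤ T ^ 2 := by
        rw [← sq_abs (σ j * q / a j - v)]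
        exact pow_le_pow_left₀ (abs_nonneg _) hu 2
      nlinarith [sq_nonneg (σ j * q / a j - v - v), mul_nonneg (sq_nonneg T) (sq_nonneg v)]
    have h5 : q ^ 2 = a j ^ 2 * (q / a j) ^ 2 := by
      have := (ha0 j).ne'
      field_simp
    nlinarith [mul_le_mul_of_nonneg_left h3 (sq_nonneg (a j)), sq_nonneg T, sq_nonneg v,
      mul_nonneg (sq_nonneg T) (sq_nonneg v)]
  obtain ⟨W, hW⟩ : ∃ W : (Fin n → ℤ) → ℝ, ∀ v, W v = placeWeight fun w => remb w (EI v : K) :=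
    ⟨_, fun _ => rfl⟩
  have hWs : Summable W := by
    obtain ⟨C, -, hC⟩ := exists_translate_bound J
    exact ((EI.summable_iff.2 (hC fun _ => 0).1).congr fun v => by simp [hW])
  have hHd : ∀ R : ℝ, ∃ B : (Fin n → ℤ) → ℝ, Summable B ∧
      ∀ x v, (∀ i, |x i| ≤ R) → ‖H (x + ofInt v)‖ ≤ B v := fun R => by
    choose Cj hCj0 hCj using fun j => hgb j (∑ i, |N j i| * R)
    refine ⟨fun v => (∏ j, Cj j) * W v, hWs.mul_left _, fun x v hx => ?_⟩
    show ‖H (x + ofInt v)‖ ≤ (∏ j, Cj j) * W v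
    rw [hH, norm_prod, hW, placeWeight, ← e.prod_comp fun w => (1 + remb w (EI v : K) ^ 2)⁻¹,
      ← Finset.prod_mul_distrib]
    refine Finset.prod_le_prod (fun j _ => norm_nonneg _) fun j _ => ?_
    rw [Matrix.mulVec_add, Pi.add_apply, ← hNint]
    refine hCj j _ _ ?_
    show |∑ i, N j i * x i| ≤ _
    refine (Finset.abs_sum_le_sum_abs _ _).trans (Finset.sum_le_sum fun i _ => ?_)
    rw [abs_mul]
    exact mul_le_mul_of_nonneg_left (hx i) (abs_nonneg _)
  have hcoef : ∀ m : Fin n → ℤ, ∫ x : Fin n → ℝ, mFourier (-m) (toTorus x) * H x =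
      ((covol J : ℝ) : ℂ)⁻¹ * (dualTerm1 s τ c (EJ m : K) * trChar ((EJ m : K) * x₀)) :=
    fun m => by
    obtain ⟨G, hG⟩ : ∃ G : (Fin n → ℝ) → ℂ, ∀ u, G u =
        ∏ j, g j (u j) * Complex.exp (-(2 * π * I) * ((M *ᵥ ofInt m) j : ℝ) * u j) :=
      ⟨_, fun _ => rfl⟩
    have hGx : ∀ x, mFourier (-m) (toTorus x) * H x = G (N *ᵥ x) := fun x => by
      have hlin : ∑ i, (M *ᵥ ofInt m) i * (N *ᵥ x) i = ∑ i, (m i : ℝ) * x i := by
        show (M *ᵥ ofInt m) ⬝ᵥ (N *ᵥ x) = ofInt m ⬝ᵥ x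
        rw [← Matrix.vecMul_transpose, ← Matrix.dotProduct_mulVec, Matrix.mulVec_mulVec, hMN,
          Matrix.one_mulVec]
      rw [hG, hH, Finset.prod_mul_distrib, ← Complex.exp_sum, mul_comm, mFourier_toTorus]
      congr 2
      have hlin' := congrArg (fun r : ℝ => (r : ℂ)) hlin
      push_cast at hlin'
      simp only [Pi.neg_apply, Int.cast_neg, neg_mul, mul_assoc, Finset.sum_neg_distrib,
        ← Finset.mul_sum, hlin']
      ring
    have hmeas : Measurable fun x : Fin n → ℝ => N *ᵥ x := by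
      unfold Matrix.mulVec dotProduct; fun_prop
    have hmap := Real.map_matrix_volume_pi_eq_smul_volume_pi hdet
    have hcont : Continuous G := by
      rw [funext hG]
      exact continuous_finsetProd _ fun j _ => ((hgc j).comp (by fun_prop)).mul (by fun_prop)
    simp only [hGx]
    rw [← integral_map hmeas.aemeasurable hcont.aestronglyMeasurable,
      show (fun x => N *ᵥ x) = ⇑(Matrix.toLin' N) from rfl, hmap, integral_smul_measure,
      ENNReal.toReal_ofReal (abs_nonneg _), abs_inv, hdetN, funext hG,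
      MeasureTheory.integral_fintype_prod_volume_eq_prod
        (f := fun j r => g j r * Complex.exp (-(2 * π * I) * ((M *ᵥ ofInt m) j : ℝ) * r)),
      Complex.real_smul, Complex.ofReal_inv, ← exp_sum_trChar, dualTerm1, ← Finset.prod_mul_distrib,
      ← e.prod_comp fun w => ((remb w c / |remb w c| : ℝ) : ℂ) * rp ((|remb w c| * τ.im) ^ 2) s *
        Complex.exp (2 * π * I * (remb w c * remb w (EJ m : K) * τ.re : ℝ)) *
          fourierK s (remb w c * remb w (EJ m : K) * τ.im) *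
        Complex.exp (2 * π * I * (remb w ((EJ m : K) * x₀) : ℝ))]
    congr 1
    refine Finset.prod_congr rfl fun j _ => ?_
    simp only [hg, mul_assoc (A j)]
    rw [integral_const_mul, integral_affine _ (ha0 j) (hσ j), hMint, ← fourierK, hA, ← ha j]
    have hσ2 : σ j * σ j = 1 := by rcases hσ j with h | h <;> simp [h]
    have e2 : σ j * a j * remb (e j) (EJ m : K) =
        remb (e j) c * remb (e j) (EJ m : K) * τ.im := by
      rw [ha, ← hσc j]
      linear_combination (remb (e j) c * remb (e j) (EJ m : K) * τ.im) * hσ2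
    have hsg : remb (e j) c / |remb (e j) c| = σ j := by
      rw [div_eq_iff (abs_ne_zero.2 (remb_ne_zero _ hc)), ← hσc j]
      linear_combination (-remb (e j) c) * hσ2
    have e1 : σ j * remb (e j) (EJ m : K) * b j =
        remb (e j) c * remb (e j) (EJ m : K) * τ.re + remb (e j) ((EJ m : K) * x₀) := by
      rw [hb, ← hσc j, map_mul]
      linear_combination (remb (e j) (EJ m : K) * remb (e j) c * τ.re +
        remb (e j) (EJ m : K) * remb (e j) x₀) * hσ2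
    rw [e1, e2, hsg, Complex.ofReal_add, mul_add, Complex.exp_add]
    have : (a j : ℂ) ≠ 0 := Complex.ofReal_ne_zero.2 (ha0 j).ne'
    push_cast
    field_simp
  have hds : Summable fun ν : ↥(dualIdeal J : Set K) =>
      dualTerm1 s τ c ν * trChar ((ν : K) * x₀) := by
    obtain ⟨δ, hδ, hδc⟩ : ∃ δ, 0 < δ ∧ ∀ w, δ ≤ |remb w c| := by
      have hne : (Finset.univ : Finset (InfinitePlace K)).Nonempty := Finset.univ_nonempty
      exact ⟨Finset.univ.inf' hne fun w => |remb w c|,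
        (Finset.lt_inf'_iff hne).2 fun w _ => abs_pos.2 (remb_ne_zero w hc),
        fun w => Finset.inf'_le _ (Finset.mem_univ w)⟩
    obtain ⟨D, -, hD⟩ := exists_dual1_bound J hy hδ
    obtain ⟨C, -, hC⟩ := exists_translate_bound (dualIdeal J)
    refine Summable.of_norm_bounded_eventually (((hC fun _ => 0).1.mul_left
      (D * (((|Algebra.norm ℚ c| : ℚ) : ℝ) ^ 2)⁻¹))) ?_
    filter_upwards [(Set.finite_singleton (⟨0, zero_mem_ideal _⟩ :
      ↥(dualIdeal J : Set K))).compl_mem_cofinite] with ν hν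
    rw [norm_mul, FA.HeckeCharFE.norm_trChar, mul_one, mul_assoc]
    simpa using hD s hs τ le_rfl c hδc ν ν.2 fun h => hν (Subtype.ext h)
  refine ⟨hds, ?_⟩
  have hp := poisson_dominated hHc hHd hcoef ((EJ.summable_iff.2 hds).mul_left _)
  rw [← tsum_mul_left, ← EI.tsum_eq, ← EJ.tsum_eq, ← hp]
  refine tsum_congr fun v => ?_
  rw [hH, hTerm, ← e.prod_comp fun w => ((remb w c : ℂ) * τ + (remb w (x₀ + EI v) : ℂ))⁻¹ *
    rp (Complex.normSq ((remb w c : ℂ) * τ + (remb w (x₀ + EI v) : ℂ))) s]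
  refine Finset.prod_congr rfl fun j _ => ?_
  rw [hg, hNint, placeTerm1_eq s τ (hσ j) (hσc j) (remb_ne_zero _ hc), hA, ← ha j, hb, map_add]
  ring_nf

end FA.KlingenZero

end
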