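import Fermat.Agent.KlingenZero.Mean
import Fermat.Agent.HeckeFE.Extension
import Fermat.Agent.Root.SummaryAbelianZeta
import Fermat.Agent.ArtinL.DegreeOne

/-!
# The values at `0` of every ray class character of a totally real field

The functional equation carries the value at `1` of a totally odd primitive character to its value
at `0`, which is a Gauss sum times the constant terms of the forms of weight `n`; the other
characters vanish there or reduce to the zeta function of the field.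
-/

set_option autoImplicit false
set_option linter.unusedSectionVars false
set_option linter.style.haveILetI false

noncomputable section

open NumberField InfinitePlace IsDedekindDomain Module Filter Complex
open scoped Real nonZeroDivisors Classical Topology

namespace FA.KlingenZero

open FA.HeckeFE FA.SiegelKlingen FA.HeckeCharFE FA.KlingenRay
open FA.Hecke (IsRayChar IsNontrivial heckeL fPow)

variable {K : Type*} [Field K] [NumberField K] [IsTotallyReal K]
variable {𝔪 𝔭 : Ideal (𝓞 K)} {f : Ideal (𝓞 K) →* ℂ} {S : Finset (InfinitePlace K)}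

theorem one_sub_one : (1 : ℂ) - ((1 : ℕ) : ℂ) = 0 := by simp

/-- The functional equation between `1` and `0`: the transcendental factors leave a rational
number and the Gauss sum. -/
theorem invFac_mul_charFac (h : HasSigns 𝔪 f Finset.univ) :
    invFac K 𝔪 Finset.univ 0 * rootC 𝔪 f Finset.univ * charFac K 𝔪 Finset.univ 1 * piConst K 1 =
      (feFactor K 𝔪 1 : ℂ) * gaussW 𝔪 f Finset.univ := by
  have hG := invFac_parity (K := K) (S := Finset.univ) (Or.inr ⟨odd_one, rfl⟩) le_rfl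
  rw [one_sub_one, Nat.cast_one] at hG
  rw [invFac, rootC, charFac, piConst, IsTotallyReal.nrComplexPlaces_eq_zero, pow_zero, mul_one,
    feFactor]
  obtain ⟨D, hD⟩ : ∃ D : ℕ, D = (discr K).natAbs * Ideal.absNorm 𝔪 := ⟨_, rfl⟩
  have hD0 : D ≠ 0 := hD ▸ mul_ne_zero (Int.natAbs_ne_zero.2 (discr_ne_zero K))
    fun h0 => h.ne_bot (Ideal.absNorm_eq_zero_iff.1 h0)
  have hroot : ((√(Ideal.absNorm 𝔪 : ℝ) : ℝ) : ℂ) * ((√|((discr K : ℤ) : ℝ)| : ℝ) : ℂ) =
      (D : ℂ) ^ ((1 : ℂ) / 2) := by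
    rw [show |((discr K : ℤ) : ℝ)| = ((discr K).natAbs : ℝ) by rw [Nat.cast_natAbs, Int.cast_abs],
      ← ofReal_mul, ← Real.sqrt_mul (Nat.cast_nonneg _), ← Nat.cast_mul, mul_comm (Ideal.absNorm 𝔪),
      ← hD, Real.sqrt_eq_rpow, ofReal_cpow (Nat.cast_nonneg _), ofReal_natCast]
    congr 1
    push_cast
    ring
  have hne : (D : ℂ) ^ ((1 : ℂ) / 2) ≠ 0 := cpow_ne_zero_iff.2 (Or.inl (Nat.cast_ne_zero.2 hD0))
  have hr1 : ((√(Ideal.absNorm 𝔪 : ℝ) : ℝ) : ℂ) ≠ 0 := left_ne_zero_of_mul (hroot ▸ hne)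
  have hr2 : ((√|((discr K : ℤ) : ℝ)| : ℝ) : ℂ) ≠ 0 := right_ne_zero_of_mul (hroot ▸ hne)
  simp only [Rat.cast_mul, Rat.cast_pow, Rat.cast_neg, Rat.cast_one,
    Rat.cast_ofNat, ← hD, zero_div, neg_zero, cpow_zero, Nat.sub_self, pow_zero, one_mul,
    Nat.factorial_zero, Nat.cast_one, mul_one] at hG ⊢
  rw [← hG]
  field_simp
  rw [← hroot]
  ring

/-- **The value at `0` of a primitive totally odd character.** -/
theorem primExt_zero (h : HasSigns 𝔪 f Finset.univ) (hp : IsPrimitiveChar 𝔪 f)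
    (hnt : IsNontrivial f) (hp𝔭 : 𝔭 ≠ ⊥) (hne : conjChar f 𝔭 ≠ 1) (N : ℕ) [NeZero N] :
    primExt h hp 0 = (feFactor K 𝔪 1 : ℂ) * (gaussW 𝔪 f Finset.univ *
      valueSum1 𝔪 (conjChar f) 𝔭 N / (1 - conjChar f 𝔭)) := by
  have hF : charFac K 𝔪 Finset.univ 1 ≠ 0 := h.charFac_ne_zero (by simp)
  have hinv : invFac K 𝔪 Finset.univ 1 = (charFac K 𝔪 Finset.univ 1)⁻¹ := by
    rw [invFac, charFac, IsTotallyReal.nrComplexPlaces_eq_zero, pow_zero, mul_one, cpow_neg,
      mul_inv, mul_inv, inv_pow, inv_pow]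
  have h1 : primExt h hp 0 = invFac K 𝔪 Finset.univ 0 * rootC 𝔪 f Finset.univ *
      charFac K 𝔪 Finset.univ 1 * primExt h.conj hp.conj 1 := by
    rw [primExt, primExt, hinv, mul_assoc _ (charFac K 𝔪 Finset.univ 1),
      mul_inv_cancel_left₀ hF, mul_assoc, ← h.completedL_one_sub hp hnt, sub_self]
  have h2 : primExt h.conj hp.conj 1 =
      piConst K 1 * valueSum1 𝔪 (conjChar f) 𝔭 N / (1 - conjChar f 𝔭) := by
    rw [piConst_mul_valueSum1 h.conj hp𝔭 hp.conj hnt.conj N,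
      mul_div_cancel_right₀ _ (sub_ne_zero.2 hne.symm)]
  rw [h1, h2, mul_div_assoc, ← mul_assoc, invFac_mul_charFac h]
  ring

theorem invFac_zero (hS : S ≠ Finset.univ) (𝔪 : Ideal (𝓞 K)) : invFac K 𝔪 S 0 = 0 := by
  have hlt : S.card < Fintype.card (InfinitePlace K) := by
    rw [Finset.card_lt_iff_ne_univ]
    exact hS
  rw [card_eq_nrRealPlaces_add_nrComplexPlaces, IsTotallyReal.nrComplexPlaces_eq_zero,
    Nat.add_zero] at hlt
  have hz : Gammaℝ 0 = 0 := Gammaℝ_eq_zero_iff.2 ⟨0, by simp⟩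
  rw [invFac, hz, inv_zero, zero_pow (by omega : nrRealPlaces K - S.card ≠ 0), zero_mul, mul_zero]

theorem exists_modulus (h : 𝔪 ≠ ⊥) (hp𝔭 : 𝔭 ≠ ⊥) : ∃ N : ℕ, N ≠ 0 ∧ (N : 𝓞 K) ∈ 𝔪 ∧
    (N : 𝓞 K) ∈ 𝔭 := by
  refine ⟨Ideal.absNorm 𝔪 * Ideal.absNorm 𝔭, mul_ne_zero (fun e => h
    (Ideal.absNorm_eq_zero_iff.1 e)) fun e => hp𝔭 (Ideal.absNorm_eq_zero_iff.1 e), ?_, ?_⟩
  · rw [Nat.cast_mul]
    exact 𝔪.mul_mem_right _ (Ideal.absNorm_mem 𝔪)
  · rw [Nat.cast_mul]
    exact 𝔭.mul_mem_left _ (Ideal.absNorm_mem 𝔭)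

/-- **Equivariance for a primitive character.** -/
theorem primExt_zero_galois (h : HasSigns 𝔪 f S) (hp : IsPrimitiveChar 𝔪 f) (hnt : IsNontrivial f)
    (σ : ℂ →+* ℂ) : σ (primExt h hp 0) = primExt (twist_signs h σ) (twist_prim hp σ) 0 := by
  by_cases hS : S = Finset.univ
  swap
  · rw [primExt, primExt, invFac_zero hS, zero_mul, zero_mul, map_zero]
  subst hS
  obtain ⟨𝔭, -, hp𝔭, hc, hne⟩ := exists_aux_prime h.conj.ray hnt.conj
  obtain ⟨N, hN0, hN, hN𝔭⟩ := exists_modulus h.ne_bot hp𝔭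
  have : NeZero N := ⟨hN0⟩
  have h' := twist_signs h σ
  have hcc := twist_conjChar h.ray σ h'.ray
  have hne' : conjChar (twistChar σ f) 𝔭 ≠ 1 := fun e => hne (σ.injective (by
    rw [map_one]
    exact (DFunLike.congr_fun hcc 𝔭).trans e))
  obtain ⟨t, t', htt, hσ⟩ := exists_exponent σ N
  rw [primExt_zero h hp hnt hp𝔭 hne N,
    primExt_zero h' (twist_prim hp σ) (twist_nontrivial hnt σ) hp𝔭 hne' N, map_mul, map_ratCast,
    map_div₀, map_mul, map_sub, map_one, gaussW_galois h σ hN htt hσ,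
    valueSum1_galois h.conj hp.conj hp𝔭 hc σ hN hN𝔭 htt hσ,
    show σ (conjChar f 𝔭) = conjChar (twistChar σ f) 𝔭 from DFunLike.congr_fun hcc 𝔭, hcc,
    conjChar, h'.resFn_conj, ← conjChar]
  have e := h'.resFn_mul_conj (natCast_coprime hN (mul_comm t t' ▸ htt)).1
  congr 2
  linear_combination (gaussW 𝔪 (twistChar σ f) Finset.univ *
    valueSum1 𝔪 (conjChar (twistChar σ f)) 𝔭 N) * e

/-- **A primitive totally odd character does not vanish at `0`.** -/
theorem primExt_zero_ne_zero (h : HasSigns 𝔪 f Finset.univ) (hp : IsPrimitiveChar 𝔪 f)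
    (hnt : IsNontrivial f) : primExt h hp 0 ≠ 0 := by
  obtain ⟨𝔭, -, hp𝔭, -, hne⟩ := exists_aux_prime h.conj.ray hnt.conj
  obtain ⟨N, hN0, -, -⟩ := exists_modulus h.ne_bot hp𝔭
  have : NeZero N := ⟨hN0⟩
  have h1 : primExt h.conj hp.conj 1 ≠ 0 := h.conj.ray.heckeE_ne_zero
    (differentiable_primExt h.conj hp.conj)
    (fun s hs => (primExt_eq h.conj hp.conj hnt.conj hs).symm) (by simp)
  have hV : valueSum1 𝔪 (conjChar f) 𝔭 N ≠ 0 := fun e => by
    have h2 := piConst_mul_valueSum1 h.conj hp𝔭 hp.conj hnt.conj N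
    rw [e, mul_zero] at h2
    exact mul_ne_zero h1 (sub_ne_zero.2 hne.symm) h2.symm
  have hg : gaussW 𝔪 f Finset.univ ≠ 0 := fun e => by
    have e' := h.norm_gaussW hp hnt
    rw [e, norm_zero] at e'
    exact (Real.sqrt_pos.2 (absNorm_pos' h.ne_bot)).ne e'
  rw [primExt_zero h hp hnt hp𝔭 hne N]
  exact mul_ne_zero (Rat.cast_ne_zero.2 (feFactor_ne_zero h.ne_bot 1))
    (div_ne_zero (mul_ne_zero hg hV) (sub_ne_zero.2 hne.symm))

/-- The value at `0` of the zeta function of the field. -/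
theorem exists_extension_zero : ∃ r : ℚ, extension K 0 = (r : ℂ) ∧
    (r = 0 ↔ finrank ℚ K ≠ 1) := by
  by_cases h1 : finrank ℚ K = 1
  · have hb := Module.Free.bijective_algebraMap_of_finrank_eq_one (R := ℚ) (S := K) h1
    obtain ⟨e, -⟩ : ∃ e : K ≃ₐ[ℚ] ℚ, True :=
      ⟨(AlgEquiv.ofBijective (Algebra.ofId ℚ K) hb).symm, trivial⟩
    have hE : IsLExt (1 : Ideal (𝓞 K) →* ℂ) (extension K) :=
      ⟨differentiableOn_extension K, fun s hs => by
        rw [extension_eq_dedekindZeta K hs, FA.Hecke.heckeL_one hs]⟩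
    have hR : IsLExt (1 : Ideal (𝓞 K) →* ℂ) riemannZeta :=
      ⟨fun s hs => (differentiableAt_riemannZeta hs).differentiableWithinAt, fun s hs => by
        rw [FA.Hecke.heckeL_one hs, FA.AbelianZeta.dedekindZeta_congr e.toRingEquiv,
          FA.ArtinL.dedekindZeta_rat hs]⟩
    refine ⟨-1 / 2, ?_, iff_of_false (by norm_num) (not_not.2 h1)⟩
    rw [hE.unique hR zero_ne_one, riemannZeta_zero]
    push_cast
    ring
  · refine ⟨0, ?_, iff_of_true rfl h1⟩
    have hr : nrRealPlaces K + nrComplexPlaces K - 1 ≠ 0 := by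
      have hn := IsTotallyReal.finrank (K := K)
      have := finrank_pos (R := ℚ) (M := K)
      rw [IsTotallyReal.nrComplexPlaces_eq_zero]
      omega
    rw [extension, zero_pow hr, mul_zero, zero_mul, Rat.cast_zero]

/-- **The automorphisms of `ℂ` act through the character.** -/
theorem value_zero_galois (h : IsRayChar 𝔪 f) (σ : ℂ →+* ℂ) {Z Z' : ℂ → ℂ} (hZ : IsLExt f Z)
    (hZ' : IsLExt (twistChar σ f) Z') : σ (Z 0) = Z' 0 := by
  by_cases hnt : IsNontrivial f
  · obtain ⟨𝔣, g, -, hg, hp, hgn, hgf⟩ := exists_primitive h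
    obtain ⟨S, hS⟩ := exists_hasSigns hg
    have hfac := factors_galois σ g h.finite_zero.toFinset (k := 1) le_rfl
    rw [one_sub_one] at hfac
    rw [hZ.unique (isLExt_induced h hS hp (hgn hnt) hgf) zero_ne_one, hZ'.unique
      (isLExt_induced (twist_ray h σ) (twist_signs hS σ) (twist_prim hp σ)
        (twist_nontrivial (hgn hnt) σ) fun I hI hc => congrArg σ (hgf I hI hc)) zero_ne_one,
      zeroSet_twist h σ (twist_ray h σ), map_mul, primExt_zero_galois hS hp (hgn hnt) σ, hfac]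
  · have hfac := factors_galois σ (1 : Ideal (𝓞 K) →* ℂ) h.finite_zero.toFinset (k := 1) le_rfl
    rw [one_sub_one] at hfac
    rw [hZ.unique (isLExt_trivial h hnt) zero_ne_one,
      hZ'.unique (isLExt_trivial (twist_ray h σ) (twist_trivial hnt σ)) zero_ne_one,
      zeroSet_twist h σ (twist_ray h σ), map_mul, hfac,
      show twistChar σ (1 : Ideal (𝓞 K) →* ℂ) = 1 from MonoidHom.ext fun _ => map_one σ]
    obtain ⟨r, hr, -⟩ := exists_extension_zero (K := K)
    rw [hr, map_ratCast]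

/-- **The value lies in the field of the character.** -/
theorem value_zero_mem (h : IsRayChar 𝔪 f) {Z : ℂ → ℂ} (hZ : IsLExt f Z) :
    Z 0 ∈ IntermediateField.adjoin ℚ (Set.range f) := by
  refine mem_of_forall_fixed _ _ fun σ hσ => ?_
  have e : twistChar σ.toRingHom f = f := MonoidHom.ext fun I =>
    hσ _ (IntermediateField.subset_adjoin ℚ _ ⟨I, rfl⟩)
  exact value_zero_galois h σ.toRingHom hZ (e.symm ▸ hZ)

/-- **A primitive character vanishes at `0` exactly when it is not totally odd.** -/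
theorem value_zero_eq_zero_iff (h : HasSigns 𝔪 f S) (hp : IsPrimitiveChar 𝔪 f)
    (hnt : IsNontrivial f) {Z : ℂ → ℂ} (hZ : IsLExt f Z) : Z 0 = 0 ↔ S ≠ Finset.univ := by
  have hext : IsLExt f (primExt h hp) :=
    ⟨(differentiable_primExt h hp).differentiableOn, fun s hs => primExt_eq h hp hnt hs⟩
  rw [hZ.unique hext zero_ne_one]
  refine ⟨fun e hS => ?_, fun hS => by rw [primExt, invFac_zero hS, zero_mul]⟩
  subst hS
  exact primExt_zero_ne_zero h hp hnt e

end FA.KlingenZero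

end
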